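import Fermat.Agent.LT.H3.Inv2

set_option autoImplicit false

/-!
# Balls in hyperbolic 3-space, homogeneity
-/

namespace Fermat.Agent.LT

open Matrix ComplexConjugate MeasureTheory Set Topology

namespace H3

theorem continuous_cd : Continuous fun q : H3 × H3 => cd q.1 q.2 := by
  unfold cd
  have h1 : Continuous fun q : H3 × H3 => q.1.z := continuous_z.comp continuous_fst
  have h2 : Continuous fun q : H3 × H3 => q.2.z := continuous_z.comp continuous_snd
  have h3 : Continuous fun q : H3 × H3 => q.1.y := continuous_y.comp continuous_fst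
  have h4 : Continuous fun q : H3 × H3 => q.2.y := continuous_y.comp continuous_snd
  refine Continuous.div (by fun_prop) (by fun_prop) fun q => ?_
  have := q.1.pos
  have := q.2.pos
  positivity

theorem continuous_cd_right (p : H3) : Continuous fun p' : H3 => cd p p' := by
  have h : Continuous fun p' : H3 => ((p, p') : H3 × H3) :=
    continuous_const.prodMk continuous_id
  have h2 := continuous_cd.comp h
  simpa only [Function.comp_def] using h2

theorem continuous_cd_left (p' : H3) : Continuous fun p : H3 => cd p p' := by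
  have h : Continuous fun p : H3 => ((p, p') : H3 × H3) :=
    continuous_id.prodMk continuous_const
  have h2 := continuous_cd.comp h
  simpa only [Function.comp_def] using h2

theorem toCR_image_ball (p : H3) (R : ℝ) : toCR '' {p' | cd p p' ≤ R} =
    {q : ℂ × ℝ | ‖p.z - q.1‖ ^ 2 + p.y ^ 2 + q.2 ^ 2 ≤ R * (2 * p.y * q.2) ∧ 0 ≤ q.2} := by
  have hp := p.pos
  ext q
  constructor
  · rintro ⟨p', h, rfl⟩
    have hp' := p'.pos
    refine ⟨?_, hp'.le⟩
    have h1 : cd p p' ≤ R := h
    rwa [cd, div_le_iff₀ (by positivity)] at h1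
  · rintro ⟨h1, h2⟩
    have hq : 0 < q.2 := by
      rcases h2.lt_or_eq with h | h
      · exact h
      · exfalso
        rw [← h] at h1
        have : 0 < p.y ^ 2 := by positivity
        nlinarith [sq_nonneg ‖p.z - q.1‖]
    refine ⟨⟨q.1, q.2, hq⟩, ?_, rfl⟩
    show cd p _ ≤ R
    rw [cd, div_le_iff₀ (by positivity)]
    exact h1

/-- Balls are compact. -/
theorem isCompact_ball (p : H3) (R : ℝ) : IsCompact {p' | cd p p' ≤ R} := by
  rw [isOpenEmbedding_toCR.isInducing.isCompact_iff, toCR_image_ball]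
  have hp := p.pos
  refine Metric.isCompact_of_isClosed_isBounded ?_ ?_
  · have c1 : Continuous fun q : ℂ × ℝ => ‖p.z - q.1‖ ^ 2 + p.y ^ 2 + q.2 ^ 2 := by fun_prop
    have c2 : Continuous fun q : ℂ × ℝ => R * (2 * p.y * q.2) := by fun_prop
    exact (isClosed_le c1 c2).inter (isClosed_le continuous_const continuous_snd)
  · refine (Metric.isBounded_closedBall (x := (p.z, (0 : ℝ)))
      (r := |R| * (2 * p.y) + 1)).subset ?_
    rintro q ⟨h1, h2⟩
    have hR : R * (2 * p.y * q.2) ≤ |R| * (2 * p.y) * q.2 := by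
      have := mul_le_mul_of_nonneg_right (le_abs_self R) (by positivity : 0 ≤ 2 * p.y * q.2)
      linarith
    have hB : 0 ≤ |R| * (2 * p.y) := by positivity
    set B := |R| * (2 * p.y) with hBdef
    have h3 : q.2 ≤ B := by
      by_contra hlt
      push Not at hlt
      have : 0 < p.y ^ 2 := by positivity
      nlinarith [sq_nonneg ‖p.z - q.1‖]
    have h4 : ‖p.z - q.1‖ ≤ B + 1 := by
      have h5 : ‖p.z - q.1‖ ^ 2 ≤ B ^ 2 := by nlinarith [sq_nonneg p.y, sq_nonneg q.2]
      have := abs_le_of_sq_le_sq' h5 hB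
      linarith [this.2]
    rw [Metric.mem_closedBall, Prod.dist_eq, max_le_iff]
    constructor
    · rw [dist_comm, dist_eq_norm]
      exact h4
    · rw [Real.dist_eq, sub_zero, abs_of_nonneg h2]
      linarith

theorem isCompact_ball' (p : H3) (R : ℝ) : IsCompact {p' | cd p' p ≤ R} := by
  simp_rw [cd_symm _ p]
  exact isCompact_ball p R

/-- Balls around points of a compact set lie in a compact set. -/
theorem exists_cd_le_of_isCompact {K : Set H3} (hK : IsCompact K) (p₀ : H3) :
    ∃ C : ℝ, ∀ p ∈ K, cd p₀ p ≤ C := by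
  obtain ⟨C, hC⟩ := (hK.image (continuous_cd_right p₀)).isBounded.bddAbove
  exact ⟨C, fun p hp => hC (mem_image_of_mem _ hp)⟩

instance : Measure.IsOpenPosMeasure ((volume : Measure (ℂ × ℝ)).comap toCR) := by
  have : (volume : Measure (ℂ × ℝ)).IsOpenPosMeasure := inferInstance
  exact Measure.IsOpenPosMeasure.comap _ isOpenEmbedding_toCR

instance : Measure.IsOpenPosMeasure (volume : Measure H3) := by
  rw [volume_def]
  refine (withDensity_absolutelyContinuous' continuous_yinv.measurable.ennreal_ofReal.aemeasurable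
    ?_).isOpenPosMeasure
  refine Filter.Eventually.of_forall fun p => ?_
  have := p.pos
  simp only [ne_eq, ENNReal.ofReal_eq_zero, not_le]
  positivity

/-- the point at height `y` above the origin -/
def pt (y : ℝ) (hy : 0 < y) : H3 := ⟨0, y, hy⟩

/-- There is an isometry moving a given point to another one. -/
theorem exists_smul_eq (p p' : H3) : ∃ g : GL (Fin 2) ℂ, g • p = p' :=
  ⟨up p' * (up p)⁻¹, by rw [mul_smul, inv_smul_eq_iff.mpr (up_smul_j p).symm, up_smul_j]⟩

/-- scalar matrices act trivially -/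
theorem smul_eq_of_sq_scalar (g : GL (Fin 2) ℂ) (h : g 1 1 = - g 0 0) (p : H3) :
    g • g • p = p := by
  apply ext_q
  intro c d
  have hd : (g : Matrix (Fin 2) (Fin 2) ℂ).det = -(g 0 0 * g 0 0) - g 0 1 * g 1 0 := by
    rw [Matrix.det_fin_two, h]; ring
  have hd0 : ‖(g : Matrix (Fin 2) (Fin 2) ℂ).det‖ ≠ 0 := norm_ne_zero_iff.mpr g.det_ne_zero
  rw [q_smul_eq, q_smul_eq, h]
  have e1 : (c * g 0 0 + d * g 1 0) * g 0 0 + (c * g 0 1 + d * -g 0 0) * g 1 0 =
      -(g : Matrix (Fin 2) (Fin 2) ℂ).det * c := by rw [hd]; ring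
  have e2 : (c * g 0 0 + d * g 1 0) * g 0 1 + (c * g 0 1 + d * -g 0 0) * -g 0 0 =
      -(g : Matrix (Fin 2) (Fin 2) ℂ).det * d := by rw [hd]; ring
  rw [e1, e2, q_smul, norm_neg]
  field_simp

theorem exists_swap_j (p : H3) : ∃ g : GL (Fin 2) ℂ, g • j = p ∧ g • p = j := by
  have hp := p.pos
  suffices h : ∃ g : GL (Fin 2) ℂ, g 1 1 = - g 0 0 ∧ g • j = p by
    obtain ⟨g, h1, h2⟩ := h
    refine ⟨g, h2, ?_⟩
    rw [← h2]
    exact smul_eq_of_sq_scalar g h1 j
  by_cases hz : p.z = 0
  · refine ⟨Matrix.GeneralLinearGroup.mkOfDetNeZero !![0, (p.y : ℂ); 1, 0] ?_, ?_, ?_⟩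
    · rw [Matrix.det_fin_two_of]
      simpa using hp.ne'
    · show (0 : ℂ) = -0
      simp
    · set g : GL (Fin 2) ℂ := Matrix.GeneralLinearGroup.mkOfDetNeZero !![0, (p.y : ℂ); 1, 0] _
      have e1 : g 0 0 = 0 := rfl
      have e2 : g 0 1 = p.y := rfl
      have e3 : g 1 0 = 1 := rfl
      have e4 : g 1 1 = 0 := rfl
      apply H3.ext
      · rw [smul_z, e1, e2, e3, e4, hz]
        simp [num, j]
      · rw [smul_y, Matrix.det_fin_two, e1, e2, e3, e4]
        simp [den, j, abs_of_pos hp]
  · have hy : (1 + p.y : ℝ) ≠ 0 := by positivity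
    have hyC : ((1 : ℂ) + (p.y : ℂ)) ≠ 0 := by exact_mod_cast hy
    set a : ℂ := p.z / (1 + p.y) with ha
    have ha0 : a ≠ 0 := div_ne_zero hz hyC
    have hca0 : conj a ≠ 0 := by rwa [Ne, map_eq_zero]
    have hn : (1 : ℂ) + a * conj a ≠ 0 := by
      rw [Complex.mul_conj']
      have : (1 + ‖a‖ ^ 2 : ℝ) ≠ 0 := by positivity
      exact_mod_cast this
    have hz' : p.z = a * (1 + p.y) := by rw [ha]; field_simp
    set b : ℂ := (a - p.z * (1 + a * conj a)) / conj a with hb
    have hdet : a * -a - b * 1 = (1 + a * conj a) * (a * p.y) / conj a := by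
      rw [hb, hz']; field_simp; ring
    have hdet0 : a * -a - b * 1 ≠ 0 := by
      rw [hdet]
      refine div_ne_zero (mul_ne_zero hn (mul_ne_zero ha0 ?_)) hca0
      exact_mod_cast hp.ne'
    refine ⟨Matrix.GeneralLinearGroup.mkOfDetNeZero !![a, b; 1, -a] ?_, ?_, ?_⟩
    · rw [Matrix.det_fin_two_of]
      exact hdet0
    · rfl
    · set g : GL (Fin 2) ℂ := Matrix.GeneralLinearGroup.mkOfDetNeZero !![a, b; 1, -a] _
      have e1 : g 0 0 = a := rfl
      have e2 : g 0 1 = b := rfl
      have e3 : g 1 0 = 1 := rfl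
      have e4 : g 1 1 = -a := rfl
      have hden : (j.den 1 (-a) : ℝ) = 1 + ‖a‖ ^ 2 := by
        simp [den, j]
        ring
      have hdenC : ((j.den 1 (-a) : ℝ) : ℂ) = 1 + a * conj a := by
        rw [hden, Complex.mul_conj']
        push_cast
        ring
      apply H3.ext
      · rw [smul_z, e1, e2, e3, e4, hdenC, div_eq_iff hn, num]
        simp only [j, mul_zero, zero_add, map_neg, map_one, Complex.ofReal_one, one_pow, mul_one]
        rw [hb]
        field_simp
        ring
      · rw [smul_y, Matrix.det_fin_two, e1, e2, e3, e4, hden, hdet]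
        have h1 : ‖(1 : ℂ) + a * conj a‖ = 1 + ‖a‖ ^ 2 := by
          rw [Complex.mul_conj']
          have : ((1 : ℂ) + (‖a‖ : ℂ) ^ 2) = ((1 + ‖a‖ ^ 2 : ℝ) : ℂ) := by push_cast; ring
          rw [this, Complex.norm_real, Real.norm_of_nonneg (by positivity)]
        have h2 : ‖a‖ ≠ 0 := norm_ne_zero_iff.mpr ha0
        rw [norm_div, norm_mul, norm_mul, h1, Complex.norm_conj, Complex.norm_real,
          Real.norm_of_nonneg hp.le]
        have : (1 + ‖a‖ ^ 2 : ℝ) ≠ 0 := by positivity
        simp only [j, mul_one]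
        field_simp

/-- There is an isometry interchanging two given points. -/
theorem exists_swap (p p' : H3) : ∃ g : GL (Fin 2) ℂ, g • p = p' ∧ g • p' = p := by
  obtain ⟨g, h1, h2⟩ := exists_swap_j ((up p)⁻¹ • p')
  refine ⟨up p * g * (up p)⁻¹, ?_, ?_⟩
  · rw [mul_smul, mul_smul, inv_smul_eq_iff.mpr (up_smul_j p).symm, h1, smul_inv_smul]
  · rw [mul_smul, mul_smul, h2, up_smul_j]

end H3

end Fermat.Agent.LT
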