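import Fermat.Agent.LT.H3.Inv

set_option autoImplicit false

/-!
# Invariance of the hyperbolic volume: the two types of generators
-/

namespace Fermat.Agent.LT

open Matrix ComplexConjugate MeasureTheory Set Topology

namespace H3

/-! ### Upper triangular matrices -/

theorem smul_z_of_upper {g : GL (Fin 2) ℂ} (h : g 1 0 = 0) (p : H3) :
    (g • p).z = (g 0 0 / g 1 1) * p.z + g 0 1 / g 1 1 := by
  have h1 : g 1 1 ≠ 0 := (row_ne g 1).resolve_left (fun hh => hh h)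
  have h2 : (conj (g 1 1)) ≠ 0 := by rwa [Ne, map_eq_zero]
  rw [smul_z, h]
  simp only [num, den, zero_mul, zero_add, map_zero, mul_zero, norm_zero, add_zero]
  rw [show ((‖g 1 1‖ ^ 2 + 0 ^ 2 * p.y ^ 2 : ℝ) : ℂ) = g 1 1 * conj (g 1 1) by
    rw [Complex.mul_conj']; push_cast; ring]
  field_simp

theorem smul_y_of_upper {g : GL (Fin 2) ℂ} (h : g 1 0 = 0) (p : H3) :
    (g • p).y = ‖g 0 0 / g 1 1‖ * p.y := by
  have h1 : g 1 1 ≠ 0 := (row_ne g 1).resolve_left (fun hh => hh h)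
  have h2 : ‖g 1 1‖ ≠ 0 := norm_ne_zero_iff.mpr h1
  rw [smul_y, h, Matrix.det_fin_two, h]
  simp only [den, zero_mul, zero_add, norm_zero, mul_zero, sub_zero, norm_mul, norm_div]
  field_simp
  ring

theorem det_mul_real (α : ℂ) :
    LinearMap.det (((ContinuousLinearMap.mul ℝ ℂ α : ℂ →L[ℝ] ℂ) : ℂ →ₗ[ℝ] ℂ)) = ‖α‖ ^ 2 := by
  have : ((ContinuousLinearMap.mul ℝ ℂ α : ℂ →L[ℝ] ℂ) : ℂ →ₗ[ℝ] ℂ) = Algebra.lmul ℝ ℂ α := by
    ext <;> simp
  rw [this, ← Algebra.norm_apply, Algebra.norm_complex_apply, Complex.normSq_eq_norm_sq]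

theorem measurePreserving_upper {g : GL (Fin 2) ℂ} (h : g 1 0 = 0) :
    MeasurePreserving (fun p : H3 => g • p) := by
  have h1 : g 1 1 ≠ 0 := (row_ne g 1).resolve_left (fun hh => hh h)
  have h0 : g 0 0 ≠ 0 := by
    have hd : (g : Matrix (Fin 2) (Fin 2) ℂ).det ≠ 0 := g.det_ne_zero
    rw [Matrix.det_fin_two, h, mul_zero, sub_zero] at hd
    exact left_ne_zero_of_mul hd
  set α : ℂ := g 0 0 / g 1 1 with hα
  have hα0 : 0 < ‖α‖ := norm_pos_iff.mpr (div_ne_zero h0 h1)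
  set T' : ℂ × ℝ →L[ℝ] ℂ × ℝ := (ContinuousLinearMap.mul ℝ ℂ α : ℂ →L[ℝ] ℂ).prodMap
    (‖α‖ • ContinuousLinearMap.id ℝ ℝ) with hT'
  refine measurePreserving_of_deriv g (fun q => T' q + (g 0 1 / g 1 1, 0)) ?_ (fun _ => T') ?_ ?_
  · intro q hq
    rw [actCR, toCR, smul_z_of_upper h, smul_y_of_upper h, ofCR_z, ofCR_y hq]
    apply Prod.ext <;> simp [hT', hα]
  · intro q _
    exact (T'.hasFDerivAt).add_const _
  · intro q hq
    have hq' : (0 : ℝ) < q.2 := hq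
    have hd : T'.det = ‖α‖ ^ 3 := by
      rw [ContinuousLinearMap.det, hT', ContinuousLinearMap.coe_prodMap, LinearMap.det_prodMap,
        det_mul_real]
      simp
      ring
    rw [hd, abs_of_pos (by positivity)]
    simp [hT']
    field_simp

/-! ### The inversion -/

/-- the Weyl element -/
noncomputable def wMat : GL (Fin 2) ℂ :=
  Matrix.GeneralLinearGroup.mkOfDetNeZero !![0, -1; 1, 0] (by simp [Matrix.det_fin_two_of])

theorem wMat_smul_z (p : H3) : (wMat • p).z = -conj p.z / ((‖p.z‖ ^ 2 + p.y ^ 2 : ℝ) : ℂ) := by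
  have e1 : wMat 0 0 = 0 := rfl
  have e2 : wMat 0 1 = -1 := rfl
  have e3 : wMat 1 0 = 1 := rfl
  have e4 : wMat 1 1 = 0 := rfl
  rw [smul_z, e1, e2, e3, e4]
  simp [num, den]

theorem wMat_smul_y (p : H3) : (wMat • p).y = p.y / (‖p.z‖ ^ 2 + p.y ^ 2) := by
  have e1 : wMat 0 0 = 0 := rfl
  have e2 : wMat 0 1 = -1 := rfl
  have e3 : wMat 1 0 = 1 := rfl
  have e4 : wMat 1 1 = 0 := rfl
  have e5 : ((wMat : GL (Fin 2) ℂ) : Matrix (Fin 2) (Fin 2) ℂ).det = 1 := by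
    rw [Matrix.det_fin_two, e1, e2, e3, e4]; ring
  rw [smul_y, e5, e3, e4]
  simp [den]

/-- the Euclidean version of the coordinates -/
abbrev VE := WithLp 2 (ℂ × ℝ)

/-- identification of the coordinates -/
noncomputable def eVE : VE ≃L[ℝ] ℂ × ℝ := WithLp.prodContinuousLinearEquiv 2 ℝ ℂ ℝ

theorem norm_sq_eVE_symm (q : ℂ × ℝ) : ‖eVE.symm q‖ ^ 2 = ‖q.1‖ ^ 2 + q.2 ^ 2 := by
  rw [WithLp.prod_norm_sq_eq_of_L2]
  simp [eVE]

/-- reflection of the complex coordinate -/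
noncomputable def reflC : ℂ × ℝ →L[ℝ] ℂ × ℝ :=
  (-(Complex.conjCLE : ℂ →L[ℝ] ℂ)).prodMap (ContinuousLinearMap.id ℝ ℝ)

theorem reflC_apply (q : ℂ × ℝ) : reflC q = (-conj q.1, q.2) := by
  simp only [reflC, ContinuousLinearMap.coe_prodMap']
  rfl

theorem abs_det_of_sq {E : Type*} [AddCommGroup E] [Module ℝ E]
    {f : E →ₗ[ℝ] E} (hf : f ∘ₗ f = LinearMap.id) : |LinearMap.det f| = 1 := by
  have h := congrArg LinearMap.det hf
  rw [LinearMap.det_comp, LinearMap.det_id] at h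
  rw [← abs_one, ← sq_eq_sq_iff_abs_eq_abs]
  rw [sq, h, one_pow]

theorem abs_det_reflC : |reflC.det| = 1 := by
  rw [ContinuousLinearMap.det]
  refine abs_det_of_sq ?_
  ext q <;> simp [reflC_apply]

theorem measurePreserving_wMat : MeasurePreserving (fun p : H3 => wMat • p) := by
  have hx : ∀ q ∈ uhs, eVE.symm q ≠ 0 := by
    intro q hq h
    have h1 := norm_sq_eVE_symm q
    have hq' : (0 : ℝ) < q.2 := hq
    rw [h, norm_zero] at h1
    have : 0 < ‖q.1‖ ^ 2 + q.2 ^ 2 := by positivity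
    rw [← h1] at this
    norm_num at this
  refine measurePreserving_of_deriv wMat
    (fun q => reflC (eVE (EuclideanGeometry.inversion (0 : VE) 1 (eVE.symm q)))) ?_
    (fun q => reflC ∘L (eVE : VE →L[ℝ] ℂ × ℝ) ∘L (((1 / dist (eVE.symm q) (0 : VE)) ^ 2 •
      ((ℝ ∙ (eVE.symm q - (0 : VE)))ᗮ.reflection : VE →L[ℝ] VE))) ∘L
      (eVE.symm : ℂ × ℝ →L[ℝ] VE)) ?_ ?_
  · intro q hq
    rw [actCR, toCR, wMat_smul_z, wMat_smul_y, ofCR_z, ofCR_y hq]
    simp only [EuclideanGeometry.inversion, vsub_eq_sub, sub_zero, vadd_eq_add, add_zero,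
      map_smul, ContinuousLinearEquiv.apply_symm_apply, dist_zero_right, div_pow, one_pow,
      norm_sq_eVE_symm, reflC_apply]
    apply Prod.ext
    · simp only [Prod.smul_fst, Complex.real_smul]
      push_cast
      ring
    · simp only [Prod.smul_snd, smul_eq_mul]
      ring
  · intro q hq
    have h1 := EuclideanGeometry.hasFDerivAt_inversion (c := (0 : VE)) (R := 1) (hx q hq)
    have h2 := h1.comp q (eVE.symm : ℂ × ℝ →L[ℝ] VE).hasFDerivAt
    have h3 := (eVE : VE →L[ℝ] ℂ × ℝ).hasFDerivAt.comp q h2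
    exact reflC.hasFDerivAt.comp q h3
  · intro q hq
    have hq' : (0 : ℝ) < q.2 := hq
    have hn : 0 < ‖eVE.symm q‖ := norm_pos_iff.mpr (hx q hq)
    set R : VE →L[ℝ] VE := ((ℝ ∙ (eVE.symm q - (0 : VE)))ᗮ.reflection : VE →L[ℝ] VE) with hR
    set c : ℝ := (1 / dist (eVE.symm q) (0 : VE)) ^ 2 with hc
    have hRdet : |LinearMap.det (R : VE →ₗ[ℝ] VE)| = 1 := by
      refine abs_det_of_sq (LinearMap.ext fun x => ?_)
      exact (ℝ ∙ (eVE.symm q - (0 : VE)))ᗮ.reflection_reflection x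
    have h1 : (reflC ∘L (eVE : VE →L[ℝ] ℂ × ℝ) ∘L (c • R) ∘L (eVE.symm : ℂ × ℝ →L[ℝ] VE)).det =
        reflC.det * (c ^ 3 * LinearMap.det (R : VE →ₗ[ℝ] VE)) := by
      rw [ContinuousLinearMap.det, ContinuousLinearMap.det]
      have h0 : ((reflC ∘L (eVE : VE →L[ℝ] ℂ × ℝ) ∘L (c • R) ∘L (eVE.symm : ℂ × ℝ →L[ℝ] VE) :
          ℂ × ℝ →L[ℝ] ℂ × ℝ) : ℂ × ℝ →ₗ[ℝ] ℂ × ℝ) = (reflC : ℂ × ℝ →ₗ[ℝ] ℂ × ℝ) ∘ₗ
          (((eVE : VE →L[ℝ] ℂ × ℝ) ∘L (c • R) ∘L (eVE.symm : ℂ × ℝ →L[ℝ] VE) :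
          ℂ × ℝ →L[ℝ] ℂ × ℝ) : ℂ × ℝ →ₗ[ℝ] ℂ × ℝ) := rfl
      rw [h0, LinearMap.det_comp]
      congr 1
      have h2 : (((eVE : VE →L[ℝ] ℂ × ℝ) ∘L (c • R) ∘L (eVE.symm : ℂ × ℝ →L[ℝ] VE) :
          ℂ × ℝ →L[ℝ] ℂ × ℝ) : ℂ × ℝ →ₗ[ℝ] ℂ × ℝ) =
          (eVE.toLinearEquiv : VE →ₗ[ℝ] ℂ × ℝ) ∘ₗ (c • (R : VE →ₗ[ℝ] VE)) ∘ₗ
            (eVE.toLinearEquiv.symm : ℂ × ℝ →ₗ[ℝ] VE) := rfl
      rw [h2, LinearMap.det_conj, LinearMap.det_smul]
      congr 2
      rw [LinearEquiv.finrank_eq eVE.toLinearEquiv, Module.finrank_prod, Complex.finrank_real_complex,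
        Module.finrank_self]
    rw [h1, abs_mul, abs_mul, abs_det_reflC, hRdet]
    simp only [EuclideanGeometry.inversion, vsub_eq_sub, sub_zero, vadd_eq_add, add_zero,
      map_smul, ContinuousLinearEquiv.apply_symm_apply, reflC_apply, ← hc, Prod.smul_snd,
      smul_eq_mul, one_mul, mul_one]
    have hc0 : 0 ≤ c := sq_nonneg _
    rw [abs_of_nonneg (by positivity)]
    field_simp

/-- upper triangular matrices -/
noncomputable def upTri (a b d : ℂ) (h : a * d ≠ 0) : GL (Fin 2) ℂ :=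
  Matrix.GeneralLinearGroup.mkOfDetNeZero !![a, b; 0, d] (by
    rw [Matrix.det_fin_two_of, mul_zero, sub_zero]; exact h)

theorem upTri_coe (a b d : ℂ) (h : a * d ≠ 0) :
    ((upTri a b d h : GL (Fin 2) ℂ) : Matrix (Fin 2) (Fin 2) ℂ) = !![a, b; 0, d] := rfl

theorem wMat_coe : ((wMat : GL (Fin 2) ℂ) : Matrix (Fin 2) (Fin 2) ℂ) = !![0, -1; 1, 0] := rfl

/-- Bruhat decomposition -/
theorem bruhat (g : GL (Fin 2) ℂ) (h : g 1 0 ≠ 0) :
    g = upTri 1 (g 0 0 / g 1 0) 1 (by norm_num) * wMat *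
      upTri (g 1 0) (g 1 1) ((g : Matrix (Fin 2) (Fin 2) ℂ).det / g 1 0)
        (mul_ne_zero h (div_ne_zero g.det_ne_zero h)) := by
  apply Units.ext
  rw [Units.val_mul, Units.val_mul, upTri_coe, upTri_coe, wMat_coe, Matrix.det_fin_two]
  ext i j
  fin_cases i <;> fin_cases j
  · simp [Matrix.mul_apply, Fin.sum_univ_two]
    field_simp
  · simp [Matrix.mul_apply, Fin.sum_univ_two]
    field_simp
    ring
  · simp [Matrix.mul_apply, Fin.sum_univ_two]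
  · simp [Matrix.mul_apply, Fin.sum_univ_two]

/-- **Invariance of the hyperbolic volume.** -/
theorem measurePreserving_smul_H3 (g : GL (Fin 2) ℂ) : MeasurePreserving (fun p : H3 => g • p) := by
  by_cases h : g 1 0 = 0
  · exact measurePreserving_upper h
  · have h1 := (measurePreserving_upper (g := upTri 1 (g 0 0 / g 1 0) 1 (by norm_num)) rfl).comp
      (measurePreserving_wMat.comp (measurePreserving_upper
        (g := upTri (g 1 0) (g 1 1) ((g : Matrix (Fin 2) (Fin 2) ℂ).det / g 1 0)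
        (mul_ne_zero h (div_ne_zero g.det_ne_zero h))) rfl))
    convert h1 using 1
    funext p
    simp only [Function.comp_apply, ← mul_smul]
    rw [← mul_assoc, ← bruhat g h]

instance : SMulInvariantMeasure (GL (Fin 2) ℂ) H3 volume :=
  ⟨fun g _ hs => (measurePreserving_smul_H3 g).measure_preimage hs.nullMeasurableSet⟩

theorem integral_smul_H3 {E : Type*} [NormedAddCommGroup E] [NormedSpace ℝ E] (g : GL (Fin 2) ℂ)
    (f : H3 → E) : ∫ p, f (g • p) = ∫ p, f p :=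
  (measurePreserving_smul_H3 g).integral_comp
    (Homeomorph.smul g).measurableEmbedding f

end H3

end Fermat.Agent.LT
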