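import Fermat.Agent.LT.H3.Ball

set_option autoImplicit false

/-!
# Invariant kernels of finite propagation on hyperbolic 3-space
-/

namespace Fermat.Agent.LT

open Matrix ComplexConjugate MeasureTheory Set Topology

/-- Continuous kernels on `H3`, invariant under `GL₂(ℂ)`, of finite propagation. -/
structure IKer where
  k : H3 → H3 → ℝ
  cont : Continuous fun q : H3 × H3 => k q.1 q.2
  inv : ∀ (g : GL (Fin 2) ℂ) (p p' : H3), k (g • p) (g • p') = k p p'
  R : ℝ
  supp : ∀ p p', R < H3.cd p p' → k p p' = 0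

namespace IKer

open H3

/-- relative position -/
noncomputable def rel (p p' : H3) : H3 :=
  ⟨(p'.z - p.z) / p.y, p'.y / p.y, div_pos p'.pos p.pos⟩

/-- absolute position -/
noncomputable def mv (p q : H3) : H3 := ⟨p.y * q.z + p.z, p.y * q.y, mul_pos p.pos q.pos⟩

theorem up_smul (p q : H3) : up p • q = mv p q := by
  have h : (up p) 1 0 = 0 := rfl
  have e1 : (up p) 0 0 = (p.y : ℂ) := rfl
  have e2 : (up p) 0 1 = p.z := rfl
  have e4 : (up p) 1 1 = 1 := rfl
  apply H3.ext
  · rw [smul_z_of_upper h, e1, e2, e4, div_one, div_one]; rfl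
  · rw [smul_y_of_upper h, e1, e4, div_one, Complex.norm_real, Real.norm_of_nonneg p.pos.le]; rfl

theorem mv_rel (p p' : H3) : mv p (rel p p') = p' := by
  have := p.pos.ne'
  have h2 : (p.y : ℂ) ≠ 0 := by exact_mod_cast this
  apply H3.ext
  · simp only [mv, rel]; field_simp; ring
  · simp only [mv, rel]; field_simp

theorem rel_eq (p p' : H3) : rel p p' = (up p)⁻¹ • p' := by
  rw [eq_inv_smul_iff, up_smul, mv_rel]

theorem continuous_mv : Continuous fun q : H3 × H3 => mv q.1 q.2 := by
  have h1 : Continuous fun q : H3 × H3 => q.1.z := continuous_z.comp continuous_fst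
  have h2 : Continuous fun q : H3 × H3 => q.2.z := continuous_z.comp continuous_snd
  have h3 : Continuous fun q : H3 × H3 => q.1.y := continuous_y.comp continuous_fst
  have h4 : Continuous fun q : H3 × H3 => q.2.y := continuous_y.comp continuous_snd
  refine continuous_mk ?_ ?_
  · show Continuous fun q : H3 × H3 => (q.1.y : ℂ) * q.2.z + q.1.z
    exact ((Complex.continuous_ofReal.comp h3).mul h2).add h1
  · exact h3.mul h4

theorem continuous_rel : Continuous fun q : H3 × H3 => rel q.1 q.2 := by
  have h1 : Continuous fun q : H3 × H3 => q.1.z := continuous_z.comp continuous_fst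
  have h2 : Continuous fun q : H3 × H3 => q.2.z := continuous_z.comp continuous_snd
  have h3 : Continuous fun q : H3 × H3 => q.1.y := continuous_y.comp continuous_fst
  have h4 : Continuous fun q : H3 × H3 => q.2.y := continuous_y.comp continuous_snd
  refine continuous_mk ?_ ?_
  · show Continuous fun q : H3 × H3 => (q.2.z - q.1.z) / (q.1.y : ℂ)
    exact (h2.sub h1).div (Complex.continuous_ofReal.comp h3)
      fun q => by exact_mod_cast q.1.pos.ne'
  · exact h4.div h3 fun q => q.1.pos.ne'

variable (κ : IKer)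

/-- **Symmetry.** -/
theorem symm (p p' : H3) : κ.k p p' = κ.k p' p := by
  obtain ⟨g, h1, h2⟩ := exists_swap p p'
  rw [← κ.inv g p p', h1, h2]

theorem continuous_right (p : H3) : Continuous fun p' => κ.k p p' := by
  have h : Continuous fun p' : H3 => ((p, p') : H3 × H3) :=
    continuous_const.prodMk continuous_id
  simpa only [Function.comp_def] using κ.cont.comp h

theorem hasCompactSupport_right (p : H3) : HasCompactSupport fun p' => κ.k p p' := by
  refine HasCompactSupport.intro (isCompact_ball p κ.R) fun p' h => ?_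
  exact κ.supp p p' (not_le.mp h)

theorem k_eq_rel (p p' : H3) : κ.k p p' = κ.k j (rel p p') := by
  rw [rel_eq, ← κ.inv (up p) j, up_smul_j, smul_inv_smul]

theorem k_mv (p q : H3) : κ.k p (mv p q) = κ.k j q := by
  rw [← up_smul, ← κ.inv (up p) j q, up_smul_j]

/-- a global bound -/
theorem exists_bound : ∃ C : ℝ, 0 ≤ C ∧ ∀ p p', |κ.k p p'| ≤ C := by
  obtain ⟨C, hC⟩ := (κ.hasCompactSupport_right j).exists_bound_of_continuous
    (κ.continuous_right j)
  refine ⟨C, (norm_nonneg _).trans (hC j), fun p p' => ?_⟩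
  rw [k_eq_rel]
  exact hC _

/-- the integral operator -/
noncomputable def op {E : Type*} [NormedAddCommGroup E] [NormedSpace ℝ E] (f : H3 → E) (p : H3) :
    E := ∫ p', κ.k p p' • f p'

variable {E : Type*} [NormedAddCommGroup E] [NormedSpace ℝ E]

theorem op_def (f : H3 → E) (p : H3) : κ.op f p = ∫ p', κ.k p p' • f p' := rfl

theorem op_eq (f : H3 → E) (p : H3) : κ.op f p = ∫ q, κ.k j q • f (mv p q) := by
  rw [op_def, ← integral_smul_H3 (up p)]
  refine integral_congr_ae (Filter.Eventually.of_forall fun q => ?_)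
  simp only []
  rw [up_smul, k_mv]

theorem op_smul_H3 (f : H3 → E) (g : GL (Fin 2) ℂ) (p : H3) :
    κ.op (fun p' => f (g • p')) p = κ.op f (g • p) := by
  rw [op_def, op_def, ← integral_smul_H3 g (fun p' => κ.k (g • p) p' • f p')]
  refine integral_congr_ae (Filter.Eventually.of_forall fun q => ?_)
  simp only [κ.inv]

theorem integrable_smul {f : H3 → E} (hf : LocallyIntegrable f) (p : H3) :
    Integrable fun p' => κ.k p p' • f p' :=
  hf.integrable_smul_left_of_hasCompactSupport (κ.continuous_right p)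
    (κ.hasCompactSupport_right p)

theorem integrable_smul_of_continuous {f : H3 → E} (hf : Continuous f) (p : H3) :
    Integrable fun p' => κ.k p p' • f p' :=
  κ.integrable_smul hf.locallyIntegrable p

theorem op_add {f g : H3 → E} (hf : LocallyIntegrable f) (hg : LocallyIntegrable g) (p : H3) :
    κ.op (fun x => f x + g x) p = κ.op f p + κ.op g p := by
  simp only [op_def, smul_add]
  exact integral_add (κ.integrable_smul hf p) (κ.integrable_smul hg p)

theorem op_const_smul (c : ℂ) (f : H3 → ℂ) (p : H3) :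
    κ.op (fun x => c * f x) p = c * κ.op f p := by
  simp only [op_def]
  rw [← integral_const_mul]
  refine integral_congr_ae (Filter.Eventually.of_forall fun q => ?_)
  simp only [Complex.real_smul]
  ring

/-- the operator preserves continuity -/
theorem continuous_op {f : H3 → E} (hf : Continuous f) : Continuous (κ.op f) := by
  have h : κ.op f = fun p => ∫ q in {q | cd j q ≤ κ.R}, κ.k j q • f (mv p q) := by
    funext p
    rw [op_eq]
    refine (setIntegral_eq_integral_of_forall_compl_eq_zero fun q hq => ?_).symm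
    rw [κ.supp j q (not_le.mp hq), zero_smul]
  rw [h]
  refine continuous_parametric_integral_of_continuous ?_ (isCompact_ball j κ.R)
  have h1 : Continuous fun q : H3 × H3 => f (mv q.1 q.2) := hf.comp continuous_mv
  have h2 : Continuous fun q : H3 × H3 => κ.k j q.2 :=
    (κ.continuous_right j).comp continuous_snd
  exact h2.smul h1

/-! ### Composition -/

theorem mul_eq_zero_of_lt (κ₁ κ₂ : IKer) (p q p' : H3) (h : 2 * κ₁.R * κ₂.R < cd p p') :
    κ₁.k p q * κ₂.k q p' = 0 := by
  by_contra hne
  have h1 : cd p q ≤ κ₁.R := by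
    by_contra hh
    exact hne (by rw [κ₁.supp p q (not_le.mp hh), zero_mul])
  have h2 : cd q p' ≤ κ₂.R := by
    by_contra hh
    exact hne (by rw [κ₂.supp q p' (not_le.mp hh), mul_zero])
  have h3 := cd_triangle p q p'
  have h4 := one_le_cd p q
  have h5 := one_le_cd q p'
  have : 2 * cd p q * cd q p' ≤ 2 * κ₁.R * κ₂.R := by
    have := mul_le_mul h1 h2 (by linarith) (by linarith)
    linarith
  linarith

/-- composition of kernels -/
noncomputable def comp (κ₁ κ₂ : IKer) : IKer where
  k p p' := ∫ q, κ₁.k p q * κ₂.k q p'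
  cont := by
    have h : (fun x : H3 × H3 => ∫ q, κ₁.k x.1 q * κ₂.k q x.2) =
        fun x : H3 × H3 => ∫ q in {q | cd j q ≤ κ₁.R}, κ₁.k j q * κ₂.k (mv x.1 q) x.2 := by
      funext x
      have h1 : ∫ q, κ₁.k x.1 q * κ₂.k q x.2 = ∫ q, κ₁.k j q * κ₂.k (mv x.1 q) x.2 := by
        rw [← integral_smul_H3 (up x.1)]
        refine integral_congr_ae (Filter.Eventually.of_forall fun q => ?_)
        simp only []
        rw [up_smul, k_mv]
      rw [h1]
      refine (setIntegral_eq_integral_of_forall_compl_eq_zero fun q hq => ?_).symm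
      rw [κ₁.supp j q (not_le.mp hq), zero_mul]
    rw [h]
    refine continuous_parametric_integral_of_continuous ?_ (isCompact_ball j κ₁.R)
    have c1 : Continuous fun y : (H3 × H3) × H3 => κ₁.k j y.2 :=
      (κ₁.continuous_right j).comp continuous_snd
    have c2 : Continuous fun y : (H3 × H3) × H3 => mv y.1.1 y.2 :=
      continuous_mv.comp ((continuous_fst.comp continuous_fst).prodMk continuous_snd)
    have c3 : Continuous fun y : (H3 × H3) × H3 => κ₂.k (mv y.1.1 y.2) y.1.2 :=
      κ₂.cont.comp (c2.prodMk (continuous_snd.comp continuous_fst))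
    exact c1.mul c3
  inv g p p' := by
    rw [← integral_smul_H3 g (fun q => κ₁.k (g • p) q * κ₂.k q (g • p'))]
    refine integral_congr_ae (Filter.Eventually.of_forall fun q => ?_)
    simp only [κ₁.inv, κ₂.inv]
  R := 2 * κ₁.R * κ₂.R
  supp p p' h := by
    rw [integral_congr_ae (Filter.Eventually.of_forall fun q => mul_eq_zero_of_lt κ₁ κ₂ p q p' h)]
    exact integral_zero _ _

theorem comp_k (κ₁ κ₂ : IKer) (p p' : H3) :
    (comp κ₁ κ₂).k p p' = ∫ q, κ₁.k p q * κ₂.k q p' := rfl

/-- **Commutativity.** -/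
theorem comp_comm_k (κ₁ κ₂ : IKer) (p p' : H3) : (comp κ₁ κ₂).k p p' = (comp κ₂ κ₁).k p p' := by
  rw [(comp κ₁ κ₂).symm, comp_k, comp_k]
  refine integral_congr_ae (Filter.Eventually.of_forall fun q => ?_)
  simp only []
  rw [κ₁.symm p' q, κ₂.symm q p, mul_comm]

/-- integrability on the product -/
theorem integrable_prod (κ₁ κ₂ : IKer) {f : H3 → E} (hf : LocallyIntegrable f) (p : H3) :
    Integrable (fun x : H3 × H3 => (κ₁.k p x.1 * κ₂.k x.1 x.2) • f x.2)
      ((volume : Measure H3).prod volume) := by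
  obtain ⟨C₁, hC₁, h₁⟩ := κ₁.exists_bound
  obtain ⟨C₂, hC₂, h₂⟩ := κ₂.exists_bound
  set B₁ : Set H3 := {q | cd p q ≤ κ₁.R} with hB₁
  set B₂ : Set H3 := {q | cd p q ≤ 2 * κ₁.R * κ₂.R} with hB₂
  have m₁ : MeasurableSet B₁ := (isCompact_ball p _).isClosed.measurableSet
  have m₂ : MeasurableSet B₂ := (isCompact_ball p _).isClosed.measurableSet
  have i₁ : Integrable (B₁.indicator fun _ => (1 : ℝ)) :=
    (integrable_indicator_iff m₁).mpr (integrableOn_const (isCompact_ball p _).measure_lt_top.ne)
  have i₂ : Integrable (B₂.indicator fun x => ‖f x‖) :=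
    (integrable_indicator_iff m₂).mpr (hf.integrableOn_isCompact (isCompact_ball p _)).norm
  have i₃ := (i₁.mul_prod i₂).const_mul (C₁ * C₂)
  have c : Continuous fun x : H3 × H3 => κ₁.k p x.1 * κ₂.k x.1 x.2 :=
    ((κ₁.continuous_right p).comp continuous_fst).mul κ₂.cont
  refine i₃.mono' (c.aestronglyMeasurable.smul hf.aestronglyMeasurable.comp_snd) ?_
  refine Filter.Eventually.of_forall fun x => ?_
  rw [norm_smul, Real.norm_eq_abs]
  by_cases h1 : x.1 ∈ B₁
  · by_cases h2 : x.2 ∈ B₂
    · rw [indicator_of_mem h1, indicator_of_mem h2, one_mul, abs_mul]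
      have := mul_le_mul (h₁ p x.1) (h₂ x.1 x.2) (abs_nonneg _) hC₁
      exact mul_le_mul_of_nonneg_right this (norm_nonneg _)
    · rw [mul_eq_zero_of_lt κ₁ κ₂ p x.1 x.2 (not_le.mp h2), abs_zero, zero_mul,
        indicator_of_notMem h2, mul_zero, mul_zero]
  · rw [κ₁.supp p x.1 (not_le.mp h1), zero_mul, abs_zero, zero_mul, indicator_of_notMem h1,
      zero_mul, mul_zero]

/-- **Composition of the operators.** -/
theorem comp_op [CompleteSpace E] (κ₁ κ₂ : IKer) {f : H3 → E} (hf : LocallyIntegrable f) (p : H3) :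
    (comp κ₁ κ₂).op f p = κ₁.op (κ₂.op f) p := by
  have h := integral_integral_swap (f := fun q p' => (κ₁.k p q * κ₂.k q p') • f p')
    (integrable_prod κ₁ κ₂ hf p)
  rw [op_def, op_def]
  have h1 : ∀ q, κ₁.k p q • κ₂.op f q = ∫ p', (κ₁.k p q * κ₂.k q p') • f p' := by
    intro q
    rw [op_def, ← integral_smul]
    refine integral_congr_ae (Filter.Eventually.of_forall fun q => ?_)
    simp only [mul_smul]
  simp_rw [h1]
  rw [h]
  refine integral_congr_ae (Filter.Eventually.of_forall fun p' => ?_)
  simp only [comp_k]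
  rw [integral_smul_const]

/-- the operators commute -/
theorem op_comm [CompleteSpace E] (κ₁ κ₂ : IKer) {f : H3 → E} (hf : LocallyIntegrable f) (p : H3) :
    κ₁.op (κ₂.op f) p = κ₂.op (κ₁.op f) p := by
  rw [← comp_op κ₁ κ₂ hf, ← comp_op κ₂ κ₁ hf, op_def, op_def]
  refine integral_congr_ae (Filter.Eventually.of_forall fun q => ?_)
  simp only [comp_comm_k κ₁ κ₂]

/-- point-pair invariants -/
noncomputable def ofFun (k : ℝ → ℝ) (hk : ContinuousOn k (Ici 1)) (R : ℝ)
    (h : ∀ t, R < t → k t = 0) : IKer where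
  k p p' := k (cd p p')
  cont := hk.comp_continuous continuous_cd fun q => one_le_cd q.1 q.2
  inv g p p' := by rw [cd_smul]
  R := R
  supp p p' hlt := h _ hlt

theorem ofFun_k (k : ℝ → ℝ) (hk : ContinuousOn k (Ici 1)) (R : ℝ)
    (h : ∀ t, R < t → k t = 0) (p p' : H3) : (ofFun k hk R h).k p p' = k (cd p p') := rfl

end IKer

end Fermat.Agent.LT
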