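import Fermat.Agent.LT.H3.Abel

set_option autoImplicit false

/-!
# Integration along horospheres
-/

namespace Fermat.Agent.LT

open MeasureTheory Set Topology Real

namespace H3

theorem uhs_eq : uhs = (univ : Set ℂ) ×ˢ Ioi (0 : ℝ) := by
  ext q
  simp [uhs]

variable {E : Type*} [NormedAddCommGroup E] [NormedSpace ℝ E]

theorem measurable_ofCR_mk : Measurable fun q : ℂ × ℝ => ofCR q := measurable_ofCR

/-- lower integrals along horospheres -/
theorem lintegral_horo {f : H3 → ENNReal} (hf : Measurable f) :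
    ∫⁻ p, f p = ∫⁻ y in Ioi (0 : ℝ), ENNReal.ofReal ((y ^ 3)⁻¹) * ∫⁻ z : ℂ, f (ofCR (z, y)) := by
  rw [lintegral_eq, uhs_eq]
  have hm : Measurable fun q : ℂ × ℝ => dens q * f (ofCR q) :=
    measurable_dens.mul (hf.comp measurable_ofCR)
  rw [Measure.volume_eq_prod, ← Measure.prod_restrict, lintegral_prod_symm' _ hm,
    Measure.restrict_univ]
  refine lintegral_congr fun y => ?_
  rw [← lintegral_const_mul]
  · rfl
  · exact hf.comp (measurable_ofCR.comp measurable_prodMk_right)

theorem integrable_iff {f : H3 → E} : Integrable f ↔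
    IntegrableOn (fun q : ℂ × ℝ => ((q.2 ^ 3)⁻¹ : ℝ) • f (ofCR q)) uhs := by
  have h2 : (fun q => f (ofCR q)) ∘ toCR = f := by
    funext p
    simp only [Function.comp_apply, ofCR_toCR]
  have h3 : Integrable f ↔ Integrable (fun p : H3 => ((p.y ^ 3)⁻¹ : ℝ) • f p)
      ((volume : Measure (ℂ × ℝ)).comap toCR) := by
    rw [volume_def, integrable_withDensity_iff_integrable_smul'
      continuous_yinv.measurable.ennreal_ofReal
      (Filter.Eventually.of_forall fun q => ENNReal.ofReal_lt_top)]
    refine integrable_congr (Filter.Eventually.of_forall fun p => ?_)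
    have hp := p.pos
    simp only []
    rw [ENNReal.toReal_ofReal (by positivity)]
  rw [h3, IntegrableOn, ← range_toCR, ← measurableEmbedding_toCR.map_comap,
    measurableEmbedding_toCR.integrable_map_iff]
  refine integrable_congr (Filter.Eventually.of_forall fun p => ?_)
  simp only [Function.comp_apply, ofCR_toCR]
  rfl

/-- **Integration along horospheres.** -/
theorem integral_horo {f : H3 → E} (hf : Integrable f) :
    ∫ p, f p = ∫ y in Ioi (0 : ℝ), ((y ^ 3)⁻¹ : ℝ) • ∫ z : ℂ, f (ofCR (z, y)) := by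
  have hi := integrable_iff.mp hf
  rw [integral_eq, uhs_eq, Measure.volume_eq_prod, ← Measure.prod_restrict,
    Measure.restrict_univ]
  rw [IntegrableOn, uhs_eq, Measure.volume_eq_prod, ← Measure.prod_restrict,
    Measure.restrict_univ] at hi
  rw [integral_prod_symm _ hi]
  refine integral_congr_ae (Filter.Eventually.of_forall fun y => ?_)
  simp only []
  rw [integral_smul]

theorem ofCR_mk_pos (z : ℂ) {y : ℝ} (hy : 0 < y) : ofCR (z, y) = ⟨z, y, hy⟩ :=
  ofCR_of_pos (q := (z, y)) hy

/-- multiplicative Haar integrals -/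
theorem integral_Ioi_exp (F : ℝ → E) :
    ∫ y in Ioi (0 : ℝ), (y⁻¹ : ℝ) • F y = ∫ u : ℝ, F (exp u) := by
  have h := integral_image_eq_integral_deriv_smul_of_monotoneOn (s := (univ : Set ℝ))
    (f := exp) (f' := exp) MeasurableSet.univ
    (fun r _ => (Real.hasDerivAt_exp r).hasDerivWithinAt) (Real.exp_monotone.monotoneOn _)
    (fun y => (y⁻¹ : ℝ) • F y)
  rw [image_univ, Real.range_exp] at h
  rw [h, setIntegral_univ]
  refine integral_congr_ae (Filter.Eventually.of_forall fun u => ?_)
  simp only [smul_smul]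
  rw [mul_inv_cancel₀ (exp_pos u).ne', one_smul]

/-- scaled and reflected version -/
theorem integral_Ioi_log (F : ℝ → E) {a : ℝ} (ha : 0 < a) :
    ∫ y in Ioi (0 : ℝ), (y⁻¹ : ℝ) • F y = ∫ u : ℝ, F (a * exp (-u)) := by
  rw [integral_Ioi_exp]
  have h1 : ∀ u, F (a * exp (-u)) = (fun v => F (exp v)) (log a - u) := by
    intro u
    simp only [sub_eq_add_neg]
    rw [Real.exp_add, Real.exp_log ha]
  simp_rw [h1]
  rw [integral_sub_left_eq_self (fun v => F (exp v)) volume (log a)]

theorem abelT_neg (k : ℝ → ℝ) (u : ℝ) : abelT k (-u) = abelT k u := by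
  rw [abelT, abelT, Real.cosh_neg]

theorem integral_Ioi_eq {k : ℝ → ℝ} (hk : Integrable k) (a : ℝ) :
    ∫ t in Ioi a, k t = (∫ t in Ioi (0 : ℝ), k t) - ∫ t in (0 : ℝ)..a, k t := by
  have := intervalIntegral.integral_Ioi_sub_Ioi' (f := k) (a := 0) (b := a) (μ := volume)
    hk.integrableOn hk.integrableOn
  linarith

theorem continuous_abelT {k : ℝ → ℝ} (hk : Integrable k) : Continuous (abelT k) := by
  have h : abelT k = fun u => 2 * π * ((∫ t in Ioi (0 : ℝ), k t) - ∫ t in (0 : ℝ)..cosh u, k t) := by
    funext u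
    rw [abelT, integral_Ioi_eq hk]
  rw [h]
  have h2 : Continuous fun a : ℝ => ∫ t in (0 : ℝ)..a, k t :=
    intervalIntegral.continuous_primitive (fun a b => hk.intervalIntegrable) 0
  have h3 : Continuous fun u : ℝ => ∫ t in (0 : ℝ)..cosh u, k t := h2.comp Real.continuous_cosh
  fun_prop

/-- vanishing of the Abel transform -/
theorem abelT_eq_zero {k : ℝ → ℝ} {R : ℝ} (h : ∀ t, R < t → k t = 0) {u : ℝ} (hu : R ≤ cosh u) :
    abelT k u = 0 := by
  rw [abelT, setIntegral_eq_zero_of_forall_eq_zero, mul_zero]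
  intro t ht
  exact h t (lt_of_le_of_lt hu ht)

theorem exists_R {k : ℝ → ℝ} (hs : HasCompactSupport k) : ∃ R : ℝ, 1 ≤ R ∧ ∀ t, R < t → k t = 0 := by
  obtain ⟨C, hC⟩ := hs.isCompact.isBounded.bddAbove
  refine ⟨max C 1, le_max_right _ _, fun t ht => ?_⟩
  by_contra hne
  have := hC (subset_tsupport k hne)
  exact absurd this (not_le.mpr (lt_of_le_of_lt (le_max_left _ _) ht))

theorem hasCompactSupport_abelT {k : ℝ → ℝ} (hs : HasCompactSupport k) :
    HasCompactSupport (abelT k) := by
  obtain ⟨R, hR1, hR⟩ := exists_R hs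
  refine HasCompactSupport.intro (isCompact_Icc (a := -(Real.arcosh R)) (b := Real.arcosh R))
    fun u hu => ?_
  refine abelT_eq_zero hR ?_
  by_contra hlt
  push Not at hlt
  apply hu
  have h1 : |u| ≤ Real.arcosh R := by
    have h2 : Real.arcosh (cosh |u|) ≤ Real.arcosh R := by
      rw [Real.cosh_abs]
      exact (Real.arcosh_le_arcosh (Real.cosh_pos u) (by linarith)).mpr hlt.le
    rwa [Real.arcosh_cosh (abs_nonneg u)] at h2
  exact ⟨(abs_le.mp h1).1, (abs_le.mp h1).2⟩

/-- the point-pair kernel attached to a compactly supported continuous function -/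
noncomputable def kerOf {k : ℝ → ℝ} (hk : Continuous k) (hs : HasCompactSupport k) : IKer :=
  IKer.ofFun k hk.continuousOn (exists_R hs).choose (exists_R hs).choose_spec.2

theorem kerOf_k {k : ℝ → ℝ} (hk : Continuous k) (hs : HasCompactSupport k) (p p' : H3) :
    (kerOf hk hs).k p p' = k (cd p p') := rfl

theorem integrable_cd {k : ℝ → ℝ} (hk : Continuous k) (hs : HasCompactSupport k) {f : H3 → E}
    (hf : Continuous f) (p : H3) : Integrable fun p' => k (cd p p') • f p' :=
  (kerOf hk hs).integrable_smul_of_continuous hf p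

omit [NormedSpace ℝ E] in
theorem continuous_comp_y {h : ℝ → E} (hh : ContinuousOn h (Ioi 0)) :
    Continuous fun p : H3 => h p.y :=
  hh.comp_continuous continuous_y fun p => p.pos

/-- point-pair operators on functions of `y` -/
theorem integral_cd_y [CompleteSpace E] {k : ℝ → ℝ} (hk : Continuous k) (hs : HasCompactSupport k) {h : ℝ → E}
    (hh : ContinuousOn h (Ioi 0)) (p : H3) :
    ∫ p', k (cd p p') • h p'.y =
      p.y • ∫ u : ℝ, abelT k u • ((p.y * exp (-u))⁻¹ • h (p.y * exp (-u))) := by
  have hp := p.pos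
  rw [integral_horo (integrable_cd hk hs (continuous_comp_y hh) p)]
  have h1 : ∀ y ∈ Ioi (0 : ℝ), ((y ^ 3)⁻¹ : ℝ) • ∫ z : ℂ, k (cd p (ofCR (z, y))) •
      h (ofCR (z, y)).y = p.y • ((y⁻¹ : ℝ) • (abelT k (log (p.y / y)) • (y⁻¹ • h y))) := by
    intro y hy
    have hy' : (0 : ℝ) < y := hy
    have h2 : ∀ z : ℂ, k (cd p (ofCR (z, y))) • h (ofCR (z, y)).y =
        k (cd p ⟨z, y, hy'⟩) • h y := by
      intro z
      rw [ofCR_mk_pos z hy']
    simp_rw [h2]
    rw [integral_smul_const, abel_real k p y hy']
    simp only [smul_smul]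
    congr 1
    field_simp
  rw [setIntegral_congr_fun measurableSet_Ioi h1, integral_smul]
  congr 1
  rw [integral_Ioi_log (fun y => abelT k (log (p.y / y)) • (y⁻¹ • h y)) hp]
  refine integral_congr_ae (Filter.Eventually.of_forall fun u => ?_)
  simp only []
  have h3 : log (p.y / (p.y * exp (-u))) = u := by
    rw [div_mul_eq_div_div, div_self hp.ne', one_div, ← Real.exp_neg, neg_neg, Real.log_exp]
  rw [h3]

/-- the eigenvalue at `r = 0` -/
noncomputable def khat (k : ℝ → ℝ) : ℝ := ∫ u : ℝ, abelT k u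

/-- the eigenvalue at general parameter -/
noncomputable def khats (k : ℝ → ℝ) (s : ℝ) : ℝ := ∫ u : ℝ, abelT k u * exp (-(s * u))

theorem khats_zero (k : ℝ → ℝ) : khats k 0 = khat k := by
  simp [khats, khat]

/-- **Powers of `y` are eigenfunctions.** -/
theorem integral_cd_rpow {k : ℝ → ℝ} (hk : Continuous k) (hs : HasCompactSupport k) (s : ℝ)
    (p : H3) : ∫ p', k (cd p p') * p'.y ^ (1 + s) = khats k s * p.y ^ (1 + s) := by
  have hp := p.pos
  have h := integral_cd_y (E := ℝ) hk hs (h := fun y => y ^ (1 + s)) (fun y hy =>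
    (Real.continuousAt_rpow_const y (1 + s) (Or.inl (ne_of_gt hy))).continuousWithinAt) p
  simp only [smul_eq_mul] at h
  rw [h, khats, ← integral_const_mul, ← integral_mul_const]
  refine integral_congr_ae (Filter.Eventually.of_forall fun u => ?_)
  simp only []
  have h1 : (0 : ℝ) < p.y * exp (-u) := mul_pos hp (exp_pos _)
  have h2 : (p.y * exp (-u))⁻¹ * (p.y * exp (-u)) ^ (1 + s) = (p.y * exp (-u)) ^ s := by
    rw [Real.rpow_add h1, Real.rpow_one]
    field_simp
  rw [h2, Real.mul_rpow hp.le (exp_pos _).le, Real.rpow_add hp, Real.rpow_one, ← Real.exp_mul]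
  rw [show -u * s = -(s * u) by ring]
  ring

theorem integral_cd_one_y {k : ℝ → ℝ} (hk : Continuous k) (hs : HasCompactSupport k)
    (p : H3) : ∫ p', k (cd p p') * p'.y = khat k * p.y := by
  have h := integral_cd_rpow hk hs 0 p
  simpa [khats_zero] using h

/-- The eigenvalue at `r = 0` in polar coordinates. -/
theorem khat_eq {k : ℝ → ℝ} (hk : Continuous k) (hs : HasCompactSupport k) :
    khat k = 4 * π * ∫ r in Ioi (0 : ℝ), k (cosh r) * (r * sinh r) := by
  obtain ⟨R, hR1, hR⟩ := exists_R hs
  -- half of the line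
  have hi : Integrable (abelT k) :=
    (continuous_abelT (hk.integrable_of_hasCompactSupport hs)).integrable_of_hasCompactSupport
      (hasCompactSupport_abelT hs)
  have h1 : khat k = 2 * ∫ u in Ioi (0 : ℝ), abelT k u := by
    rw [khat, ← integral_comp_abs]
    refine integral_congr_ae (Filter.Eventually.of_forall fun u => ?_)
    simp only []
    rcases abs_choice u with h | h <;> rw [h]
    rw [abelT_neg]
  -- the inner integral in the variable `v`
  have h2 : ∀ u ∈ Ioi (0 : ℝ), abelT k u = 2 * π * ∫ v in Ioi u, k (cosh v) * sinh v := by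
    intro u hu
    have hu' : (0 : ℝ) < u := hu
    rw [abelT]
    congr 1
    have h := integral_image_eq_integral_deriv_smul_of_monotoneOn (s := Ioi u)
      (f := cosh) (f' := sinh) measurableSet_Ioi
      (fun r _ => (Real.hasDerivAt_cosh r).hasDerivWithinAt)
      (fun r hr r' hr' h => Real.cosh_le_cosh.mpr (by
        rw [abs_of_pos (hu'.trans hr), abs_of_pos (hu'.trans hr')]; exact h)) k
    have him : cosh '' Ioi u = Ioi (cosh u) := by
      ext t
      constructor
      · rintro ⟨r, hr, rfl⟩
        have hr' : u < r := hr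
        exact Real.cosh_lt_cosh.mpr (by rw [abs_of_pos hu', abs_of_pos (hu'.trans hr')]; exact hr')
      · intro ht
        have ht' : cosh u < t := ht
        have ht1 : 1 ≤ t := (Real.one_le_cosh u).trans ht'.le
        refine ⟨Real.arcosh t, ?_, Real.cosh_arcosh ht1⟩
        have : Real.arcosh (cosh u) < Real.arcosh t :=
          (Real.arcosh_lt_arcosh (Real.cosh_pos u) (by linarith)).mpr ht'
        rwa [Real.arcosh_cosh hu'.le] at this
    rw [him] at h
    rw [h]
    refine integral_congr_ae (Filter.Eventually.of_forall fun u => ?_)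
    simp only [smul_eq_mul]
    ring
  rw [h1, setIntegral_congr_fun measurableSet_Ioi h2, integral_const_mul]
  -- Fubini
  set g : ℝ → ℝ := fun v => k (cosh v) * sinh v with hg
  have hgc : Continuous g := by fun_prop
  have hgs : ∀ v, Real.arcosh R < v → g v = 0 := by
    intro v hv
    have h0 : 0 ≤ Real.arcosh R := Real.arcosh_nonneg hR1
    have : R < cosh v := by
      rw [← Real.cosh_arcosh hR1]
      exact Real.cosh_lt_cosh.mpr (by
        rw [abs_of_nonneg h0, abs_of_pos (lt_of_le_of_lt h0 hv)]; exact hv)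
    simp only [hg]
    rw [hR _ this, zero_mul]
  have h3 : ∫ u in Ioi (0 : ℝ), ∫ v in Ioi u, g v = ∫ v in Ioi (0 : ℝ), v * g v := by
    have e1 : ∫ u in Ioi (0 : ℝ), ∫ v in Ioi u, g v =
        ∫ u in Ioi (0 : ℝ), ∫ v in Ioi (0 : ℝ), (Ioi u).indicator g v := by
      refine setIntegral_congr_fun measurableSet_Ioi fun u hu => ?_
      have hu' : (0 : ℝ) < u := hu
      rw [setIntegral_indicator measurableSet_Ioi]
      congr 1
      rw [Ioi_inter_Ioi, max_eq_right hu'.le]
    rw [e1, integral_integral_swap]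
    · refine setIntegral_congr_fun measurableSet_Ioi fun v hv => ?_
      have hv' : (0 : ℝ) < v := hv
      have e2 : ∀ u ∈ Ioi (0 : ℝ), (Ioi u).indicator g v = (Iio v).indicator (fun _ => g v) u := by
        intro u _
        by_cases h : u < v
        · rw [indicator_of_mem (show v ∈ Ioi u from h), indicator_of_mem (show u ∈ Iio v from h)]
        · rw [indicator_of_notMem (show v ∉ Ioi u from h), indicator_of_notMem
            (show u ∉ Iio v from h)]
      rw [setIntegral_congr_fun measurableSet_Ioi e2, setIntegral_indicator measurableSet_Iio,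
        setIntegral_const, Ioi_inter_Iio]
      simp [measureReal_def, hv'.le]
    · -- integrability
      have hb : Integrable (fun q : ℝ × ℝ => (Ioc (0 : ℝ) (Real.arcosh R) ×ˢ
          Ioc (0 : ℝ) (Real.arcosh R)).indicator (fun q => g q.2) q)
          (volume.prod volume) := by
        rw [integrable_indicator_iff (measurableSet_Ioc.prod measurableSet_Ioc)]
        refine IntegrableOn.mono_set (t := Icc (0 : ℝ) (Real.arcosh R) ×ˢ
          Icc (0 : ℝ) (Real.arcosh R)) ?_ (prod_mono Ioc_subset_Icc_self Ioc_subset_Icc_self)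
        exact ((hgc.comp continuous_snd).continuousOn).integrableOn_compact
          (isCompact_Icc.prod isCompact_Icc)
      have hm : Measurable fun q : ℝ × ℝ => (Ioi q.1).indicator g q.2 := by
        have e3 : (fun q : ℝ × ℝ => (Ioi q.1).indicator g q.2) =
            {q : ℝ × ℝ | q.1 < q.2}.indicator (fun q => g q.2) := by
          funext q
          by_cases h : q.1 < q.2
          · rw [indicator_of_mem (show q.2 ∈ Ioi q.1 from h),
              indicator_of_mem (show q ∈ {q : ℝ × ℝ | q.1 < q.2} from h)]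
          · rw [indicator_of_notMem (show q.2 ∉ Ioi q.1 from h),
              indicator_of_notMem (show q ∉ {q : ℝ × ℝ | q.1 < q.2} from h)]
        rw [e3]
        exact (hgc.measurable.comp measurable_snd).indicator
          (measurableSet_lt measurable_fst measurable_snd)
      rw [Measure.prod_restrict]
      refine (hb.norm.integrableOn (s := Ioi 0 ×ˢ Ioi 0)).mono' hm.aestronglyMeasurable ?_
      refine (ae_restrict_iff' (measurableSet_Ioi.prod measurableSet_Ioi)).mpr
        (Filter.Eventually.of_forall fun q hq => ?_)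
      have q1 : (0 : ℝ) < q.1 := hq.1
      have q2 : (0 : ℝ) < q.2 := hq.2
      simp only [Function.uncurry]
      by_cases h : q.1 < q.2
      · rw [indicator_of_mem (show q.2 ∈ Ioi q.1 from h)]
        by_cases hR2 : q.2 ≤ Real.arcosh R
        · rw [indicator_of_mem (show q ∈ Ioc (0 : ℝ) (Real.arcosh R) ×ˢ
            Ioc (0 : ℝ) (Real.arcosh R) from ⟨⟨q1, h.le.trans hR2⟩, ⟨q2, hR2⟩⟩)]
        · rw [hgs _ (not_le.mp hR2), norm_zero]
          exact norm_nonneg _
      · rw [indicator_of_notMem (show q.2 ∉ Ioi q.1 from h), norm_zero]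
        exact norm_nonneg _
  rw [h3]
  have h4 : ∀ r, k (cosh r) * (r * sinh r) = r * g r := fun r => by simp only [hg]; ring
  simp_rw [h4]
  ring

end H3

end Fermat.Agent.LT
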