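import Fermat.Agent.LT.H3.Horo
import Mathlib.Analysis.Calculus.BumpFunction.SmoothApprox

set_option autoImplicit false

/-!
# From smooth kernels to continuous kernels
-/

namespace Fermat.Agent.LT

open MeasureTheory Set Topology Real Filter
open scoped ContDiff

namespace H3

theorem exists_smooth_approx {k : ℝ → ℝ} (hk : Continuous k) (hks : HasCompactSupport k)
    {ε : ℝ} (hε : 0 < ε) : ∃ g : ℝ → ℝ, ContDiff ℝ ∞ g ∧ HasCompactSupport g ∧
      (∀ t, |g t - k t| ≤ ε) ∧ ∀ R : ℝ, (∀ t, R < t → k t = 0) → ∀ t, R + 1 < t → g t = 0 := by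
  have huc := hks.uniformContinuous_of_continuous hk
  obtain ⟨δ, hδ, h1⟩ := Metric.uniformContinuous_iff.mp huc ε hε
  obtain ⟨g, hg, h2⟩ := hk.exists_contDiff_dist_le_of_forall_mem_ball_dist_le
    (ε := min δ 1) (lt_min hδ one_pos)
  have hzero : ∀ a : ℝ, (∀ x ∈ Metric.ball a (min δ 1), k x = 0) → g a = 0 := by
    intro a ha
    have h3 : k a = 0 := ha a (Metric.mem_ball_self (lt_min hδ one_pos))
    have h4 := h2 a 0 fun x hx => by rw [ha x hx, h3, dist_self]
    rw [h3] at h4
    exact dist_le_zero.mp h4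
  refine ⟨g, hg, ?_, fun t => ?_, fun R hR t ht => ?_⟩
  · obtain ⟨C, hC⟩ := hks.isCompact.isBounded.subset_closedBall (0 : ℝ)
    refine HasCompactSupport.intro (isCompact_closedBall (0 : ℝ) (C + 1)) fun t ht => ?_
    apply hzero
    intro x hx
    by_contra hne
    apply ht
    have h3 := hC (subset_tsupport k hne)
    rw [Metric.mem_closedBall, dist_zero_right, Real.norm_eq_abs] at h3 ⊢
    have h4 : |x - t| < 1 := lt_of_lt_of_le (by rw [← Real.dist_eq]; exact hx) (min_le_right _ _)
    have h5 : |t| ≤ |x| + |t - x| := by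
      have := abs_add_le x (t - x)
      simpa using this
    rw [abs_sub_comm] at h5
    linarith
  · have h3 := h2 t ε fun x hx => (h1 (lt_of_lt_of_le hx (min_le_left _ _))).le
    rwa [Real.dist_eq] at h3
  · apply hzero
    intro x hx
    apply hR
    have h4 : |x - t| < 1 := lt_of_lt_of_le (by rw [← Real.dist_eq]; exact hx) (min_le_right _ _)
    have := (abs_lt.mp h4).1
    linarith

variable {E : Type*} [NormedAddCommGroup E] [NormedSpace ℝ E]

/-- A sequence of smooth kernels approximating a continuous kernel, weakly against every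
continuous function. -/
theorem exists_smooth_seq {k : ℝ → ℝ} (hk : Continuous k) (hks : HasCompactSupport k) :
    ∃ g : ℕ → ℝ → ℝ, (∀ n, ContDiff ℝ ∞ (g n)) ∧ (∀ n, HasCompactSupport (g n)) ∧
      (∀ n t, |g n t - k t| ≤ 1 / (n + 1)) ∧
      ∀ R : ℝ, (∀ t, R < t → k t = 0) → ∀ n t, R + 1 < t → g n t = 0 := by
  choose g h1 h2 h3 h4 using fun n : ℕ =>
    exists_smooth_approx hk hks (ε := 1 / ((n : ℝ) + 1)) (by positivity)
  exact ⟨g, h1, h2, h3, fun R hR n t ht => h4 n R hR t ht⟩

theorem tendsto_op {k : ℝ → ℝ} {g : ℕ → ℝ → ℝ} (hk : Continuous k) (hks : HasCompactSupport k)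
    (hg : ∀ n, Continuous (g n)) (h3 : ∀ n t, |g n t - k t| ≤ 1 / ((n : ℝ) + 1))
    (h4 : ∀ R : ℝ, (∀ t, R < t → k t = 0) → ∀ n t, R + 1 < t → g n t = 0)
    {f : H3 → E} (hf : Continuous f) (p : H3) :
    Tendsto (fun n => ∫ p', g n (cd p p') • f p') atTop (𝓝 (∫ p', k (cd p p') • f p')) := by
  obtain ⟨R, hR1, hR⟩ := exists_R hks
  obtain ⟨M, hM⟩ := hk.bounded_above_of_compact_support hks
  have hM0 : 0 ≤ M := (norm_nonneg _).trans (hM 0)
  set K : Set H3 := {p' | cd p p' ≤ R + 1} with hK
  have hKc : IsCompact K := isCompact_ball p _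
  have hKm : MeasurableSet K := hKc.isClosed.measurableSet
  have hcd : Continuous fun p' : H3 => cd p p' := continuous_cd_right p
  refine tendsto_integral_of_dominated_convergence (K.indicator fun p' => (M + 1) * ‖f p'‖) ?_ ?_ ?_ ?_
  · intro n
    have h : Continuous fun p' : H3 => g n (cd p p') := by
      have := (hg n).comp hcd
      simpa only [Function.comp_def] using this
    exact (h.smul hf).aestronglyMeasurable
  · rw [integrable_indicator_iff hKm]
    exact (continuous_const.mul hf.norm).continuousOn.integrableOn_compact hKc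
  · intro n
    refine Eventually.of_forall fun p' => ?_
    by_cases hp' : p' ∈ K
    · rw [indicator_of_mem hp', norm_smul]
      refine mul_le_mul_of_nonneg_right ?_ (norm_nonneg _)
      have e1 := h3 n (cd p p')
      have e2 := hM (cd p p')
      rw [Real.norm_eq_abs] at e2 ⊢
      have e3 : |g n (cd p p')| ≤ |k (cd p p')| + |g n (cd p p') - k (cd p p')| := by
        have := abs_add_le (k (cd p p')) (g n (cd p p') - k (cd p p'))
        simpa using this
      have e4 : 1 / ((n : ℝ) + 1) ≤ 1 := by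
        rw [div_le_one (by positivity)]
        have : (0 : ℝ) ≤ n := Nat.cast_nonneg n
        linarith
      linarith
    · rw [indicator_of_notMem hp', h4 R hR n _ (not_le.mp hp'), zero_smul, norm_zero]
  · refine Eventually.of_forall fun p' => ?_
    have h5 : Tendsto (fun n => g n (cd p p')) atTop (𝓝 (k (cd p p'))) := by
      rw [tendsto_iff_dist_tendsto_zero]
      refine squeeze_zero (fun n => dist_nonneg) (fun n => ?_) tendsto_one_div_add_atTop_nhds_zero_nat
      rw [Real.dist_eq]
      exact h3 n _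
    exact h5.smul_const _

theorem khat_mul_y {k : ℝ → ℝ} (hk : Continuous k) (hks : HasCompactSupport k) (p : H3) :
    ∫ p', k (cd p p') • p'.y = khat k * p.y := by
  have h := integral_cd_rpow hk hks 0 p
  rw [khats_zero, add_zero, Real.rpow_one] at h
  simp_rw [Real.rpow_one] at h
  exact h

theorem tendsto_khat {k : ℝ → ℝ} {g : ℕ → ℝ → ℝ} (hk : Continuous k) (hks : HasCompactSupport k)
    (hg : ∀ n, Continuous (g n)) (hgs : ∀ n, HasCompactSupport (g n))
    (h3 : ∀ n t, |g n t - k t| ≤ 1 / ((n : ℝ) + 1))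
    (h4 : ∀ R : ℝ, (∀ t, R < t → k t = 0) → ∀ n t, R + 1 < t → g n t = 0) :
    Tendsto (fun n => khat (g n)) atTop (𝓝 (khat k)) := by
  have h := tendsto_op hk hks hg h3 h4 continuous_y ⟨0, 1, one_pos⟩
  simp_rw [khat_mul_y (hg _) (hgs _), khat_mul_y hk hks, mul_one] at h
  exact h

/-- **The eigenvalue equation extends from smooth to continuous kernels** (pointwise). -/
theorem eigen_ext_at {f : H3 → ℂ} (hf : Continuous f) {p : H3} {a : ℂ}
    (h : ∀ k : ℝ → ℝ, ContDiff ℝ ∞ k → HasCompactSupport k →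
      ∫ p', k (cd p p') • f p' = (khat k : ℂ) * a)
    {k : ℝ → ℝ} (hk : Continuous k) (hks : HasCompactSupport k) :
    ∫ p', k (cd p p') • f p' = (khat k : ℂ) * a := by
  obtain ⟨g, h1, h2, h3, h4⟩ := exists_smooth_seq hk hks
  have e1 := tendsto_op hk hks (fun n => (h1 n).continuous) h3 h4 hf p
  have e2 := tendsto_khat hk hks (fun n => (h1 n).continuous) h2 h3 h4
  have e3 : Tendsto (fun n => ((khat (g n) : ℝ) : ℂ) * a) atTop (𝓝 ((khat k : ℂ) * a)) :=
    ((Complex.continuous_ofReal.tendsto _).comp e2).mul_const a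
  simp_rw [fun n => h (g n) (h1 n) (h2 n)] at e1
  exact tendsto_nhds_unique e1 e3

theorem eigen_ext {f : H3 → ℂ} (hf : Continuous f)
    (h : ∀ k : ℝ → ℝ, ContDiff ℝ ∞ k → HasCompactSupport k → ∀ p,
      ∫ p', k (cd p p') • f p' = (khat k : ℂ) * f p)
    {k : ℝ → ℝ} (hk : Continuous k) (hks : HasCompactSupport k) (p : H3) :
    ∫ p', k (cd p p') • f p' = (khat k : ℂ) * f p :=
  eigen_ext_at hf (fun k hk hks => h k hk hks p) hk hks

/-- the same with the formula of the eigenvalue -/
theorem eigen_ext' {f : H3 → ℂ} (hf : Continuous f)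
    (h : ∀ k : ℝ → ℝ, ContDiff ℝ ∞ k → HasCompactSupport k → ∀ p,
      ∫ p', k (cd p p') • f p' = (khat k : ℂ) * f p)
    {k : ℝ → ℝ} (hk : Continuous k) (hks : HasCompactSupport k) (p : H3) :
    ∫ p', (k (cd p p') : ℂ) * f p' =
      ((4 * π * ∫ r in Ioi (0 : ℝ), k (cosh r) * (r * sinh r) : ℝ) : ℂ) * f p := by
  have h1 := eigen_ext hf h hk hks p
  rw [khat_eq hk hks] at h1
  exact h1

end H3

end Fermat.Agent.LT
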