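import Fermat.Agent.LT.H3.K0
import Mathlib.Algebra.Module.ZLattice.Summable

set_option autoImplicit false

/-!
# Rapid decay of Fourier expansions
-/

namespace Fermat.Agent.LT

open MeasureTheory Set Topology Real Filter

namespace H3

theorem mul_exp_neg_le {x : ℝ} (hx : 0 < x) (n : ℕ) :
    x * Real.exp (-x) ≤ (n + 1).factorial * (x ^ n)⁻¹ := by
  have h1 := Real.pow_div_factorial_le_exp x hx.le (n + 1)
  have h2 : (0 : ℝ) < (n + 1).factorial := by exact_mod_cast Nat.factorial_pos _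
  rw [div_le_iff₀ h2] at h1
  have h3 := Real.exp_pos x
  rw [Real.exp_neg, ← div_eq_mul_inv, ← div_eq_mul_inv, div_le_div_iff₀ h3 (by positivity)]
  calc x * x ^ n = x ^ (n + 1) := by ring
    _ ≤ Real.exp x * (n + 1).factorial := h1
    _ = _ := by ring

theorem whit_term_bound {m : ℝ} (hm : 0 < m) (s A : ℕ) {r y : ℝ} (hr : m ≤ r) (hy : 1 / 2 ≤ y) :
    r * (y * K0 (4 * π * r * y)) ≤
      (√(π / (2 * (2 * π * m))) * ((4 * π)⁻¹ * ((s + A + 1).factorial *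
        (((4 * π) ^ (s + A))⁻¹ * ((m ^ A)⁻¹ * 2 ^ s))))) * (r ^ s)⁻¹ * (y ^ A)⁻¹ := by
  have hpi := Real.pi_pos
  have hr0 : 0 < r := hm.trans_le hr
  have hy0 : 0 < y := by linarith
  set x : ℝ := 4 * π * r * y with hx
  have hx0 : 0 < x := by positivity
  have h1 := K0_le hx0
  have h2 : √(π / (2 * x)) ≤ √(π / (2 * (2 * π * m))) := by
    apply Real.sqrt_le_sqrt
    have : 2 * π * m ≤ x := by
      rw [hx]
      calc 2 * π * m = 4 * π * m * (1 / 2) := by ring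
        _ ≤ 4 * π * r * y := by gcongr
    gcongr
  set S : ℝ := √(π / (2 * (2 * π * m))) with hS
  have hS0 : 0 ≤ S := Real.sqrt_nonneg _
  have h3 := mul_exp_neg_le hx0 (s + A)
  have h4 : (x ^ (s + A))⁻¹ ≤ ((4 * π) ^ (s + A))⁻¹ * ((m ^ A)⁻¹ * 2 ^ s) * (r ^ s)⁻¹ * (y ^ A)⁻¹ := by
    have e1 : (x ^ (s + A))⁻¹ = ((4 * π) ^ (s + A))⁻¹ * ((r ^ A)⁻¹ * (y ^ s)⁻¹) * (r ^ s)⁻¹ *
        (y ^ A)⁻¹ := by
      rw [hx]
      field_simp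
      ring
    rw [e1]
    have e2 : (r ^ A)⁻¹ ≤ (m ^ A)⁻¹ := by gcongr
    have e3 : (y ^ s)⁻¹ ≤ 2 ^ s := by
      rw [← inv_pow]
      have : y⁻¹ ≤ 2 := by
        rw [inv_le_comm₀ hy0 (by norm_num)]
        linarith
      gcongr
    gcongr
  calc r * (y * K0 x) ≤ r * (y * (Real.exp (-x) * S)) := by
        gcongr
        exact h1.trans (by gcongr)
    _ = S * ((4 * π)⁻¹ * (x * Real.exp (-x))) := by
        rw [hx]
        field_simp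
    _ ≤ S * ((4 * π)⁻¹ * ((s + A + 1).factorial * (((4 * π) ^ (s + A))⁻¹ *
          ((m ^ A)⁻¹ * 2 ^ s) * (r ^ s)⁻¹ * (y ^ A)⁻¹))) := by
        refine mul_le_mul_of_nonneg_left (mul_le_mul_of_nonneg_left ?_ (by positivity)) hS0
        exact h3.trans (by gcongr)
    _ = _ := by ring

/-- **Rapid decay of Fourier expansions.** -/
theorem decay {ι : Type*} {ξ : ι → ℂ} {m : ℝ} (hm : 0 < m) (hξ : ∀ i, m ≤ ‖ξ i‖) {s : ℕ}
    (hs : Summable fun i => (‖ξ i‖ ^ s)⁻¹) {c : ι → ℂ} {C : ℝ} (hc : ∀ i, ‖c i‖ ≤ C * ‖ξ i‖)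
    (A : ℕ) : ∃ B : ℝ, 0 ≤ B ∧ ∀ y : ℝ, 1 / 2 ≤ y → ∀ z : ℂ,
      Summable (fun i => c i * ((y * K0 (4 * π * ‖ξ i‖ * y) : ℝ) : ℂ) * ex (ξ i) z) ∧
      ‖∑' i, c i * ((y * K0 (4 * π * ‖ξ i‖ * y) : ℝ) : ℂ) * ex (ξ i) z‖ ≤ B * (y ^ A)⁻¹ := by
  set D : ℝ := √(π / (2 * (2 * π * m))) * ((4 * π)⁻¹ * ((s + A + 1).factorial *
        (((4 * π) ^ (s + A))⁻¹ * ((m ^ A)⁻¹ * 2 ^ s)))) with hD
  have hpi := Real.pi_pos
  have hD0 : 0 ≤ D := by positivity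
  have hT0 : 0 ≤ ∑' i, (‖ξ i‖ ^ s)⁻¹ := tsum_nonneg fun i => by positivity
  refine ⟨|C| * D * ∑' i, (‖ξ i‖ ^ s)⁻¹, by positivity, fun y hy z => ?_⟩
  have hy0 : 0 < y := by linarith
  have hb : ∀ i, ‖c i * ((y * K0 (4 * π * ‖ξ i‖ * y) : ℝ) : ℂ) * ex (ξ i) z‖ ≤
      |C| * D * (y ^ A)⁻¹ * (‖ξ i‖ ^ s)⁻¹ := by
    intro i
    have hn : 0 < ‖ξ i‖ := hm.trans_le (hξ i)
    have hK : 0 ≤ y * K0 (4 * π * ‖ξ i‖ * y) := mul_nonneg hy0.le (K0_nonneg _)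
    rw [norm_mul, norm_mul, norm_ex, mul_one, Complex.norm_real, Real.norm_of_nonneg hK]
    calc ‖c i‖ * (y * K0 (4 * π * ‖ξ i‖ * y))
        ≤ (|C| * ‖ξ i‖) * (y * K0 (4 * π * ‖ξ i‖ * y)) := by
          gcongr
          exact (hc i).trans (by gcongr; exact le_abs_self C)
      _ = |C| * (‖ξ i‖ * (y * K0 (4 * π * ‖ξ i‖ * y))) := by ring
      _ ≤ |C| * (D * (‖ξ i‖ ^ s)⁻¹ * (y ^ A)⁻¹) :=
          mul_le_mul_of_nonneg_left (whit_term_bound hm s A (hξ i) hy) (abs_nonneg _)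
      _ = _ := by ring
  have hsum : Summable fun i => |C| * D * (y ^ A)⁻¹ * (‖ξ i‖ ^ s)⁻¹ := hs.mul_left _
  refine ⟨Summable.of_norm_bounded hsum hb, ?_⟩
  refine (tsum_of_norm_bounded hsum.hasSum hb).trans_eq ?_
  rw [tsum_mul_left]
  ring

/-- the minimum norm of a lattice -/
theorem exists_min_norm (L : Submodule ℤ ℂ) [DiscreteTopology L] :
    ∃ m : ℝ, 0 < m ∧ ∀ ξ : L, ξ ≠ 0 → m ≤ ‖(ξ : ℂ)‖ := by
  have h : IsOpen ({0} : Set L) := isOpen_discrete _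
  obtain ⟨m, hm, h1⟩ := Metric.isOpen_iff.mp h 0 rfl
  refine ⟨m, hm, fun ξ hξ => ?_⟩
  by_contra hlt
  push Not at hlt
  apply hξ
  have h2 := h1 (show ξ ∈ Metric.ball (0 : L) m by
    rw [Metric.mem_ball, dist_zero_right]
    exact hlt)
  exact h2

theorem summable_lattice (L : Submodule ℤ ℂ) [DiscreteTopology L] :
    Summable fun ξ : {ξ : L // ξ ≠ 0} => (‖(ξ.1 : ℂ)‖ ^ 3)⁻¹ := by
  have h1 : Module.finrank ℤ L < 3 := by
    have h2 : Submodule.span ℤ (L : Set ℂ) = L := Submodule.span_eq L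
    have h3 := Real.finrank_eq_int_finrank_of_discrete (s := (L : Set ℂ)) (by
      rw [h2]
      infer_instance)
    have h4 : Set.finrank ℝ (L : Set ℂ) ≤ 2 := by
      rw [Set.finrank, ← Complex.finrank_real_complex]
      exact Submodule.finrank_le _
    have h5 : Set.finrank ℤ (L : Set ℂ) = Module.finrank ℤ L := by
      rw [Set.finrank, h2]
    omega
  have h := ZLattice.summable_norm_pow_inv L 3 h1
  have h2 := h.comp_injective (Subtype.val_injective (p := fun ξ : L => ξ ≠ 0))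
  refine h2.congr fun ξ => ?_
  simp only [Function.comp_apply, inv_pow]
  rfl

/-- **Rapid decay, lattice version.** -/
theorem decay_lattice (L : Submodule ℤ ℂ) [DiscreteTopology L] {c : L → ℂ} {C : ℝ}
    (hc : ∀ ξ : L, ξ ≠ 0 → ‖c ξ‖ ≤ C * ‖(ξ : ℂ)‖) (A : ℕ) :
    ∃ B : ℝ, 0 ≤ B ∧ ∀ y : ℝ, 1 / 2 ≤ y → ∀ z : ℂ,
      Summable (fun ξ : {ξ : L // ξ ≠ 0} =>
        c ξ.1 * ((y * K0 (4 * π * ‖(ξ.1 : ℂ)‖ * y) : ℝ) : ℂ) * ex (ξ.1 : ℂ) z) ∧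
      ‖∑' ξ : {ξ : L // ξ ≠ 0},
        c ξ.1 * ((y * K0 (4 * π * ‖(ξ.1 : ℂ)‖ * y) : ℝ) : ℂ) * ex (ξ.1 : ℂ) z‖ ≤ B * (y ^ A)⁻¹ := by
  obtain ⟨m, hm, h1⟩ := exists_min_norm L
  exact decay (ξ := fun ξ : {ξ : L // ξ ≠ 0} => ((ξ.1 : L) : ℂ)) hm (fun ξ => h1 ξ.1 ξ.2)
    (summable_lattice L) (c := fun ξ => c ξ.1) (fun ξ => hc ξ.1 ξ.2) A

end H3

end Fermat.Agent.LT
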