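import Fermat.Agent.LT.H3.Uniq

set_option autoImplicit false

/-!
# Uniqueness of the decaying solution, final form
-/

namespace Fermat.Agent.LT

open MeasureTheory Set Topology Real Filter
open scoped ContDiff

namespace H3

theorem unique_real (ξ : ℂ) {V w : ℝ → ℝ} (hV : ContinuousOn V (Ioi 0))
    (hw : ContinuousOn w (Ioi 0)) (Vpos : ∀ y : ℝ, 0 < y → 0 < V y)
    (Vb : ∀ Y : ℝ, 0 < Y → ∃ C : ℝ, ∀ y, Y ≤ y → |V y| ≤ C)
    (wb : ∀ Y : ℝ, 0 < Y → ∃ C : ℝ, ∀ y, Y ≤ y → |w y| ≤ C)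
    (hVe : ∀ k : ℝ → ℝ, ContDiff ℝ ∞ k → HasCompactSupport k → ∀ y : ℝ, 0 < y →
      ∫ y' in Ioi (0 : ℝ), ((y' ^ 3)⁻¹ * fk k ξ y y') * V y' = khat k * V y)
    (hwe : ∀ k : ℝ → ℝ, ContDiff ℝ ∞ k → HasCompactSupport k → ∀ y : ℝ, 0 < y →
      ∫ y' in Ioi (0 : ℝ), ((y' ^ 3)⁻¹ * fk k ξ y y') * w y' = khat k * w y)
    (hVd : ∀ y : ℝ, 0 < y → DifferentiableAt ℝ V y)
    (hwd : ∀ y : ℝ, 0 < y → DifferentiableAt ℝ w y) :
    ∃ c : ℝ, ∀ y : ℝ, 0 < y → w y = c * V y := by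
  have hd : ∀ y : ℝ, 0 < y → DifferentiableAt ℝ (fun y => w y / V y) y := fun y hy =>
    (hwd y hy).div (hVd y hy) (Vpos y hy).ne'
  have h1 : ∀ y : ℝ, 0 < y → deriv (fun y => w y / V y) y = 0 := by
    intro y hy
    have a1 := not_deriv_pos ξ hV hw Vpos Vb wb hVe hwe hy (hd y hy)
    have e : (fun y => -w y / V y) = fun y => -(w y / V y) := by
      funext t
      rw [neg_div]
    have a2 := not_deriv_pos ξ (w := fun y => -w y) hV hw.neg Vpos Vb
      (fun Y hY => by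
        obtain ⟨C, hC⟩ := wb Y hY
        exact ⟨C, fun y hy => by rw [abs_neg]; exact hC y hy⟩)
      hVe (fun k hk hks y hy => by
        simp_rw [mul_neg]
        rw [integral_neg, hwe k hk hks y hy]) hy (by rw [e]; exact (hd y hy).neg)
    rw [e, deriv.fun_neg] at a2
    exact le_antisymm (not_lt.mp a1) (by linarith [not_lt.mp a2])
  refine ⟨w 1 / V 1, fun y hy => ?_⟩
  have h2 : w y / V y = w 1 / V 1 :=
    isOpen_Ioi.is_const_of_deriv_eq_zero isPreconnected_Ioi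
      (fun t ht => (hd t ht).differentiableWithinAt) (fun t ht => h1 t ht)
      (mem_Ioi.mpr hy) (mem_Ioi.mpr one_pos)
  rw [← h2, div_mul_cancel₀ _ (Vpos y hy).ne']

theorem differentiableAt_of_eigen (ξ : ℂ) {W : ℝ → ℂ} (hW : ContinuousOn W (Ioi 0))
    (hWe : ∀ k : ℝ → ℝ, ContDiff ℝ ∞ k → HasCompactSupport k → ∀ (y : ℝ) (hy : 0 < y),
      ∫ p', k (cd ⟨0, y, hy⟩ p') • (W p'.y * ex ξ p'.z) = (khat k : ℂ) * W y) {y₀ : ℝ}
    (hy₀ : 0 < y₀) : DifferentiableAt ℝ W y₀ := by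
  obtain ⟨k, hk, hks, h0, -, h2⟩ := exists_smooth_bump one_pos
  have hκ : 0 < khat k := khat_pos hk.continuous hks h0 one_pos h2
  have hκ' : (khat k : ℂ) ≠ 0 := Complex.ofReal_ne_zero.mpr hκ.ne'
  have hc : Continuous fun p : H3 => W p.y * ex ξ p.z :=
    (continuous_comp_y hW).mul ((continuous_ex ξ).comp continuous_z)
  have h3 := (differentiableAt_op hk hks hc hy₀).const_mul (khat k : ℂ)⁻¹
  refine h3.congr_of_eventuallyEq ?_
  filter_upwards [Ioi_mem_nhds hy₀] with y hy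
  have hy' : 0 < y := hy
  have e : ∀ p' : H3, cdr y p'.y p'.z = cd ⟨0, y, hy'⟩ p' := fun p' =>
    (cd_zero_eq y p'.y hy' p'.pos p'.z).symm
  simp_rw [e]
  rw [hWe k hk hks y hy', inv_mul_cancel_left₀ hκ']

/-- the real and imaginary parts of the one-dimensional equation -/
theorem eigen_re_im (ξ : ℂ) {W : ℝ → ℂ} (hW : ContinuousOn W (Ioi 0))
    (Wb : ∀ Y : ℝ, 0 < Y → ∃ C : ℝ, ∀ y, Y ≤ y → ‖W y‖ ≤ C) {k : ℝ → ℝ} (hk : ContDiff ℝ ∞ k)
    (hks : HasCompactSupport k) {y : ℝ} (hy : 0 < y)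
    (hWe : ∫ p', k (cd ⟨0, y, hy⟩ p') • (W p'.y * ex ξ p'.z) = (khat k : ℂ) * W y) :
    (∫ y' in Ioi (0 : ℝ), ((y' ^ 3)⁻¹ * fk k ξ y y') * (W y').re = khat k * (W y).re) ∧
    (∫ y' in Ioi (0 : ℝ), ((y' ^ 3)⁻¹ * fk k ξ y y') * (W y').im = khat k * (W y).im) := by
  rw [integral_cd_ex hk.continuous hks ξ hW hy] at hWe
  have hre : ContinuousOn (fun y => (W y).re) (Ioi 0) := Complex.continuous_re.comp_continuousOn hW
  have him : ContinuousOn (fun y => (W y).im) (Ioi 0) := Complex.continuous_im.comp_continuousOn hW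
  have i1 := integrableOn_fk_mul hk.continuous hks ξ hre (fun Y hY => by
    obtain ⟨C, hC⟩ := Wb Y hY
    exact ⟨C, fun y hy => (Complex.abs_re_le_norm _).trans (hC y hy)⟩) hy
  have i2 := integrableOn_fk_mul hk.continuous hks ξ him (fun Y hY => by
    obtain ⟨C, hC⟩ := Wb Y hY
    exact ⟨C, fun y hy => (Complex.abs_im_le_norm _).trans (hC y hy)⟩) hy
  have e : ∀ y' : ℝ, ((y' ^ 3)⁻¹ * fk k ξ y y') • W y' =
      ((((y' ^ 3)⁻¹ * fk k ξ y y') * (W y').re : ℝ) : ℂ) +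
      ((((y' ^ 3)⁻¹ * fk k ξ y y') * (W y').im : ℝ) : ℂ) * Complex.I := by
    intro y'
    rw [Complex.real_smul]
    conv_lhs => rw [← Complex.re_add_im (W y')]
    push_cast
    ring
  simp_rw [e] at hWe
  rw [integral_add i1.ofReal (i2.ofReal.mul_const _), integral_mul_const,
    integral_complex_ofReal, integral_complex_ofReal] at hWe
  constructor
  · have h := congrArg Complex.re hWe
    simpa using h
  · have h := congrArg Complex.im hWe
    simpa using h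

/-- the decaying Whittaker function -/
noncomputable def whit (ξ : ℂ) (y : ℝ) : ℝ := y * K0 (4 * π * ‖ξ‖ * y)

theorem whit_pos {ξ : ℂ} (hξ : ξ ≠ 0) {y : ℝ} (hy : 0 < y) : 0 < whit ξ y := by
  have hn : 0 < ‖ξ‖ := norm_pos_iff.mpr hξ
  exact mul_pos hy (K0_pos (by positivity))

theorem continuousOn_whit {ξ : ℂ} (hξ : ξ ≠ 0) : ContinuousOn (whit ξ) (Ioi 0) := by
  have hn : 0 < ‖ξ‖ := norm_pos_iff.mpr hξ
  refine continuousOn_id.mul (continuousOn_K0.comp (by fun_prop) fun y hy => ?_)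
  have hy' : (0 : ℝ) < y := hy
  show (0 : ℝ) < 4 * π * ‖ξ‖ * y
  positivity

theorem whit_bound {ξ : ℂ} (hξ : ξ ≠ 0) {Y : ℝ} (hY : 0 < Y) :
    ∃ C : ℝ, ∀ y, Y ≤ y → |whit ξ y| ≤ C := by
  have hn : 0 < ‖ξ‖ := norm_pos_iff.mpr hξ
  set a : ℝ := 4 * π * ‖ξ‖ with ha
  have ha0 : 0 < a := by positivity
  refine ⟨1 / a * √(π / (2 * (a * Y))), fun y hy => ?_⟩
  have hy0 : 0 < y := hY.trans_le hy
  rw [abs_of_pos (whit_pos hξ hy0), whit, ← ha]
  have h1 := K0_le (x := a * y) (by positivity)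
  have h2 : √(π / (2 * (a * y))) ≤ √(π / (2 * (a * Y))) := by
    apply Real.sqrt_le_sqrt
    gcongr
  have h3 : y * Real.exp (-(a * y)) ≤ 1 / a := by
    rw [Real.exp_neg, le_div_iff₀ ha0]
    have h4 := Real.add_one_le_exp (a * y)
    have h5 := Real.exp_pos (a * y)
    calc y * (Real.exp (a * y))⁻¹ * a = (a * y) * (Real.exp (a * y))⁻¹ := by ring
      _ ≤ Real.exp (a * y) * (Real.exp (a * y))⁻¹ := by gcongr; linarith
      _ = 1 := mul_inv_cancel₀ h5.ne'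
  calc y * K0 (a * y) ≤ y * (Real.exp (-(a * y)) * √(π / (2 * (a * y)))) := by gcongr
    _ = (y * Real.exp (-(a * y))) * √(π / (2 * (a * y))) := by ring
    _ ≤ 1 / a * √(π / (2 * (a * Y))) := by gcongr

theorem whit_eigen {ξ : ℂ} (hξ : ξ ≠ 0) {k : ℝ → ℝ} (hk : Continuous k) (hks : HasCompactSupport k)
    {y : ℝ} (hy : 0 < y) :
    ∫ p', k (cd ⟨0, y, hy⟩ p') • (((whit ξ p'.y : ℝ) : ℂ) * ex ξ p'.z) =
      (khat k : ℂ) * ((whit ξ y : ℝ) : ℂ) := by
  have h := op_bes hk hks hξ ⟨0, y, hy⟩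
  have e0 : ex ξ 0 = 1 := by simp [ex]
  simp only [bes, e0, mul_one] at h
  exact h

/-- **Uniqueness of the bounded Whittaker function.** -/
theorem unique {ξ : ℂ} (hξ : ξ ≠ 0) {W : ℝ → ℂ} (hW : ContinuousOn W (Ioi 0))
    (Wb : ∀ Y : ℝ, 0 < Y → ∃ C : ℝ, ∀ y, Y ≤ y → ‖W y‖ ≤ C)
    (hWe : ∀ k : ℝ → ℝ, ContDiff ℝ ∞ k → HasCompactSupport k → ∀ (y : ℝ) (hy : 0 < y),
      ∫ p', k (cd ⟨0, y, hy⟩ p') • (W p'.y * ex ξ p'.z) = (khat k : ℂ) * W y) :
    ∃ c : ℂ, ∀ y : ℝ, 0 < y → W y = c * ((y * K0 (4 * π * ‖ξ‖ * y) : ℝ) : ℂ) := by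
  have hVc : ContinuousOn (fun y : ℝ => ((whit ξ y : ℝ) : ℂ)) (Ioi 0) :=
    Complex.continuous_ofReal.comp_continuousOn (continuousOn_whit hξ)
  have hVd : ∀ y : ℝ, 0 < y → DifferentiableAt ℝ (whit ξ) y := by
    intro y hy
    have h := differentiableAt_of_eigen ξ hVc
      (fun k hk hks y hy => whit_eigen hξ hk.continuous hks hy) hy
    have h2 := Complex.reCLM.differentiableAt.comp y h
    simpa [Function.comp_def] using h2
  have hWd : ∀ y : ℝ, 0 < y → DifferentiableAt ℝ W y := fun y hy =>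
    differentiableAt_of_eigen ξ hW hWe hy
  have hVe : ∀ k : ℝ → ℝ, ContDiff ℝ ∞ k → HasCompactSupport k → ∀ y : ℝ, 0 < y →
      ∫ y' in Ioi (0 : ℝ), ((y' ^ 3)⁻¹ * fk k ξ y y') * whit ξ y' = khat k * whit ξ y := by
    intro k hk hks y hy
    have h := (eigen_re_im ξ hVc (fun Y hY => by
      obtain ⟨C, hC⟩ := whit_bound hξ hY
      exact ⟨C, fun y hy => by rw [Complex.norm_real]; exact hC y hy⟩) hk hks hy
      (whit_eigen hξ hk.continuous hks hy)).1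
    simpa using h
  obtain ⟨c1, hc1⟩ := unique_real ξ (w := fun y => (W y).re) (continuousOn_whit hξ)
    (Complex.continuous_re.comp_continuousOn hW) (fun y hy => whit_pos hξ hy)
    (fun Y hY => whit_bound hξ hY) (fun Y hY => by
      obtain ⟨C, hC⟩ := Wb Y hY
      exact ⟨C, fun y hy => (Complex.abs_re_le_norm _).trans (hC y hy)⟩) hVe
    (fun k hk hks y hy => (eigen_re_im ξ hW Wb hk hks hy (hWe k hk hks y hy)).1) hVd
    (fun y hy => by
      have h2 := Complex.reCLM.differentiableAt.comp y (hWd y hy)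
      simpa [Function.comp_def] using h2)
  obtain ⟨c2, hc2⟩ := unique_real ξ (w := fun y => (W y).im) (continuousOn_whit hξ)
    (Complex.continuous_im.comp_continuousOn hW) (fun y hy => whit_pos hξ hy)
    (fun Y hY => whit_bound hξ hY) (fun Y hY => by
      obtain ⟨C, hC⟩ := Wb Y hY
      exact ⟨C, fun y hy => (Complex.abs_im_le_norm _).trans (hC y hy)⟩) hVe
    (fun k hk hks y hy => (eigen_re_im ξ hW Wb hk hks hy (hWe k hk hks y hy)).2) hVd
    (fun y hy => by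
      have h2 := Complex.imCLM.differentiableAt.comp y (hWd y hy)
      simpa [Function.comp_def] using h2)
  refine ⟨c1 + c2 * Complex.I, fun y hy => ?_⟩
  have h1 : (W y).re = c1 * whit ξ y := hc1 y hy
  have h2 : (W y).im = c2 * whit ξ y := hc2 y hy
  rw [← Complex.re_add_im (W y), h1, h2, whit]
  push_cast
  ring

end H3

end Fermat.Agent.LT
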