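import Fermat.Agent.LT.H3.Bess2

set_option autoImplicit false

/-!
# The Bessel eigenfunction at `r = 0`
-/

namespace Fermat.Agent.LT

open MeasureTheory Set Topology Real Filter

namespace H3

theorem integrand_le {c t y a s : ℝ} (hc : 0 < c) (ht : 0 < t) (ha : 0 < a) (hy : a ≤ y)
    (hs0 : 0 ≤ s) (hs1 : s ≤ 1) :
    t ^ (s - 1) * Real.exp (-(t * y ^ 2) - c / t) ≤ (1 + 1 / c) * Real.exp (-(t * a ^ 2)) := by
  have h1 : t ^ (s - 1) ≤ 1 + t⁻¹ := by
    rcases le_total t 1 with h | h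
    · have h2 : t ^ (s - 1) ≤ t ^ (-1 : ℝ) :=
        Real.rpow_le_rpow_of_exponent_ge ht h (by linarith)
      rw [Real.rpow_neg_one] at h2
      linarith
    · have h2 : t ^ (s - 1) ≤ 1 := Real.rpow_le_one_of_one_le_of_nonpos h (by linarith)
      have : 0 < t⁻¹ := inv_pos.mpr ht
      linarith
  have h2 : t⁻¹ * Real.exp (-(c / t)) ≤ 1 / c := by
    have h3 : c / t ≤ Real.exp (c / t) := by
      have := Real.add_one_le_exp (c / t)
      linarith
    have h4 : 0 < c / t := by positivity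
    rw [Real.exp_neg, ← div_eq_mul_inv, div_le_div_iff₀ (Real.exp_pos _) hc]
    calc t⁻¹ * c = c / t := by field_simp
      _ ≤ _ := by rw [one_mul]; exact h3
  have h3 : Real.exp (-(c / t)) ≤ 1 := Real.exp_le_one_iff.mpr (by
    have : 0 < c / t := by positivity
    linarith)
  have h4 : Real.exp (-(t * y ^ 2)) ≤ Real.exp (-(t * a ^ 2)) := by
    apply Real.exp_le_exp.mpr
    have : a ^ 2 ≤ y ^ 2 := by gcongr
    nlinarith
  have h5 : 0 < Real.exp (-(c / t)) := Real.exp_pos _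
  rw [show -(t * y ^ 2) - c / t = -(t * y ^ 2) + -(c / t) by ring, Real.exp_add]
  calc t ^ (s - 1) * (Real.exp (-(t * y ^ 2)) * Real.exp (-(c / t)))
      ≤ (1 + t⁻¹) * (Real.exp (-(t * a ^ 2)) * Real.exp (-(c / t))) := by gcongr
    _ = (Real.exp (-(c / t)) + t⁻¹ * Real.exp (-(c / t))) * Real.exp (-(t * a ^ 2)) := by ring
    _ ≤ (1 + 1 / c) * Real.exp (-(t * a ^ 2)) := by gcongr

theorem cpos {ξ : ℂ} (hξ : ξ ≠ 0) : 0 < 4 * π ^ 2 * ‖ξ‖ ^ 2 := by
  have : 0 < ‖ξ‖ := norm_pos_iff.mpr hξ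
  positivity

theorem integrable_exp_a {a : ℝ} (ha : 0 < a) (C : ℝ) :
    Integrable (fun t : ℝ => C * Real.exp (-(t * a ^ 2))) (volume.restrict (Ioi 0)) := by
  have h := (integrableOn_exp_mul_Ioi (a := -(a ^ 2)) (by nlinarith [sq_pos_of_pos ha]) 0).const_mul C
  refine h.congr (Eventually.of_forall fun t => ?_)
  simp only []
  congr 2
  ring

theorem bj_le {ξ : ℂ} (hξ : ξ ≠ 0) {a y s : ℝ} (ha : 0 < a) (hy : a ≤ y) (hs0 : 0 ≤ s)
    (hs1 : s ≤ 1) : |bj ξ s y| ≤
      ∫ t in Ioi (0 : ℝ), (1 + 1 / (4 * π ^ 2 * ‖ξ‖ ^ 2)) * Real.exp (-(t * a ^ 2)) := by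
  rw [bj, ← Real.norm_eq_abs]
  refine norm_integral_le_of_norm_le (integrable_exp_a ha _) ?_
  refine (ae_restrict_iff' measurableSet_Ioi).mpr (Eventually.of_forall fun t ht => ?_)
  have ht' : (0 : ℝ) < t := ht
  rw [Real.norm_of_nonneg (by positivity)]
  exact integrand_le (cpos hξ) ht' ha hy hs0 hs1

/-- joint continuity -/
theorem continuousOn_bj {ξ : ℂ} (hξ : ξ ≠ 0) :
    ContinuousOn (fun q : ℝ × ℝ => bj ξ q.1 q.2) (Icc 0 1 ×ˢ Ioi 0) := by
  intro q hq
  have hq2 : (0 : ℝ) < q.2 := hq.2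
  have h1 : ContinuousWithinAt (fun q : ℝ × ℝ => bj ξ q.1 q.2) (Icc 0 1 ×ˢ Ioi (q.2 / 2)) q := by
    unfold bj
    refine continuousWithinAt_of_dominated
      (bound := fun t => (1 + 1 / (4 * π ^ 2 * ‖ξ‖ ^ 2)) * Real.exp (-(t * (q.2 / 2) ^ 2)))
      ?_ ?_ (integrable_exp_a (by positivity) _) ?_
    · refine Eventually.of_forall fun q' => ?_
      have m1 : Measurable fun t : ℝ => t ^ (q'.1 - 1) := measurable_id.pow_const _
      have m2 : Measurable fun t : ℝ => Real.exp (-(t * q'.2 ^ 2) - 4 * π ^ 2 * ‖ξ‖ ^ 2 / t) := by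
        fun_prop
      exact (m1.mul m2).aestronglyMeasurable
    · filter_upwards [self_mem_nhdsWithin] with q' hq'
      refine (ae_restrict_iff' measurableSet_Ioi).mpr (Eventually.of_forall fun t ht => ?_)
      have ht' : (0 : ℝ) < t := ht
      rw [Real.norm_of_nonneg (by positivity)]
      exact integrand_le (cpos hξ) ht' (by positivity) (le_of_lt hq'.2) hq'.1.1 hq'.1.2
    · refine (ae_restrict_iff' measurableSet_Ioi).mpr (Eventually.of_forall fun t ht => ?_)
      have ht' : (0 : ℝ) < t := ht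
      refine Continuous.continuousWithinAt ?_
      have c1 : Continuous fun q' : ℝ × ℝ => t ^ (q'.1 - 1) :=
        Continuous.rpow continuous_const (by fun_prop) fun _ => Or.inl ht'.ne'
      have c2 : Continuous fun q' : ℝ × ℝ =>
        Real.exp (-(t * q'.2 ^ 2) - 4 * π ^ 2 * ‖ξ‖ ^ 2 / t) := by fun_prop
      exact c1.mul c2
  refine h1.mono_of_mem_nhdsWithin ?_
  rw [mem_nhdsWithin]
  refine ⟨univ ×ˢ Ioi (q.2 / 2), isOpen_univ.prod isOpen_Ioi, ⟨mem_univ _, ?_⟩, ?_⟩
  · show q.2 / 2 < q.2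
    linarith
  · rintro q' ⟨h2, h3⟩
    exact ⟨h3.1, h2.2⟩

theorem continuous_phis {ξ : ℂ} (hξ : ξ ≠ 0) {s : ℝ} (hs : s ∈ Icc (0 : ℝ) 1) :
    Continuous (phis ξ s) := by
  unfold phis
  have h1 : Continuous fun p : H3 => bj ξ s p.y := by
    have h2 : Continuous fun p : H3 => ((s, p.y) : ℝ × ℝ) := continuous_const.prodMk continuous_y
    exact (continuousOn_bj hξ).comp_continuous h2 fun p => ⟨hs, p.pos⟩
  have h3 : Continuous fun p : H3 => p.y ^ (1 + s) :=
    Continuous.rpow continuous_y continuous_const fun p => Or.inl p.pos.ne'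
  exact (Complex.continuous_ofReal.comp (h3.mul h1)).mul ((continuous_ex ξ).comp continuous_z)

theorem tendsto_phis {ξ : ℂ} (hξ : ξ ≠ 0) (p : H3) :
    Tendsto (fun s => phis ξ s p) (𝓝[>] 0) (𝓝 (phis ξ 0 p)) := by
  unfold phis
  have h1 : Tendsto (fun s => bj ξ s p.y) (𝓝[>] 0) (𝓝 (bj ξ 0 p.y)) := by
    have h2 : Tendsto (fun q : ℝ × ℝ => bj ξ q.1 q.2) (𝓝[Icc 0 1 ×ˢ Ioi 0] (0, p.y))
        (𝓝 (bj ξ 0 p.y)) := continuousOn_bj hξ (0, p.y) ⟨⟨le_rfl, zero_le_one⟩, p.pos⟩
    have h3 : Tendsto (fun s : ℝ => (s, p.y)) (𝓝[>] 0) (𝓝[Icc 0 1 ×ˢ Ioi 0] (0, p.y)) := by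
      refine tendsto_nhdsWithin_iff.mpr ⟨?_, ?_⟩
      · have : Continuous fun s : ℝ => (s, p.y) := by fun_prop
        exact (this.tendsto 0).mono_left nhdsWithin_le_nhds
      · filter_upwards [Ioc_mem_nhdsGT one_pos] with s hs
        exact ⟨⟨hs.1.le, hs.2⟩, p.pos⟩
    have h5 := h2.comp h3
    simpa only [Function.comp_def] using h5
  have h4 : Tendsto (fun s : ℝ => p.y ^ (1 + s)) (𝓝[>] 0) (𝓝 (p.y ^ (1 + (0 : ℝ)))) := by
    have : Continuous fun s : ℝ => p.y ^ (1 + s) :=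
      Continuous.rpow continuous_const (by fun_prop) fun _ => Or.inl p.pos.ne'
    exact (this.tendsto 0).mono_left nhdsWithin_le_nhds
  have h6 := (Complex.continuous_ofReal.tendsto _).comp (h4.mul h1)
  simp only [Function.comp_def] at h6
  exact h6.mul tendsto_const_nhds

theorem tendsto_khats {k : ℝ → ℝ} (hk : Continuous k) (hks : HasCompactSupport k) :
    Tendsto (khats k) (𝓝[>] 0) (𝓝 (khats k 0)) := by
  have hcs := hasCompactSupport_abelT hks
  have h1 : khats k = fun s => ∫ u in tsupport (abelT k), abelT k u * Real.exp (-(s * u)) := by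
    funext s
    rw [khats]
    refine (setIntegral_eq_integral_of_forall_compl_eq_zero fun u hu => ?_).symm
    rw [image_eq_zero_of_notMem_tsupport hu, zero_mul]
  have hc : Continuous (khats k) := by
    rw [h1]
    have ha := continuous_abelT (hk.integrable_of_hasCompactSupport hks)
    refine continuous_parametric_integral_of_continuous ?_ hcs
    have : Continuous fun q : ℝ × ℝ => abelT k q.2 := ha.comp continuous_snd
    have : Continuous fun q : ℝ × ℝ => Real.exp (-(q.1 * q.2)) := by fun_prop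
    simp only [Function.uncurry_def]
    fun_prop
  exact (hc.tendsto 0).mono_left nhdsWithin_le_nhds

/-- **The Bessel eigenfunction.** -/
theorem op_phis_zero {k : ℝ → ℝ} (hk : Continuous k) (hks : HasCompactSupport k) {ξ : ℂ}
    (hξ : ξ ≠ 0) (p : H3) :
    ∫ p', k (cd p p') • phis ξ 0 p' = (khat k : ℂ) * phis ξ 0 p := by
  have hp := p.pos
  obtain ⟨R, hR1, hR⟩ := exists_R hks
  have hR0 : 0 < R := by linarith
  obtain ⟨Ck, hCk⟩ := hks.exists_bound_of_continuous hk
  have hCk0 : 0 ≤ Ck := (norm_nonneg _).trans (hCk 0)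
  have hB : MeasurableSet {p' : H3 | cd p p' ≤ R} := (isCompact_ball p R).isClosed.measurableSet
  set a : ℝ := p.y / (2 * R) with ha
  have ha0 : 0 < a := by positivity
  set A : ℝ := 2 * R * p.y with hA
  have hA0 : 0 < A := by positivity
  set I0 : ℝ := ∫ t in Ioi (0 : ℝ), (1 + 1 / (4 * π ^ 2 * ‖ξ‖ ^ 2)) * Real.exp (-(t * a ^ 2))
  have hI0 : 0 ≤ I0 := (abs_nonneg _).trans (bj_le hξ ha0 le_rfl le_rfl zero_le_one)
  have hbound : ∀ s ∈ Ioc (0 : ℝ) 1, ∀ p' : H3, ‖k (cd p p') • phis ξ s p'‖ ≤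
      {p' : H3 | cd p p' ≤ R}.indicator (fun _ => Ck * ((1 + A) ^ 2 * I0)) p' := by
    intro s hs p'
    have hp' := p'.pos
    by_cases h : p' ∈ {p' : H3 | cd p p' ≤ R}
    · rw [indicator_of_mem h, norm_smul]
      have h' : cd p p' ≤ R := h
      have h1 : p'.y ≤ A := by
        refine (y_le p p').trans ?_
        rw [hA]
        gcongr
      have h2 : a ≤ p'.y := by
        rw [ha, div_le_iff₀ (by positivity)]
        have := y_le p' p
        rw [cd_symm] at this
        have h3 : 2 * cd p p' * p'.y ≤ 2 * R * p'.y := by gcongr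
        linarith
      refine mul_le_mul (hCk _) ?_ (norm_nonneg _) hCk0
      rw [phis, norm_mul, norm_ex, mul_one, Complex.norm_real, norm_mul, Real.norm_eq_abs,
        Real.norm_eq_abs, abs_of_pos (by positivity)]
      refine mul_le_mul ?_ (bj_le hξ ha0 h2 hs.1.le hs.2) (abs_nonneg _) (by positivity)
      calc p'.y ^ (1 + s) ≤ (1 + A) ^ (1 + s) := by
            have hs0 := hs.1
            gcongr
            linarith
        _ ≤ (1 + A) ^ (2 : ℝ) := Real.rpow_le_rpow_of_exponent_le (by linarith)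
            (by linarith [hs.2])
        _ = (1 + A) ^ 2 := by norm_num
    · rw [indicator_of_notMem h, hR _ (not_le.mp h), zero_smul, norm_zero]
  have h1 : Tendsto (fun s => ∫ p', k (cd p p') • phis ξ s p') (𝓝[>] 0)
      (𝓝 (∫ p', k (cd p p') • phis ξ 0 p')) := by
    refine tendsto_integral_filter_of_dominated_convergence
      ({p' : H3 | cd p p' ≤ R}.indicator (fun _ => Ck * ((1 + A) ^ 2 * I0))) ?_ ?_ ?_ ?_
    · filter_upwards [Ioc_mem_nhdsGT one_pos] with s hs
      exact ((hk.comp (continuous_cd_right p)).smul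
        (continuous_phis hξ ⟨hs.1.le, hs.2⟩)).aestronglyMeasurable
    · filter_upwards [Ioc_mem_nhdsGT one_pos] with s hs
      exact Eventually.of_forall (hbound s hs)
    · exact (integrable_indicator_iff hB).mpr
        (integrableOn_const (isCompact_ball p R).measure_lt_top.ne)
    · exact Eventually.of_forall fun p' => (tendsto_phis hξ p').const_smul _
  have h2 : Tendsto (fun s => (khats k s : ℂ) * phis ξ s p) (𝓝[>] 0)
      (𝓝 ((khats k 0 : ℂ) * phis ξ 0 p)) :=
    ((Complex.continuous_ofReal.tendsto _).comp (tendsto_khats hk hks)).mul (tendsto_phis hξ p)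
  have h3 : (fun s => ∫ p', k (cd p p') • phis ξ s p') =ᶠ[𝓝[>] 0]
      fun s => (khats k s : ℂ) * phis ξ s p := by
    filter_upwards [self_mem_nhdsWithin] with s hs
    exact op_phis hk hks ξ hs p
  rw [← khats_zero]
  exact tendsto_nhds_unique h1 (h2.congr' h3.symm)

end H3

end Fermat.Agent.LT
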