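import Fermat.Agent.LT.H3.Ker

set_option autoImplicit false

/-!
# The Abel transform
-/

namespace Fermat.Agent.LT

open MeasureTheory Set Topology Real

namespace H3

/-- polar coordinates in the plane -/
theorem integral_norm_complex {E : Type*} [NormedAddCommGroup E] [NormedSpace ℝ E] (f : ℝ → E) :
    ∫ z : ℂ, f ‖z‖ = (2 * π) • ∫ r in Ioi (0 : ℝ), r • f r := by
  have h := integral_fun_norm_addHaar (volume : Measure ℂ) f
  rw [h, Complex.finrank_real_complex]
  have h1 : (volume : Measure ℂ).real (Metric.ball 0 1) = π := by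
    simp [measureReal_def, Complex.volume_ball]
  rw [h1]
  simp only [Nat.add_one_sub_one, pow_one]
  rw [← Nat.cast_smul_eq_nsmul ℝ, smul_smul]
  norm_num

/-- radial integrals of functions of `|z|²` -/
theorem integral_sq_complex {E : Type*} [NormedAddCommGroup E] [NormedSpace ℝ E] (g : ℝ → E)
    {A B : ℝ} (hB : 0 < B) :
    ∫ z : ℂ, g ((‖z‖ ^ 2 + A) / B) = (π * B) • ∫ t in Ioi (A / B), g t := by
  rw [integral_norm_complex (fun r => g ((r ^ 2 + A) / B))]
  have h := integral_image_eq_integral_deriv_smul_of_monotoneOn (s := Ioi (0 : ℝ))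
    (f := fun r => (r ^ 2 + A) / B) (f' := fun r => 2 * r / B) measurableSet_Ioi
    (fun r _ => ?_) (fun r hr r' _ hrr' => ?_) g
  · have him : (fun r : ℝ => (r ^ 2 + A) / B) '' Ioi 0 = Ioi (A / B) := by
      ext t
      constructor
      · rintro ⟨r, hr, rfl⟩
        have hr' : (0 : ℝ) < r := hr
        show A / B < (r ^ 2 + A) / B
        gcongr
        nlinarith
      · intro ht
        have ht' : A / B < t := ht
        have h1 : 0 < B * t - A := by
          rw [div_lt_iff₀ hB] at ht'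
          linarith
        refine ⟨√(B * t - A), Real.sqrt_pos.mpr h1, ?_⟩
        simp only
        rw [Real.sq_sqrt h1.le]
        field_simp
        ring
    rw [him] at h
    rw [h, ← integral_smul, ← integral_smul]
    refine integral_congr_ae (Filter.Eventually.of_forall fun r => ?_)
    simp only [smul_smul]
    congr 1
    field_simp
  · have h1 : HasDerivAt (fun r : ℝ => r ^ 2) (2 * r) r := by
      simpa using hasDerivAt_pow 2 r
    exact ((h1.add_const A).div_const B).hasDerivWithinAt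
  · have hr0 : (0 : ℝ) < r := hr
    simp only
    gcongr

theorem cosh_log_div {y y' : ℝ} (hy : 0 < y) (hy' : 0 < y') :
    cosh (log (y / y')) = (y ^ 2 + y' ^ 2) / (2 * y * y') := by
  rw [Real.cosh_eq, Real.exp_neg, Real.exp_log (div_pos hy hy')]
  field_simp

/-- **The Abel transform.** -/
theorem abel {E : Type*} [NormedAddCommGroup E] [NormedSpace ℝ E] (k : ℝ → E) (p : H3) (y' : ℝ)
    (hy' : 0 < y') :
    ∫ z' : ℂ, k (cd p ⟨z', y', hy'⟩) =
      (p.y * y') • ((2 * π) • ∫ t in Ioi (cosh (log (p.y / y'))), k t) := by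
  have hp := p.pos
  have h1 : ∀ z' : ℂ, k (cd p ⟨z', y', hy'⟩) =
      (fun z : ℂ => k ((‖z‖ ^ 2 + (p.y ^ 2 + y' ^ 2)) / (2 * p.y * y'))) (p.z - z') := by
    intro z'
    simp only [cd, add_assoc]
  simp_rw [h1]
  rw [integral_sub_left_eq_self (fun z : ℂ =>
    k ((‖z‖ ^ 2 + (p.y ^ 2 + y' ^ 2)) / (2 * p.y * y'))) volume p.z]
  rw [integral_sq_complex k (by positivity), cosh_log_div hp hy', smul_smul]
  congr 1
  ring

/-- The Abel transform of a function of `cosh d`. -/
noncomputable def abelT (k : ℝ → ℝ) (u : ℝ) : ℝ := 2 * π * ∫ t in Ioi (cosh u), k t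

theorem abel_real (k : ℝ → ℝ) (p : H3) (y' : ℝ) (hy' : 0 < y') :
    ∫ z' : ℂ, k (cd p ⟨z', y', hy'⟩) = p.y * y' * abelT k (log (p.y / y')) := by
  rw [abel k p y' hy', abelT]
  simp only [smul_eq_mul]

/-- version with the first variable -/
theorem abel_real' (k : ℝ → ℝ) (p' : H3) (y : ℝ) (hy : 0 < y) :
    ∫ z : ℂ, k (cd ⟨z, y, hy⟩ p') = y * p'.y * abelT k (log (y / p'.y)) := by
  have h := abel_real k p' y hy
  have h1 : ∀ z : ℂ, cd ⟨z, y, hy⟩ p' = cd p' ⟨z, y, hy⟩ := fun z => cd_symm _ _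
  simp_rw [h1]
  rw [h, show log (p'.y / y) = - log (y / p'.y) by rw [← Real.log_inv, inv_div], abelT, abelT,
    Real.cosh_neg]
  ring

end H3

end Fermat.Agent.LT
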