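import Fermat.Agent.LT.H3.Horo

set_option autoImplicit false

/-!
# The Bessel eigenfunction
-/

namespace Fermat.Agent.LT

open MeasureTheory Set Topology Real Filter
open scoped InnerProductSpace

namespace H3

/-- additive character `z ↦ e(2 Re (ξ z))` -/
noncomputable def ex (ξ z : ℂ) : ℂ := Complex.exp (((4 * π * (ξ * z).re : ℝ) : ℂ) * Complex.I)

theorem norm_ex (ξ z : ℂ) : ‖ex ξ z‖ = 1 := Complex.norm_exp_ofReal_mul_I _

theorem ex_add (ξ z w : ℂ) : ex ξ (z + w) = ex ξ z * ex ξ w := by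
  rw [ex, ex, ex, ← Complex.exp_add]
  congr 1
  rw [mul_add, Complex.add_re]
  push_cast
  ring

theorem continuous_ex (ξ : ℂ) : Continuous (ex ξ) := by
  unfold ex
  have h : Continuous fun z : ℂ => (4 * π * (ξ * z).re : ℝ) :=
    continuous_const.mul (Complex.continuous_re.comp (by fun_prop))
  exact Complex.continuous_exp.comp ((Complex.continuous_ofReal.comp h).mul continuous_const)

theorem integral_gauss_norm {t : ℝ} (ht : 0 < t) (z : ℂ) :
    ∫ b : ℂ, Real.exp (-(t * ‖z + b‖ ^ 2)) = π / t := by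
  rw [integral_add_left_eq_self (fun b : ℂ => Real.exp (-(t * ‖b‖ ^ 2))) z]
  have h := GaussianFourier.integral_rexp_neg_mul_sq_norm (V := ℂ) ht
  simp only [neg_mul] at h
  rw [h, Complex.finrank_real_complex]
  norm_num

theorem integral_gauss (ξ : ℂ) {t : ℝ} (ht : 0 < t) (z : ℂ) :
    ∫ b : ℂ, (Real.exp (-(t * ‖z + b‖ ^ 2)) : ℂ) * ex ξ (-b) =
      ((π / t * Real.exp (-(4 * π ^ 2 * ‖ξ‖ ^ 2 / t)) : ℝ) : ℂ) * ex ξ z := by
  have h1 : ∀ b : ℂ, (Real.exp (-(t * ‖z + b‖ ^ 2)) : ℂ) * ex ξ (-b) =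
      (fun b : ℂ => ex ξ z * Complex.exp (-(t : ℂ) * ‖b‖ ^ 2 +
        (-(4 * π * Complex.I) : ℂ) * ⟪(starRingEnd ℂ) ξ, b⟫_ℝ)) (z + b) := by
    intro b
    simp only []
    rw [Complex.exp_add, ← mul_assoc, mul_comm (ex ξ z), mul_assoc]
    congr 1
    · rw [Complex.ofReal_exp]
      congr 1
      push_cast
      ring
    · have h2 : -b = z + -(z + b) := by ring
      rw [h2, ex_add]
      congr 1
      rw [ex, Complex.inner]
      congr 1
      rw [Complex.conj_conj, mul_neg, Complex.neg_re]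
      push_cast
      ring
  simp_rw [h1]
  rw [integral_add_left_eq_self (fun b : ℂ => ex ξ z * Complex.exp (-(t : ℂ) * ‖b‖ ^ 2 +
        (-(4 * π * Complex.I) : ℂ) * ⟪(starRingEnd ℂ) ξ, b⟫_ℝ)) z, integral_const_mul,
    GaussianFourier.integral_cexp_neg_mul_sq_norm_add (by simpa using ht),
    Complex.finrank_real_complex]
  have h3 : ((2 : ℕ) : ℂ) / 2 = 1 := by norm_num
  rw [h3, Complex.cpow_one, mul_comm (ex ξ z)]
  congr 1
  push_cast
  congr 1
  congr 1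
  rw [Complex.norm_conj]
  have ht' : (t : ℂ) ≠ 0 := by exact_mod_cast ht.ne'
  field_simp
  have hI : Complex.I ^ 2 = -1 := Complex.I_sq
  ring_nf
  rw [hI]
  ring

/-- the integral representing the Bessel function -/
noncomputable def bj (ξ : ℂ) (s y : ℝ) : ℝ :=
  ∫ t in Ioi (0 : ℝ), t ^ (s - 1) * Real.exp (-(t * y ^ 2) - 4 * π ^ 2 * ‖ξ‖ ^ 2 / t)

/-- translated inverted horospherical wave -/
noncomputable def wave (b : ℂ) (s : ℝ) (p : H3) : ℝ :=
  (p.y / (‖p.z + b‖ ^ 2 + p.y ^ 2)) ^ (1 + s)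

theorem wave_eq (b : ℂ) (s : ℝ) (p : H3) :
    wave b s p = ((wMat * upTri 1 b 1 (by norm_num)) • p).y ^ (1 + s) := by
  have h : (upTri 1 b 1 (by norm_num)) 1 0 = 0 := rfl
  have e0 : (upTri 1 b 1 (by norm_num)) 0 0 = 1 := rfl
  have e1 : (upTri 1 b 1 (by norm_num)) 0 1 = b := rfl
  have e2 : (upTri 1 b 1 (by norm_num)) 1 1 = 1 := rfl
  rw [wave, mul_smul, wMat_smul_y, smul_z_of_upper h, smul_y_of_upper h, e0, e1, e2]
  simp

theorem op_wave {k : ℝ → ℝ} (hk : Continuous k) (hs : HasCompactSupport k) (b : ℂ) (s : ℝ)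
    (p : H3) : ∫ p', k (cd p p') * wave b s p' = khats k s * wave b s p := by
  set g : GL (Fin 2) ℂ := wMat * upTri 1 b 1 (by norm_num) with hg
  simp_rw [wave_eq, ← hg]
  rw [← integral_cd_rpow hk hs s (g • p), ← integral_smul_H3 g
    (fun q => k (cd (g • p) q) * q.y ^ (1 + s))]
  refine integral_congr_ae (Eventually.of_forall fun q => ?_)
  simp only [cd_smul]

/-- the superposition of the waves -/
noncomputable def psi (ξ : ℂ) (s : ℝ) (p : H3) : ℂ := ∫ b : ℂ, (wave b s p : ℂ) * ex ξ (-b)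

theorem wave_gamma {s : ℝ} (hs : 0 < s) (b : ℂ) (p : H3) :
    Real.Gamma (1 + s) * wave b s p = p.y ^ (1 + s) * ∫ t in Ioi (0 : ℝ),
      t ^ s * (Real.exp (-(t * p.y ^ 2)) * Real.exp (-(t * ‖p.z + b‖ ^ 2))) := by
  have hp := p.pos
  have hA : 0 < ‖p.z + b‖ ^ 2 + p.y ^ 2 := by positivity
  have h := Real.integral_rpow_mul_exp_neg_mul_Ioi (a := 1 + s) (by linarith) hA
  have h1 : ∀ t : ℝ, t ^ s * (Real.exp (-(t * p.y ^ 2)) * Real.exp (-(t * ‖p.z + b‖ ^ 2))) =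
      t ^ (1 + s - 1) * Real.exp (-((‖p.z + b‖ ^ 2 + p.y ^ 2) * t)) := by
    intro t
    rw [← Real.exp_add]
    congr 2
    · ring
    · ring
  simp_rw [h1]
  rw [h, wave, div_eq_mul_one_div, Real.mul_rpow hp.le (by positivity)]
  ring

theorem integrable_prod_bt {s : ℝ} (hs : 0 < s) (ξ : ℂ) (p : H3) :
    Integrable (fun q : ℂ × ℝ => ((q.2 ^ s * (Real.exp (-(q.2 * p.y ^ 2)) *
      Real.exp (-(q.2 * ‖p.z + q.1‖ ^ 2))) : ℝ) : ℂ) * ex ξ (-q.1))
      ((volume : Measure ℂ).prod (volume.restrict (Ioi (0 : ℝ)))) := by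
  have hp := p.pos
  have hmeas : Measurable fun q : ℂ × ℝ => ((q.2 ^ s * (Real.exp (-(q.2 * p.y ^ 2)) *
      Real.exp (-(q.2 * ‖p.z + q.1‖ ^ 2))) : ℝ) : ℂ) * ex ξ (-q.1) := by
    have h1 : Measurable fun q : ℂ × ℝ => q.2 ^ s := measurable_snd.pow_const s
    have h2 : Continuous fun q : ℂ × ℝ => Real.exp (-(q.2 * p.y ^ 2)) *
      Real.exp (-(q.2 * ‖p.z + q.1‖ ^ 2)) := by fun_prop
    have h3 : Continuous fun q : ℂ × ℝ => ex ξ (-q.1) :=
      (continuous_ex ξ).comp continuous_fst.neg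
    exact (Complex.measurable_ofReal.comp (h1.mul h2.measurable)).mul h3.measurable
  have hnorm : ∀ (t : ℝ) (b : ℂ), 0 < t → ‖((t ^ s * (Real.exp (-(t * p.y ^ 2)) *
      Real.exp (-(t * ‖p.z + b‖ ^ 2))) : ℝ) : ℂ) * ex ξ (-b)‖ =
      t ^ s * Real.exp (-(t * p.y ^ 2)) * Real.exp (-(t * ‖p.z + b‖ ^ 2)) := by
    intro t b ht
    rw [norm_mul, norm_ex, mul_one, Complex.norm_real, Real.norm_of_nonneg (by positivity)]
    ring
  have hgi : ∀ t : ℝ, 0 < t → Integrable fun b : ℂ => Real.exp (-(t * ‖p.z + b‖ ^ 2)) := by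
    intro t ht
    by_contra hcon
    have h := integral_undef hcon
    rw [integral_gauss_norm ht] at h
    have : 0 < π / t := by positivity
    linarith
  rw [integrable_prod_iff' hmeas.aestronglyMeasurable]
  constructor
  · refine (ae_restrict_iff' measurableSet_Ioi).mpr (Eventually.of_forall fun t ht => ?_)
    have ht' : (0 : ℝ) < t := ht
    refine ((hgi t ht').const_mul (t ^ s * Real.exp (-(t * p.y ^ 2)))).mono'
      (hmeas.comp measurable_prodMk_right).aestronglyMeasurable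
      (Eventually.of_forall fun b => ?_)
    exact (hnorm t b ht').le
  · have h1 : IntegrableOn (fun t : ℝ => t ^ (s - 1) * Real.exp (-(p.y ^ 2) * t ^ (1 : ℝ)))
        (Ioi 0) := integrableOn_rpow_mul_exp_neg_mul_rpow (by linarith) one_pos (by positivity)
    refine (h1.const_mul π).congr ?_
    refine (ae_restrict_iff' measurableSet_Ioi).mpr (Eventually.of_forall fun t ht => ?_)
    have ht' : (0 : ℝ) < t := ht
    simp only []
    rw [integral_congr_ae (Eventually.of_forall fun b => hnorm t b ht'), integral_const_mul,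
      integral_gauss_norm ht', Real.rpow_one, Real.rpow_sub ht', Real.rpow_one]
    rw [show -(p.y ^ 2) * t = -(t * p.y ^ 2) by ring]
    field_simp

theorem psi_eq {s : ℝ} (hs : 0 < s) (ξ : ℂ) (p : H3) :
    (Real.Gamma (1 + s) : ℂ) * psi ξ s p =
      ((π * p.y ^ (1 + s) * bj ξ s p.y : ℝ) : ℂ) * ex ξ p.z := by
  have hp := p.pos
  rw [psi, ← integral_const_mul]
  have h1 : ∀ b : ℂ, (Real.Gamma (1 + s) : ℂ) * ((wave b s p : ℂ) * ex ξ (-b)) =
      ((p.y ^ (1 + s) : ℝ) : ℂ) * ∫ t in Ioi (0 : ℝ),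
      ((t ^ s * (Real.exp (-(t * p.y ^ 2)) * Real.exp (-(t * ‖p.z + b‖ ^ 2))) : ℝ) : ℂ) *
        ex ξ (-b) := by
    intro b
    rw [integral_mul_const, integral_complex_ofReal, ← mul_assoc, ← mul_assoc, ← Complex.ofReal_mul,
      ← Complex.ofReal_mul, wave_gamma hs]
  simp_rw [h1]
  rw [integral_const_mul, integral_integral_swap (integrable_prod_bt hs ξ p)]
  have h2 : ∀ t ∈ Ioi (0 : ℝ), ∫ b : ℂ, ((t ^ s * (Real.exp (-(t * p.y ^ 2)) *
      Real.exp (-(t * ‖p.z + b‖ ^ 2))) : ℝ) : ℂ) * ex ξ (-b) =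
      ((π * (t ^ (s - 1) * Real.exp (-(t * p.y ^ 2) - 4 * π ^ 2 * ‖ξ‖ ^ 2 / t)) : ℝ) : ℂ) *
        ex ξ p.z := by
    intro t ht
    have ht' : (0 : ℝ) < t := ht
    have e1 : ∀ b : ℂ, ((t ^ s * (Real.exp (-(t * p.y ^ 2)) *
      Real.exp (-(t * ‖p.z + b‖ ^ 2))) : ℝ) : ℂ) * ex ξ (-b) =
      ((t ^ s * Real.exp (-(t * p.y ^ 2)) : ℝ) : ℂ) *
        ((Real.exp (-(t * ‖p.z + b‖ ^ 2)) : ℂ) * ex ξ (-b)) := by
      intro b
      push_cast
      ring
    simp_rw [e1]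
    rw [integral_const_mul, integral_gauss ξ ht', ← mul_assoc, ← Complex.ofReal_mul]
    congr 2
    rw [Real.rpow_sub ht', Real.rpow_one, sub_eq_add_neg, Real.exp_add]
    field_simp
  rw [setIntegral_congr_fun measurableSet_Ioi h2, integral_mul_const, integral_complex_ofReal,
    integral_const_mul, ← mul_assoc, ← Complex.ofReal_mul, bj]
  congr 2
  ring

end H3

end Fermat.Agent.LT
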