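import Fermat.Agent.LT.H3.Bess

set_option autoImplicit false

/-!
# The Bessel eigenfunction: passage to the limit
-/

namespace Fermat.Agent.LT

open MeasureTheory Set Topology Real Filter
open scoped InnerProductSpace

namespace H3

theorem measurable_wave (s : ℝ) : Measurable fun q : H3 × ℂ => wave q.2 s q.1 := by
  unfold wave
  have h1 : Measurable fun q : H3 × ℂ => q.1.y := continuous_y.measurable.comp measurable_fst
  have h2 : Measurable fun q : H3 × ℂ => q.1.z := continuous_z.measurable.comp measurable_fst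
  have h3 : Measurable fun q : H3 × ℂ => q.2 := measurable_snd
  have h4 : Measurable fun q : H3 × ℂ => ‖q.1.z + q.2‖ := (h2.add h3).norm
  exact (h1.div ((h4.pow_const 2).add (h1.pow_const 2))).pow_const _

theorem wave_nonneg (b : ℂ) (s : ℝ) (p : H3) : 0 ≤ wave b s p := by
  have := p.pos
  rw [wave]
  positivity

/-- bound on compact sets -/
theorem wave_le (p : H3) (R : ℝ) (s : ℝ) (hs : 0 < s) : ∃ C : ℝ, 0 ≤ C ∧ ∀ p', cd p p' ≤ R →
    ∀ b, wave b s p' ≤ C * (1 + ‖b‖ ^ 2) ^ (-(2 + 2 * s) / 2) := by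
  have hp := p.pos
  by_cases hR : 1 ≤ R
  swap
  · exact ⟨0, le_rfl, fun p' h => absurd ((one_le_cd p p').trans h) hR⟩
  have hR0 : 0 < R := by linarith
  set a : ℝ := p.y / (2 * R) with ha
  set A : ℝ := 2 * R * p.y with hA
  set B2 : ℝ := 2 * (2 * R * p.y * A + ‖p.z‖ ^ 2) with hB2
  set M : ℝ := 2 + (1 + 2 * B2) / a ^ 2 with hM
  have ha0 : 0 < a := by positivity
  have hA0 : 0 < A := by positivity
  have hB20 : 0 ≤ B2 := by positivity
  have hM0 : 0 < M := by positivity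
  refine ⟨(A * M) ^ (1 + s), by positivity, fun p' h b => ?_⟩
  have hp' := p'.pos
  have h1 : p'.y ≤ A := by
    refine (y_le p p').trans ?_
    rw [hA]
    gcongr
  have h2 : a ≤ p'.y := by
    rw [ha, div_le_iff₀ (by positivity)]
    have := y_le p' p
    rw [cd_symm] at this
    have h3 : 2 * cd p p' * p'.y ≤ 2 * R * p'.y := by gcongr
    linarith
  have h3 : ‖p'.z‖ ^ 2 ≤ B2 := by
    have h4 := z_le p p'
    have h5 : 2 * cd p p' * p.y * p'.y ≤ 2 * R * p.y * A := by gcongr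
    have h6 : ‖p'.z‖ ≤ ‖p.z - p'.z‖ + ‖p.z‖ := by
      have := norm_sub_le p.z (p.z - p'.z)
      rw [sub_sub_cancel] at this
      linarith
    have h7 : ‖p'.z‖ ^ 2 ≤ (‖p.z - p'.z‖ + ‖p.z‖) ^ 2 := by gcongr
    nlinarith [sq_nonneg (‖p.z - p'.z‖ - ‖p.z‖)]
  have h4 : 1 + ‖b‖ ^ 2 ≤ M * (‖p'.z + b‖ ^ 2 + p'.y ^ 2) := by
    have h6 : ‖b‖ ≤ ‖p'.z + b‖ + ‖p'.z‖ := by
      have := norm_sub_le (p'.z + b) p'.z
      rw [add_sub_cancel_left] at this
      exact this
    have h7 : ‖b‖ ^ 2 ≤ (‖p'.z + b‖ + ‖p'.z‖) ^ 2 := by gcongr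
    have h8 : ‖b‖ ^ 2 ≤ 2 * ‖p'.z + b‖ ^ 2 + 2 * B2 := by
      nlinarith [sq_nonneg (‖p'.z + b‖ - ‖p'.z‖)]
    have h9 : (1 + 2 * B2) ≤ (1 + 2 * B2) / a ^ 2 * p'.y ^ 2 := by
      rw [div_mul_eq_mul_div, le_div_iff₀ (by positivity)]
      gcongr
    have h10 : 0 ≤ (1 + 2 * B2) / a ^ 2 * ‖p'.z + b‖ ^ 2 := by positivity
    have h11 : 0 ≤ p'.y ^ 2 := by positivity
    rw [hM]
    nlinarith
  have h5 : 0 < ‖p'.z + b‖ ^ 2 + p'.y ^ 2 := by positivity
  have h6 : p'.y / (‖p'.z + b‖ ^ 2 + p'.y ^ 2) ≤ (A * M) / (1 + ‖b‖ ^ 2) := by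
    rw [div_le_div_iff₀ h5 (by positivity)]
    calc p'.y * (1 + ‖b‖ ^ 2) ≤ A * (M * (‖p'.z + b‖ ^ 2 + p'.y ^ 2)) := by gcongr
      _ = _ := by ring
  rw [wave]
  calc (p'.y / (‖p'.z + b‖ ^ 2 + p'.y ^ 2)) ^ (1 + s) ≤ ((A * M) / (1 + ‖b‖ ^ 2)) ^ (1 + s) := by
        gcongr
    _ = _ := by
        rw [Real.div_rpow (by positivity) (by positivity), div_eq_mul_inv,
          ← Real.rpow_neg (by positivity)]
        congr 2
        ring

theorem op_psi {k : ℝ → ℝ} (hk : Continuous k) (hks : HasCompactSupport k) (ξ : ℂ) {s : ℝ}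
    (hs : 0 < s) (p : H3) :
    ∫ p', k (cd p p') • psi ξ s p' = (khats k s : ℂ) * psi ξ s p := by
  obtain ⟨R, hR1, hR⟩ := exists_R hks
  obtain ⟨C, hC0, hC⟩ := wave_le p R s hs
  obtain ⟨Ck, hCk⟩ := hks.exists_bound_of_continuous hk
  have hCk0 : 0 ≤ Ck := (norm_nonneg _).trans (hCk 0)
  have hB : MeasurableSet {p' : H3 | cd p p' ≤ R} := (isCompact_ball p R).isClosed.measurableSet
  have hint : Integrable (fun q : H3 × ℂ => ((k (cd p q.1) * wave q.2 s q.1 : ℝ) : ℂ) *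
      ex ξ (-q.2)) ((volume : Measure H3).prod volume) := by
    have i1 : Integrable ({p' : H3 | cd p p' ≤ R}.indicator fun _ => Ck) :=
      (integrable_indicator_iff hB).mpr (integrableOn_const (isCompact_ball p R).measure_lt_top.ne)
    have i2 : Integrable (fun b : ℂ => C * (1 + ‖b‖ ^ 2) ^ (-(2 + 2 * s) / 2)) :=
      (integrable_rpow_neg_one_add_norm_sq (by
        rw [Complex.finrank_real_complex]; push_cast; linarith)).const_mul C
    have hkc : Measurable fun q : H3 × ℂ => k (cd p q.1) :=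
      (hk.comp (continuous_cd_right p)).measurable.comp measurable_fst
    have hex : Measurable fun q : H3 × ℂ => ex ξ (-q.2) :=
      ((continuous_ex ξ).comp continuous_neg).measurable.comp measurable_snd
    refine (i1.mul_prod i2).mono' ((Complex.measurable_ofReal.comp
      (hkc.mul (measurable_wave s))).mul hex).aestronglyMeasurable
      (Eventually.of_forall fun q => ?_)
    rw [norm_mul, norm_ex, mul_one, Complex.norm_real, norm_mul,
      Real.norm_of_nonneg (wave_nonneg _ _ _)]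
    by_cases h : q.1 ∈ {p' : H3 | cd p p' ≤ R}
    · rw [indicator_of_mem h]
      exact mul_le_mul (hCk _) (hC q.1 h q.2) (wave_nonneg _ _ _) hCk0
    · rw [indicator_of_notMem h, hR _ (not_le.mp h), norm_zero, zero_mul, zero_mul]
  have h1 : ∀ p', k (cd p p') • psi ξ s p' =
      ∫ b : ℂ, ((k (cd p p') * wave b s p' : ℝ) : ℂ) * ex ξ (-b) := by
    intro p'
    rw [psi, ← integral_smul]
    refine integral_congr_ae (Eventually.of_forall fun b => ?_)
    simp only [Complex.real_smul]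
    push_cast
    ring
  simp_rw [h1]
  rw [integral_integral_swap hint]
  have h2 : ∀ b : ℂ, ∫ p', ((k (cd p p') * wave b s p' : ℝ) : ℂ) * ex ξ (-b) =
      (khats k s : ℂ) * ((wave b s p : ℂ) * ex ξ (-b)) := by
    intro b
    rw [integral_mul_const, integral_complex_ofReal, op_wave hk hks]
    push_cast
    ring
  simp_rw [h2]
  rw [integral_const_mul, psi]

/-- the eigenfunction with parameter `s` -/
noncomputable def phis (ξ : ℂ) (s : ℝ) (p : H3) : ℂ :=
  ((p.y ^ (1 + s) * bj ξ s p.y : ℝ) : ℂ) * ex ξ p.z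

theorem phis_eq {s : ℝ} (hs : 0 < s) (ξ : ℂ) (p : H3) :
    phis ξ s p = ((Real.Gamma (1 + s) / π : ℝ) : ℂ) * psi ξ s p := by
  have h := psi_eq hs ξ p
  have hpi : (π : ℂ) ≠ 0 := by exact_mod_cast Real.pi_ne_zero
  rw [phis]
  push_cast at h ⊢
  rw [div_mul_eq_mul_div, h]
  field_simp

theorem op_phis {k : ℝ → ℝ} (hk : Continuous k) (hks : HasCompactSupport k) (ξ : ℂ) {s : ℝ}
    (hs : 0 < s) (p : H3) :
    ∫ p', k (cd p p') • phis ξ s p' = (khats k s : ℂ) * phis ξ s p := by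
  have h1 : ∀ p', k (cd p p') • phis ξ s p' =
      ((Real.Gamma (1 + s) / π : ℝ) : ℂ) * (k (cd p p') • psi ξ s p') := by
    intro p'
    rw [phis_eq hs]
    simp only [Complex.real_smul]
    ring
  simp_rw [h1]
  rw [integral_const_mul, op_psi hk hks ξ hs, phis_eq hs]
  ring

end H3

end Fermat.Agent.LT
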