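import Mathlib

set_option autoImplicit false

/-!
# Even smooth functions are smooth functions of `cosh`
-/

namespace Fermat.Agent.LT.Even

open MeasureTheory Set Filter Topology intervalIntegral
open scoped ContDiff

/-- derivative under the integral -/
theorem hasDerivAt_par {w f f' : ℝ → ℝ} (hw : Continuous w) (hf : ∀ x, HasDerivAt f (f' x) x)
    (hf' : Continuous f') (x₀ : ℝ) :
    HasDerivAt (fun x => ∫ θ in (0 : ℝ)..1, w θ * f (θ * x))
      (∫ θ in (0 : ℝ)..1, w θ * θ * f' (θ * x₀)) x₀ := by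
  have hfc : Continuous f := continuous_iff_continuousAt.mpr fun x => (hf x).continuousAt
  obtain ⟨C, hC⟩ := (isCompact_Icc.prod isCompact_Icc : IsCompact
    (Icc (0 : ℝ) 1 ×ˢ Icc (x₀ - 1) (x₀ + 1))).exists_bound_of_continuousOn
    (f := fun q : ℝ × ℝ => w q.1 * q.1 * f' (q.1 * q.2)) (by fun_prop)
  refine (intervalIntegral.hasDerivAt_integral_of_dominated_loc_of_deriv_le (μ := volume)
    (F := fun x θ => w θ * f (θ * x)) (F' := fun x θ => w θ * θ * f' (θ * x))
    (s := Icc (x₀ - 1) (x₀ + 1)) (bound := fun _ => C) (Icc_mem_nhds (by linarith) (by linarith))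
    ?_ ?_ ?_ ?_ ?_ ?_).2
  · refine Eventually.of_forall fun x => ?_
    have : Continuous fun θ => w θ * f (θ * x) := by fun_prop
    exact this.aestronglyMeasurable
  · have : Continuous fun θ => w θ * f (θ * x₀) := by fun_prop
    exact this.intervalIntegrable _ _
  · have : Continuous fun θ => w θ * θ * f' (θ * x₀) := by fun_prop
    exact this.aestronglyMeasurable
  · refine Eventually.of_forall fun θ hθ x hx => ?_
    rw [uIoc_of_le zero_le_one] at hθ
    exact hC (θ, x) ⟨⟨hθ.1.le, hθ.2⟩, hx⟩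
  · exact _root_.intervalIntegrable_const
  · refine Eventually.of_forall fun θ _ x _ => ?_
    have h1 := ((hasDerivAt_id x).const_mul θ)
    have h2 := (hf (θ * x)).comp x h1
    have h3 := h2.const_mul (w θ)
    rw [show w θ * θ * f' (θ * x) = w θ * (f' (θ * x) * (θ * 1)) by ring]
    exact h3

theorem contDiff_par (n : ℕ) : ∀ {w f : ℝ → ℝ}, Continuous w → ContDiff ℝ n f →
    ContDiff ℝ n (fun x => ∫ θ in (0 : ℝ)..1, w θ * f (θ * x)) := by
  induction n with
  | zero =>
    intro w f hw hf
    rw [Nat.cast_zero, contDiff_zero] at hf ⊢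
    exact continuous_parametric_intervalIntegral_of_continuous' (by fun_prop) _ _
  | succ n ih =>
    intro w f hw hf
    have hf1 : ContDiff ℝ ((n : ℕ∞ω) + 1) f := by exact_mod_cast hf
    obtain ⟨h1, -, h2⟩ := contDiff_succ_iff_deriv.mp hf1
    have hd : ∀ x, HasDerivAt (fun x => ∫ θ in (0 : ℝ)..1, w θ * f (θ * x))
        (∫ θ in (0 : ℝ)..1, (w θ * θ) * deriv f (θ * x)) x :=
      fun x => hasDerivAt_par hw (fun y => (h1 y).hasDerivAt) h2.continuous x
    have : ContDiff ℝ ((n : ℕ∞ω) + 1) (fun x => ∫ θ in (0 : ℝ)..1, w θ * f (θ * x)) := by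
      refine contDiff_succ_iff_deriv.mpr ⟨fun x => (hd x).differentiableAt, by simp, ?_⟩
      have e : deriv (fun x => ∫ θ in (0 : ℝ)..1, w θ * f (θ * x)) =
          fun x => ∫ θ in (0 : ℝ)..1, (w θ * θ) * deriv f (θ * x) := funext fun x => (hd x).deriv
      rw [e]
      exact ih (by fun_prop) h2
    exact_mod_cast this

/-- `g(x)/x` for `g` with `g 0 = 0` -/
noncomputable def quo (g : ℝ → ℝ) (x : ℝ) : ℝ := ∫ θ in (0 : ℝ)..1, deriv g (θ * x)

theorem contDiff_quo {g : ℝ → ℝ} (hg : ContDiff ℝ ∞ g) : ContDiff ℝ ∞ (quo g) := by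
  rw [contDiff_infty]
  intro n
  have h := contDiff_par n (w := fun _ => 1) continuous_const
    (f := deriv g) ((contDiff_infty_iff_deriv.mp hg).2.of_le (by exact_mod_cast le_top))
  simp only [one_mul] at h
  exact h

theorem mul_quo {g : ℝ → ℝ} (hg : ContDiff ℝ ∞ g) (h0 : g 0 = 0) (x : ℝ) : x * quo g x = g x := by
  have hd : Differentiable ℝ g := hg.differentiable (by simp)
  have hc : Continuous (deriv g) := (contDiff_infty_iff_deriv.mp hg).2.continuous
  have h1 : ∫ θ in (0 : ℝ)..1, x * deriv g (θ * x) = g (1 * x) - g (0 * x) := by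
    refine integral_eq_sub_of_hasDerivAt (f := fun θ => g (θ * x)) (fun θ _ => ?_) ?_
    · have h2 : HasDerivAt (fun θ : ℝ => θ * x) x θ := by
        simpa using (hasDerivAt_id θ).mul_const x
      have h3 := (hd (θ * x)).hasDerivAt.comp θ h2
      rw [mul_comm] at h3
      exact h3
    · exact Continuous.intervalIntegrable (by fun_prop) _ _
  rw [one_mul, zero_mul, h0, sub_zero] at h1
  rw [← h1, quo, intervalIntegral.integral_const_mul]

theorem quo_even {g : ℝ → ℝ} (hg : ∀ x, g (-x) = - g x) (x : ℝ) : quo g (-x) = quo g x := by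
  have h : ∀ y, deriv g (-y) = deriv g y := by
    intro y
    have h1 : deriv (fun y => g (-y)) y = - deriv g (-y) := deriv_comp_neg g y
    have h2 : (fun y => g (-y)) = fun y => - g y := funext hg
    rw [h2] at h1
    have h3 : deriv (fun y => - g y) y = - deriv g y := deriv.fun_neg
    linarith
  simp only [quo]
  refine intervalIntegral.integral_congr fun θ _ => ?_
  simp only [mul_neg]
  exact h _

theorem quo_sinh_pos (x : ℝ) : 0 < quo Real.sinh x := by
  simp only [quo, Real.deriv_sinh]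
  exact intervalIntegral_pos_of_pos (Continuous.intervalIntegrable (by fun_prop) _ _)
    (fun θ => Real.cosh_pos _) one_pos

/-- `g(x)/sinh x` for `g` with `g 0 = 0` -/
noncomputable def divS (g : ℝ → ℝ) (x : ℝ) : ℝ := quo g x / quo Real.sinh x

theorem contDiff_divS {g : ℝ → ℝ} (hg : ContDiff ℝ ∞ g) : ContDiff ℝ ∞ (divS g) :=
  (contDiff_quo hg).div (contDiff_quo Real.contDiff_sinh) fun x => (quo_sinh_pos x).ne'

theorem sinh_mul_divS {g : ℝ → ℝ} (hg : ContDiff ℝ ∞ g) (h0 : g 0 = 0) (x : ℝ) :
    Real.sinh x * divS g x = g x := by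
  have h := (quo_sinh_pos x).ne'
  rw [divS, ← mul_quo Real.contDiff_sinh Real.sinh_zero x, ← mul_quo hg h0 x]
  field_simp

theorem divS_even {g : ℝ → ℝ} (hg : ∀ x, g (-x) = - g x) (x : ℝ) : divS g (-x) = divS g x := by
  rw [divS, divS, quo_even hg, quo_even Real.sinh_neg]

theorem odd_zero {g : ℝ → ℝ} (hg : ∀ x, g (-x) = - g x) : g 0 = 0 := by
  have := hg 0
  rw [neg_zero] at this
  linarith

theorem deriv_odd {f : ℝ → ℝ} (hf : ∀ x, f (-x) = f x) (x : ℝ) : deriv f (-x) = - deriv f x := by
  have h1 : deriv (fun y => f (-y)) x = - deriv f (-x) := deriv_comp_neg f x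
  have h2 : (fun y => f (-y)) = f := funext hf
  rw [h2] at h1
  linarith

/-- The one-sided derivative of an even function composed with `arcosh`. -/
theorem hasDerivWithinAt_arcosh {f : ℝ → ℝ} (hf : ContDiff ℝ ∞ f) (he : ∀ x, f (-x) = f x)
    {t : ℝ} (ht : 1 ≤ t) :
    HasDerivWithinAt (fun t => f (Real.arcosh t)) (divS (deriv f) (Real.arcosh t)) (Ici 1) t := by
  have hd : ContDiff ℝ ∞ (deriv f) := (contDiff_infty_iff_deriv.mp hf).2
  have hodd := deriv_odd he
  have hdiff : Differentiable ℝ f := hf.differentiable (by simp)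
  have key : ∀ s : ℝ, 1 < s → HasDerivAt (fun t => f (Real.arcosh t))
      (divS (deriv f) (Real.arcosh s)) s := by
    intro s hs
    have h1 := (hdiff (Real.arcosh s)).hasDerivAt.comp s (Real.hasDerivAt_arcosh hs)
    have h2 := sinh_mul_divS hd (odd_zero hodd) (Real.arcosh s)
    have h3 : Real.sinh (Real.arcosh s) = √(s ^ 2 - 1) := Real.sinh_arcosh hs.le
    have h4 : 0 < √(s ^ 2 - 1) := Real.sqrt_pos.mpr (by nlinarith)
    rw [← h2, h3, mul_comm (√(s ^ 2 - 1)), mul_assoc, mul_inv_cancel₀ h4.ne', mul_one] at h1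
    exact h1
  rcases ht.lt_or_eq with h | h
  · exact (key t h).hasDerivWithinAt
  · subst h
    refine hasDerivWithinAt_Ici_of_tendsto_deriv (s := Ioi 1)
      (fun s hs => (key s hs).differentiableAt.differentiableWithinAt) ?_ self_mem_nhdsWithin ?_
    · exact (hf.continuous.comp_continuousOn Real.continuousOn_arcosh 1 self_mem_Ici).mono
        Ioi_subset_Ici_self
    · have h1 : Tendsto (fun s => divS (deriv f) (Real.arcosh s)) (𝓝[>] 1)
          (𝓝 (divS (deriv f) (Real.arcosh 1))) :=
        ((contDiff_divS hd).continuous.comp_continuousOn Real.continuousOn_arcosh 1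
          self_mem_Ici).mono Ioi_subset_Ici_self
      refine h1.congr' ?_
      filter_upwards [self_mem_nhdsWithin] with s hs
      exact (key s hs).deriv.symm

/-- **Even smooth functions are smooth functions of `cosh`.** -/
theorem contDiffOn_arcosh (n : ℕ) : ∀ {f : ℝ → ℝ}, ContDiff ℝ ∞ f → (∀ x, f (-x) = f x) →
    ContDiffOn ℝ n (fun t => f (Real.arcosh t)) (Ici 1) := by
  induction n with
  | zero =>
    intro f hf _
    rw [Nat.cast_zero, contDiffOn_zero]
    exact hf.continuous.comp_continuousOn Real.continuousOn_arcosh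
  | succ n ih =>
    intro f hf he
    have hd : ContDiff ℝ ∞ (deriv f) := (contDiff_infty_iff_deriv.mp hf).2
    have hodd := deriv_odd he
    have : ContDiffOn ℝ ((n : ℕ∞ω) + 1) (fun t => f (Real.arcosh t)) (Ici 1) := by
      refine (contDiffOn_succ_iff_derivWithin (uniqueDiffOn_Ici 1)).mpr
        ⟨fun t ht => (hasDerivWithinAt_arcosh hf he ht).differentiableWithinAt, by simp, ?_⟩
      refine (ih (contDiff_divS hd) (divS_even hodd)).congr fun t ht => ?_
      exact (hasDerivWithinAt_arcosh hf he ht).derivWithin (uniqueDiffOn_Ici 1 t ht)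
    exact_mod_cast this

end Fermat.Agent.LT.Even
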