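import Fermat.Agent.LT.H3.Meas

set_option autoImplicit false

/-!
# Invariance of the hyperbolic volume
-/

namespace Fermat.Agent.LT

open Matrix ComplexConjugate MeasureTheory Set Topology

namespace H3

theorem continuous_smul_H3 (g : GL (Fin 2) ℂ) : Continuous (fun p : H3 => g • p) := by
  have hden : Continuous fun p : H3 => p.den (g 1 0) (g 1 1) := by
    unfold den
    have := continuous_z
    have := continuous_y
    fun_prop
  have hne : ∀ p : H3, p.den (g 1 0) (g 1 1) ≠ 0 := fun p => (p.den_pos (row_ne g 1)).ne'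
  refine continuous_mk ?_ ?_
  · simp only [smul_z]
    refine Continuous.div ?_ (Complex.continuous_ofReal.comp hden) ?_
    · unfold num
      have := continuous_z
      have := continuous_y
      have : Continuous fun p : H3 => (p.y : ℂ) := Complex.continuous_ofReal.comp continuous_y
      have : Continuous fun p : H3 => conj (g 1 0 * p.z + g 1 1) :=
        Complex.continuous_conj.comp (by fun_prop)
      fun_prop
    · intro p
      exact_mod_cast hne p
  · simp only [smul_y]
    refine Continuous.div ?_ hden hne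
    have := continuous_y
    fun_prop

instance : ContinuousConstSMul (GL (Fin 2) ℂ) H3 := ⟨continuous_smul_H3⟩

theorem measurable_smul_H3 (g : GL (Fin 2) ℂ) : Measurable (fun p : H3 => g • p) :=
  (continuous_smul_H3 g).measurable

instance isAddHaar_CR : (volume : Measure (ℂ × ℝ)).IsAddHaarMeasure :=
  inferInstanceAs (Measure.IsAddHaarMeasure ((volume : Measure ℂ).prod (volume : Measure ℝ)))

/-- change of variables -/
theorem lintegral_comp_of_deriv {T : ℂ × ℝ → ℂ × ℝ} {T' : ℂ × ℝ → (ℂ × ℝ →L[ℝ] ℂ × ℝ)}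
    (hT : ∀ q ∈ uhs, HasFDerivAt T (T' q) q)
    (hdet : ∀ q ∈ uhs, |(T' q).det| = ((T q).2 / q.2) ^ 3)
    (him : T '' uhs = uhs) (hinj : InjOn T uhs) (f : ℂ × ℝ → ENNReal) :
    ∫⁻ q in uhs, dens q * f (T q) = ∫⁻ q in uhs, dens q * f q := by
  have h := lintegral_image_eq_lintegral_abs_det_fderiv_mul volume measurableSet_uhs
    (fun q hq => (hT q hq).hasFDerivWithinAt) hinj (fun q => dens q * f q)
  rw [him] at h
  rw [h]
  refine setLIntegral_congr_fun measurableSet_uhs fun q hq => ?_
  have h1 : (0 : ℝ) < q.2 := hq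
  have h2 : (0 : ℝ) < (T q).2 := by
    have : T q ∈ uhs := by rw [← him]; exact mem_image_of_mem T hq
    exact this
  rw [hdet q hq, ← mul_assoc]
  congr 1
  rw [dens, dens, ← ENNReal.ofReal_mul (by positivity)]
  congr 1
  field_simp

/-- coordinates of the action -/
noncomputable def actCR (g : GL (Fin 2) ℂ) (q : ℂ × ℝ) : ℂ × ℝ := toCR (g • ofCR q)

theorem actCR_image (g : GL (Fin 2) ℂ) : actCR g '' uhs = uhs := by
  ext q
  constructor
  · rintro ⟨q', -, rfl⟩
    exact (g • ofCR q').pos
  · intro hq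
    refine ⟨toCR (g⁻¹ • ofCR q), (g⁻¹ • ofCR q).pos, ?_⟩
    rw [actCR, ofCR_toCR, smul_inv_smul, toCR_ofCR hq]

theorem actCR_injOn (g : GL (Fin 2) ℂ) : InjOn (actCR g) uhs := by
  intro q hq q' hq' h
  have h1 := toCR_injective h
  rw [smul_left_cancel_iff] at h1
  rw [← toCR_ofCR hq, h1, toCR_ofCR hq']

theorem measurePreserving_of_deriv (g : GL (Fin 2) ℂ) (T : ℂ × ℝ → ℂ × ℝ)
    (hgT : ∀ q ∈ uhs, actCR g q = T q) (T' : ℂ × ℝ → (ℂ × ℝ →L[ℝ] ℂ × ℝ))
    (hT : ∀ q ∈ uhs, HasFDerivAt T (T' q) q)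
    (hdet : ∀ q ∈ uhs, |(T' q).det| = ((T q).2 / q.2) ^ 3) :
    MeasurePreserving (fun p : H3 => g • p) := by
  refine ⟨measurable_smul_H3 g, ?_⟩
  ext s hs
  rw [Measure.map_apply (measurable_smul_H3 g) hs, ← lintegral_indicator_one
    ((measurable_smul_H3 g) hs), ← lintegral_indicator_one hs, lintegral_eq, lintegral_eq]
  have him : T '' uhs = uhs :=
    (image_congr fun q hq => (hgT q hq).symm).trans (actCR_image g)
  have hinj : InjOn T uhs := (actCR_injOn g).congr hgT
  rw [← lintegral_comp_of_deriv hT hdet him hinj (fun q => s.indicator 1 (ofCR q))]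
  refine setLIntegral_congr_fun measurableSet_uhs fun q hq => ?_
  have h1 : ofCR (T q) = g • ofCR q := by
    rw [← hgT q hq, actCR, ofCR_toCR]
  simp only [h1]
  rfl

end H3

end Fermat.Agent.LT
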