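import Fermat.Agent.LT.H3.Bess3

set_option autoImplicit false

/-!
# The Bessel function `K₀`
-/

namespace Fermat.Agent.LT

open MeasureTheory Set Topology Real Filter

/-- The Bessel function `K₀`. -/
noncomputable def K0 (x : ℝ) : ℝ := ∫ t in Ioi (0 : ℝ), Real.exp (-(x * cosh t))

theorem sq_le_sinh_sq (x : ℝ) : x ^ 2 ≤ sinh x ^ 2 := by
  rcases le_total 0 x with h | h
  · have h1 := Real.self_le_sinh_iff.mpr h
    gcongr
  · have h1 := Real.self_le_sinh_iff.mpr (neg_nonneg.mpr h)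
    rw [Real.sinh_neg] at h1
    have h2 : (-x) ^ 2 ≤ (-sinh x) ^ 2 := by
      have : 0 ≤ -x := neg_nonneg.mpr h
      gcongr
    simpa using h2

theorem cosh_ge (t : ℝ) : 1 + t ^ 2 / 2 ≤ cosh t := by
  have h1 : cosh t = 2 * sinh (t / 2) ^ 2 + 1 := by
    have h2 := Real.cosh_two_mul (t / 2)
    have h3 := Real.cosh_sq (t / 2)
    rw [show 2 * (t / 2) = t by ring] at h2
    linarith
  have h4 := sq_le_sinh_sq (t / 2)
  rw [h1]
  nlinarith

theorem K0_integrand_le {a x t : ℝ} (ha : 0 ≤ a) (hx : a ≤ x) :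
    Real.exp (-(x * cosh t)) ≤ Real.exp (-x) * Real.exp (-(a / 2) * t ^ 2) := by
  rw [← Real.exp_add]
  apply Real.exp_le_exp.mpr
  have h := cosh_ge t
  have h1 : x * (1 + t ^ 2 / 2) ≤ x * cosh t := mul_le_mul_of_nonneg_left h (ha.trans hx)
  have h2 : a * t ^ 2 ≤ x * t ^ 2 := mul_le_mul_of_nonneg_right hx (sq_nonneg t)
  linarith

theorem integrable_gaussian_Ioi {a : ℝ} (ha : 0 < a) (C : ℝ) :
    IntegrableOn (fun t : ℝ => C * Real.exp (-(a / 2) * t ^ 2)) (Ioi 0) :=
  ((integrable_exp_neg_mul_sq (b := a / 2) (by positivity)).const_mul C).integrableOn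

theorem integrableOn_K0 {x : ℝ} (hx : 0 < x) :
    IntegrableOn (fun t : ℝ => Real.exp (-(x * cosh t))) (Ioi 0) := by
  refine (integrable_gaussian_Ioi hx (Real.exp (-x))).mono' ?_ ?_
  · exact (by fun_prop : Continuous fun t : ℝ => Real.exp (-(x * cosh t))).aestronglyMeasurable
  · refine Eventually.of_forall fun t => ?_
    rw [Real.norm_of_nonneg (Real.exp_pos _).le]
    exact K0_integrand_le hx.le le_rfl

theorem K0_pos {x : ℝ} (hx : 0 < x) : 0 < K0 x := by
  rw [K0, setIntegral_pos_iff_support_of_nonneg_ae]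
  · have : Function.support (fun t : ℝ => Real.exp (-(x * cosh t))) = univ := by
      ext t
      simp [(Real.exp_pos _).ne']
    rw [this, univ_inter]
    simp
  · exact Eventually.of_forall fun t => (Real.exp_pos _).le
  · exact integrableOn_K0 hx

theorem K0_nonneg (x : ℝ) : 0 ≤ K0 x :=
  integral_nonneg fun _ => (Real.exp_pos _).le

/-- Exponential decay. -/
theorem K0_le {x : ℝ} (hx : 0 < x) : K0 x ≤ Real.exp (-x) * √(π / (2 * x)) := by
  have h : K0 x ≤ ∫ t in Ioi (0 : ℝ), Real.exp (-x) * Real.exp (-(x / 2) * t ^ 2) :=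
    setIntegral_mono (integrableOn_K0 hx) (integrable_gaussian_Ioi hx _) fun t =>
      K0_integrand_le hx.le le_rfl
  refine h.trans_eq ?_
  rw [integral_const_mul, integral_gaussian_Ioi]
  congr 1
  have h1 : π / (x / 2) = 2 ^ 2 * (π / (2 * x)) := by field_simp
  rw [h1, Real.sqrt_mul (by positivity), Real.sqrt_sq (by norm_num)]
  ring

theorem K0_antitone : AntitoneOn K0 (Ioi 0) := by
  intro x hx y hy hxy
  have hx' : (0 : ℝ) < x := hx
  have hy' : (0 : ℝ) < y := hy
  refine setIntegral_mono (integrableOn_K0 hy') (integrableOn_K0 hx') fun t => ?_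
  apply Real.exp_le_exp.mpr
  have := Real.cosh_pos t
  nlinarith

theorem continuousOn_K0 : ContinuousOn K0 (Ioi 0) := by
  intro x hx
  have hx' : (0 : ℝ) < x := hx
  have h1 : ContinuousAt K0 x := by
    unfold K0
    refine continuousAt_of_dominated
      (bound := fun t => 1 * Real.exp (-(x / 2 / 2) * t ^ 2)) ?_ ?_
      (integrable_gaussian_Ioi (by positivity) _) ?_
    · exact Eventually.of_forall fun x' =>
        (by fun_prop : Continuous fun t : ℝ => Real.exp (-(x' * cosh t))).aestronglyMeasurable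
    · filter_upwards [Ioi_mem_nhds (show x / 2 < x by linarith)] with x' h
      refine Eventually.of_forall fun t => ?_
      have h' : x / 2 < x' := h
      rw [Real.norm_of_nonneg (Real.exp_pos _).le]
      refine (K0_integrand_le (by positivity) h'.le).trans ?_
      gcongr
      exact Real.exp_le_one_iff.mpr (by linarith)
    · exact Eventually.of_forall fun t =>
        (by fun_prop : Continuous fun x' : ℝ => Real.exp (-(x' * cosh t))).continuousAt
  exact h1.continuousWithinAt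

namespace H3

theorem bj_zero {ξ : ℂ} (hξ : ξ ≠ 0) {y : ℝ} (hy : 0 < y) :
    bj ξ 0 y = 2 * K0 (4 * π * ‖ξ‖ * y) := by
  have hn : 0 < ‖ξ‖ := norm_pos_iff.mpr hξ
  have h1 : bj ξ 0 y = ∫ t in Ioi (0 : ℝ), (t⁻¹ : ℝ) •
      Real.exp (-(t * y ^ 2) - 4 * π ^ 2 * ‖ξ‖ ^ 2 / t) := by
    rw [bj]
    refine setIntegral_congr_fun measurableSet_Ioi fun t ht => ?_
    simp only [zero_sub, smul_eq_mul]
    rw [Real.rpow_neg_one]
  have ha : 0 < 2 * π * ‖ξ‖ / y := by positivity
  rw [h1, integral_Ioi_log (fun t => Real.exp (-(t * y ^ 2) - 4 * π ^ 2 * ‖ξ‖ ^ 2 / t)) ha, K0]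
  have h2 := integral_comp_abs (f := fun t => Real.exp (-(4 * π * ‖ξ‖ * y * cosh t)))
  simp only [Real.cosh_abs] at h2
  rw [← h2]
  refine integral_congr_ae (Eventually.of_forall fun u => ?_)
  simp only []
  congr 1
  rw [Real.cosh_eq, Real.exp_neg]
  field_simp
  ring

/-- The Bessel eigenfunction. -/
noncomputable def bes (ξ : ℂ) (p : H3) : ℂ :=
  ((p.y * K0 (4 * π * ‖ξ‖ * p.y) : ℝ) : ℂ) * ex ξ p.z

theorem phis_zero_eq {ξ : ℂ} (hξ : ξ ≠ 0) (p : H3) : phis ξ 0 p = 2 * bes ξ p := by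
  rw [phis, bes, bj_zero hξ p.pos, add_zero, Real.rpow_one]
  push_cast
  ring

/-- **The Bessel function is an eigenfunction of all point-pair operators.** -/
theorem op_bes {k : ℝ → ℝ} (hk : Continuous k) (hks : HasCompactSupport k) {ξ : ℂ}
    (hξ : ξ ≠ 0) (p : H3) :
    ∫ p', k (cd p p') • bes ξ p' = (khat k : ℂ) * bes ξ p := by
  have h := op_phis_zero hk hks hξ p
  simp_rw [phis_zero_eq hξ] at h
  have h1 : ∀ p', k (cd p p') • (2 * bes ξ p') = 2 * (k (cd p p') • bes ξ p') := by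
    intro p'
    simp only [Complex.real_smul]
    ring
  simp_rw [h1] at h
  rw [integral_const_mul] at h
  have h2 : (2 : ℂ) ≠ 0 := two_ne_zero
  apply mul_left_cancel₀ h2
  rw [h]
  ring

theorem continuous_bes {ξ : ℂ} (hξ : ξ ≠ 0) : Continuous (bes ξ) := by
  have hn : 0 < ‖ξ‖ := norm_pos_iff.mpr hξ
  unfold bes
  have h1 : Continuous fun p : H3 => K0 (4 * π * ‖ξ‖ * p.y) := by
    have h2 : Continuous fun p : H3 => 4 * π * ‖ξ‖ * p.y := continuous_const.mul continuous_y
    exact continuousOn_K0.comp_continuous h2 fun p => by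
      have := p.pos
      show 0 < 4 * π * ‖ξ‖ * p.y
      positivity
  exact (Complex.continuous_ofReal.comp (continuous_y.mul h1)).mul
    ((continuous_ex ξ).comp continuous_z)

end H3

end Fermat.Agent.LT
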