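import Fermat.Agent.LT.H3Dist

set_option autoImplicit false

/-!
# The invariant measure on hyperbolic 3-space
-/

namespace Fermat.Agent.LT

open Matrix ComplexConjugate MeasureTheory Set Topology

namespace H3

/-- coordinates -/
def toCR (p : H3) : ℂ × ℝ := (p.z, p.y)

theorem toCR_injective : Function.Injective toCR := by
  intro p p' h
  rw [toCR, toCR, Prod.mk.injEq] at h
  exact H3.ext h.1 h.2

/-- the upper half space -/
def uhs : Set (ℂ × ℝ) := {q | 0 < q.2}

theorem isOpen_uhs : IsOpen uhs := isOpen_lt continuous_const continuous_snd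

theorem measurableSet_uhs : MeasurableSet uhs := isOpen_uhs.measurableSet

theorem range_toCR : range toCR = uhs := by
  ext q
  constructor
  · rintro ⟨p, rfl⟩
    exact p.pos
  · intro h
    exact ⟨⟨q.1, q.2, h⟩, rfl⟩

noncomputable instance : TopologicalSpace H3 := TopologicalSpace.induced toCR inferInstance

theorem isOpenEmbedding_toCR : IsOpenEmbedding toCR :=
  ⟨⟨⟨rfl⟩, toCR_injective⟩, by rw [range_toCR]; exact isOpen_uhs⟩

theorem continuous_toCR : Continuous toCR := isOpenEmbedding_toCR.continuous

theorem continuous_z : Continuous (fun p : H3 => p.z) := continuous_fst.comp continuous_toCR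

theorem continuous_y : Continuous (fun p : H3 => p.y) := continuous_snd.comp continuous_toCR

theorem continuous_mk {X : Type*} [TopologicalSpace X] {f : X → H3} (h1 : Continuous fun x => (f x).z)
    (h2 : Continuous fun x => (f x).y) : Continuous f :=
  isOpenEmbedding_toCR.isInducing.continuous_iff.mpr (h1.prodMk h2)

instance : T2Space H3 := isOpenEmbedding_toCR.isEmbedding.t2Space

instance : SecondCountableTopology H3 := isOpenEmbedding_toCR.isEmbedding.secondCountableTopology

instance : LocallyCompactSpace H3 := isOpenEmbedding_toCR.locallyCompactSpace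

noncomputable instance : MeasurableSpace H3 := borel H3

instance : BorelSpace H3 := ⟨rfl⟩

theorem measurableEmbedding_toCR : MeasurableEmbedding toCR :=
  isOpenEmbedding_toCR.measurableEmbedding

/-- the density `y⁻³` -/
noncomputable def dens (q : ℂ × ℝ) : ENNReal := ENNReal.ofReal ((q.2 ^ 3)⁻¹)

theorem measurable_dens : Measurable dens := by
  unfold dens
  fun_prop

instance : IsFiniteMeasureOnCompacts ((volume : Measure (ℂ × ℝ)).comap toCR) :=
  .comap' _ continuous_toCR measurableEmbedding_toCR

/-- hyperbolic volume -/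
noncomputable instance : MeasureSpace H3 :=
  ⟨((volume : Measure (ℂ × ℝ)).comap toCR).withDensity (fun p => ENNReal.ofReal ((p.y ^ 3)⁻¹))⟩

theorem volume_def :
    (volume : Measure H3) = ((volume : Measure (ℂ × ℝ)).comap toCR).withDensity
      (fun p => ENNReal.ofReal ((p.y ^ 3)⁻¹)) := rfl

theorem continuous_yinv : Continuous (fun p : H3 => (p.y ^ 3)⁻¹) :=
  (continuous_y.pow 3).inv₀ fun p => (pow_pos p.pos 3).ne'

instance : IsLocallyFiniteMeasure (volume : Measure H3) :=
  IsLocallyFiniteMeasure.withDensity_ofReal continuous_yinv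

instance : IsFiniteMeasureOnCompacts (volume : Measure H3) := inferInstance

instance : SigmaFinite (volume : Measure H3) := inferInstance

instance : SFinite (volume : Measure H3) := inferInstance

/-- extension of the inverse of the coordinates -/
noncomputable def ofCR (q : ℂ × ℝ) : H3 :=
  if h : 0 < q.2 then ⟨q.1, q.2, h⟩ else ⟨q.1, 1, one_pos⟩

theorem ofCR_of_pos {q : ℂ × ℝ} (h : 0 < q.2) : ofCR q = ⟨q.1, q.2, h⟩ := dif_pos h

theorem ofCR_toCR (p : H3) : ofCR (toCR p) = p := by
  rw [ofCR_of_pos (show 0 < (toCR p).2 from p.pos)]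
  rfl

theorem toCR_ofCR {q : ℂ × ℝ} (h : q ∈ uhs) : toCR (ofCR q) = q := by
  rw [ofCR_of_pos h]
  rfl

theorem ofCR_z (q : ℂ × ℝ) : (ofCR q).z = q.1 := by
  rw [ofCR]; split_ifs <;> rfl

theorem ofCR_y {q : ℂ × ℝ} (h : q ∈ uhs) : (ofCR q).y = q.2 := by
  rw [ofCR_of_pos h]

theorem measurable_ofCR : Measurable ofCR := by
  refine measurableEmbedding_toCR.measurable_comp_iff.mp ?_
  have : toCR ∘ ofCR = fun q : ℂ × ℝ => (q.1, if 0 < q.2 then q.2 else 1) := by
    funext q
    simp only [Function.comp_apply, toCR, ofCR]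
    split_ifs <;> rfl
  rw [this]
  exact measurable_fst.prodMk (Measurable.ite measurableSet_uhs measurable_snd measurable_const)

theorem lintegral_eq (f : H3 → ENNReal) :
    ∫⁻ p, f p = ∫⁻ q in uhs, dens q * f (ofCR q) := by
  have h1 : ∫⁻ p, f p = ∫⁻ p, (fun q => f (ofCR q)) (toCR p) := by
    refine lintegral_congr fun p => ?_
    simp only [ofCR_toCR]
  rw [h1, volume_def]
  rw [lintegral_withDensity_eq_lintegral_mul_non_measurable _
    continuous_yinv.measurable.ennreal_ofReal]
  · have h2 : ∀ p : H3, ((fun p : H3 => ENNReal.ofReal ((p.y ^ 3)⁻¹)) *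
        fun p => (fun q => f (ofCR q)) (toCR p)) p =
        (fun q => dens q * f (ofCR q)) (toCR p) := fun p => rfl
    rw [lintegral_congr h2, ← measurableEmbedding_toCR.lintegral_map
      (fun q => dens q * f (ofCR q)), measurableEmbedding_toCR.map_comap, range_toCR]
  · exact Filter.Eventually.of_forall fun q => ENNReal.ofReal_lt_top

theorem integral_eq {E : Type*} [NormedAddCommGroup E] [NormedSpace ℝ E] (f : H3 → E) :
    ∫ p, f p = ∫ q in uhs, ((q.2 ^ 3)⁻¹ : ℝ) • f (ofCR q) := by
  have h1 : ∫ p, f p = ∫ p, (fun q => f (ofCR q)) (toCR p) := by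
    refine integral_congr_ae (Filter.Eventually.of_forall fun p => ?_)
    simp only [ofCR_toCR]
  rw [h1, volume_def, integral_withDensity_eq_integral_toReal_smul
    continuous_yinv.measurable.ennreal_ofReal
    (Filter.Eventually.of_forall fun q => ENNReal.ofReal_lt_top)]
  have h2 : ∀ p : H3, (ENNReal.ofReal ((p.y ^ 3)⁻¹)).toReal • (fun q => f (ofCR q)) (toCR p) =
      (fun q : ℂ × ℝ => ((q.2 ^ 3)⁻¹ : ℝ) • f (ofCR q)) (toCR p) := by
    intro p
    have hp := p.pos
    simp only []
    rw [ENNReal.toReal_ofReal (by positivity)]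
    rfl
  rw [integral_congr_ae (Filter.Eventually.of_forall h2), ← measurableEmbedding_toCR.integral_map
    (fun q : ℂ × ℝ => ((q.2 ^ 3)⁻¹ : ℝ) • f (ofCR q)), measurableEmbedding_toCR.map_comap,
    range_toCR]

end H3

end Fermat.Agent.LT
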