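import Fermat.Agent.LT.H3.Uniq3

set_option autoImplicit false

/-!
# Uniqueness of the decaying solution
-/

namespace Fermat.Agent.LT

open MeasureTheory Set Topology Real Filter
open scoped ContDiff

namespace H3

/-- localisation of the support of the kernel -/
theorem support_cdr {ε Y y y' : ℝ} {z : ℂ} (hε : 0 < ε) (hε4 : ε ≤ 1 / 4) (hY : 0 < Y) (hy : Y < y)
    (hy'0 : 0 < y') (hy' : y' ≤ Y) (h : cdr y y' z < 1 + ε) :
    (y - y') ^ 2 ≤ 4 * Y ^ 2 * ε ∧ ‖z‖ ^ 2 ≤ 4 * Y ^ 2 * ε := by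
  have hy0 : 0 < y := hY.trans hy
  rw [cdr, div_lt_iff₀ (by positivity)] at h
  have h1 : ‖z‖ ^ 2 + (y - y') ^ 2 < 2 * y * y' * ε := by nlinarith
  have h2 : y ≤ 2 * y' := by
    by_contra hcon
    push Not at hcon
    have h3 : (y - y') ^ 2 < 2 * y * y' * ε := by nlinarith [sq_nonneg ‖z‖]
    have h4 : 2 * y * y' * ε ≤ 2 * y * y' * (1 / 4) := by gcongr
    nlinarith
  have h3 : 2 * y * y' * ε ≤ 4 * Y ^ 2 * ε := by
    have : 2 * y * y' ≤ 4 * Y ^ 2 := by nlinarith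
    gcongr
  constructor
  · nlinarith [sq_nonneg ‖z‖]
  · nlinarith [sq_nonneg (y - y')]

theorem cos_pos_of_small {ξ z : ℂ} {m : ℝ} (hm : m ≤ 1 / (16 * (‖ξ‖ + 1))) (hz : ‖z‖ < m) :
    0 < cos (4 * π * (ξ * z).re) := by
  have h1 : |(ξ * z).re| ≤ ‖ξ‖ * ‖z‖ := (Complex.abs_re_le_norm _).trans (norm_mul _ _).le
  have h2 : ‖ξ‖ * ‖z‖ ≤ 1 / 16 := by
    have h3 : ‖z‖ ≤ 1 / (16 * (‖ξ‖ + 1)) := hz.le.trans hm
    have h4 : 0 < ‖ξ‖ + 1 := by positivity
    calc ‖ξ‖ * ‖z‖ ≤ (‖ξ‖ + 1) * (1 / (16 * (‖ξ‖ + 1))) := by gcongr; linarith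
      _ = 1 / 16 := by field_simp
  have h3 := abs_le.mp (h1.trans h2)
  have hpi := Real.pi_pos
  apply Real.cos_pos_of_mem_Ioo
  constructor
  · nlinarith [h3.1]
  · nlinarith [h3.2]

theorem not_deriv_pos (ξ : ℂ) {V w : ℝ → ℝ} (hV : ContinuousOn V (Ioi 0))
    (hw : ContinuousOn w (Ioi 0)) (Vpos : ∀ y : ℝ, 0 < y → 0 < V y)
    (Vb : ∀ Y : ℝ, 0 < Y → ∃ C : ℝ, ∀ y, Y ≤ y → |V y| ≤ C)
    (wb : ∀ Y : ℝ, 0 < Y → ∃ C : ℝ, ∀ y, Y ≤ y → |w y| ≤ C)
    (hVe : ∀ k : ℝ → ℝ, ContDiff ℝ ∞ k → HasCompactSupport k → ∀ y : ℝ, 0 < y →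
      ∫ y' in Ioi (0 : ℝ), ((y' ^ 3)⁻¹ * fk k ξ y y') * V y' = khat k * V y)
    (hwe : ∀ k : ℝ → ℝ, ContDiff ℝ ∞ k → HasCompactSupport k → ∀ y : ℝ, 0 < y →
      ∫ y' in Ioi (0 : ℝ), ((y' ^ 3)⁻¹ * fk k ξ y y') * w y' = khat k * w y)
    {Y : ℝ} (hY : 0 < Y) (hd : DifferentiableAt ℝ (fun y => w y / V y) Y) :
    ¬ 0 < deriv (fun y => w y / V y) Y := by
  intro hpos
  set c : ℝ → ℝ := fun y => w y / V y with hc
  -- local monotonicity
  obtain ⟨δ, hδ, hmono⟩ : ∃ δ > 0, ∀ y, |y - Y| < δ → y ≠ Y → 0 < (c y - c Y) / (y - Y) := by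
    have h1 := hasDerivAt_iff_tendsto_slope.mp hd.hasDerivAt
    have h2 := h1.eventually (lt_mem_nhds hpos)
    rw [eventually_nhdsWithin_iff, Metric.eventually_nhds_iff] at h2
    obtain ⟨δ, hδ, h3⟩ := h2
    refine ⟨δ, hδ, fun y hy hne => ?_⟩
    have h4 := h3 (by rw [Real.dist_eq]; exact hy) hne
    rwa [slope_def_field] at h4
  set m : ℝ := min δ (1 / (16 * (‖ξ‖ + 1))) with hm
  have hm0 : 0 < m := lt_min hδ (by positivity)
  set ε : ℝ := min (1 / 4) ((m / (4 * Y)) ^ 2) with hεdef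
  have hε : 0 < ε := lt_min (by norm_num) (by positivity)
  have hε4 : ε ≤ 1 / 4 := min_le_left _ _
  have hεm : 4 * Y ^ 2 * ε < m ^ 2 := by
    have h1 : ε ≤ (m / (4 * Y)) ^ 2 := min_le_right _ _
    calc 4 * Y ^ 2 * ε ≤ 4 * Y ^ 2 * (m / (4 * Y)) ^ 2 := by gcongr
      _ = m ^ 2 / 4 := by field_simp
      _ < m ^ 2 := by nlinarith [sq_pos_of_pos hm0]
  obtain ⟨k, hk, hks, hk0, hk1, hk2⟩ := exists_smooth_bump hε
  have hkc : Continuous k := hk.continuous
  -- the integrand of `fk` is nonnegative on the relevant set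
  have key1 : ∀ y y' : ℝ, Y < y → 0 < y' → y' ≤ Y → ∀ z : ℂ,
      0 ≤ k (cdr y y' z) * cos (4 * π * (ξ * z).re) := by
    intro y y' hy hy'0 hy' z
    by_cases h : cdr y y' z < 1 + ε
    · have h1 := (support_cdr hε hε4 hY hy hy'0 hy' h).2
      have h2 : ‖z‖ < m := by
        apply lt_of_pow_lt_pow_left₀ 2 hm0.le
        linarith
      exact mul_nonneg (hk0 _) (cos_pos_of_small (min_le_right _ _) h2).le
    · rw [hk1 _ (not_lt.mp h), zero_mul]
  have key2 : ∀ y y' : ℝ, Y < y → 0 < y' → y' ≤ Y → 0 ≤ fk k ξ y y' := fun y y' hy hy'0 hy' =>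
    integral_nonneg (key1 y y' hy hy'0 hy')
  have key3 : ∀ y y' : ℝ, Y < y → 0 < y' → y' ≤ Y → ¬ (|y - Y| < m ∧ |y' - Y| < m) →
      fk k ξ y y' = 0 := by
    intro y y' hy hy'0 hy' hnot
    rw [fk]
    refine integral_eq_zero_of_ae (Eventually.of_forall fun z => ?_)
    simp only [Pi.zero_apply]
    by_cases h : cdr y y' z < 1 + ε
    · exfalso
      apply hnot
      have h1 := (support_cdr hε hε4 hY hy hy'0 hy' h).1
      have h2 : y - y' < m := by
        apply lt_of_pow_lt_pow_left₀ 2 hm0.le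
        linarith
      constructor
      · rw [abs_of_pos (by linarith)]
        linarith
      · rw [abs_of_nonpos (by linarith)]
        linarith
    · rw [hk1 _ (not_lt.mp h), zero_mul]
  -- the sign of the difference
  have key4 : ∀ y y' : ℝ, Y < y → 0 < y' → y' ≤ Y → |y - Y| < m → |y' - Y| < m → c y' < c y := by
    intro y y' hy hy'0 hy' h1 h2
    have h3 := hmono y (lt_of_lt_of_le h1 (min_le_left _ _)) hy.ne'
    have h4 : c Y < c y := by
      have h5 : 0 < y - Y := by linarith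
      have h6 := (div_pos_iff_of_pos_right h5).mp h3
      linarith
    rcases hy'.lt_or_eq with h | h
    · have h7 := hmono y' (lt_of_lt_of_le h2 (min_le_left _ _)) h.ne
      have h8 : y' - Y < 0 := by linarith
      have h9 : c y' - c Y < 0 := by
        by_contra hcon
        push Not at hcon
        have := div_nonpos_of_nonneg_of_nonpos hcon h8.le
        linarith
      linarith
    · rw [h]
      exact h4
  have hflux : ∀ y y' : ℝ, 0 < y → 0 < y' → flux k ξ V w (y, y') =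
      ((y ^ 3)⁻¹ * (y' ^ 3)⁻¹) * fk k ξ y y' * (V y * V y' * (c y' - c y)) := by
    intro y y' hy hy'
    have h1 := (Vpos y hy).ne'
    have h2 := (Vpos y' hy').ne'
    simp only [flux, hc]
    field_simp
  have key5 : ∀ q ∈ Ioi Y ×ˢ Ioc (0 : ℝ) Y, 0 ≤ -flux k ξ V w q := by
    intro q hq
    have q1 : Y < q.1 := hq.1
    have q10 : 0 < q.1 := hY.trans q1
    have q20 : 0 < q.2 := hq.2.1
    have q2 : q.2 ≤ Y := hq.2.2
    have h1 := hflux q.1 q.2 q10 q20
    rw [Prod.mk.eta] at h1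
    rw [h1]
    by_cases h : |q.1 - Y| < m ∧ |q.2 - Y| < m
    · have h2 := key2 q.1 q.2 q1 q20 q2
      have h3 := key4 q.1 q.2 q1 q20 q2 h.1 h.2
      have h4 := Vpos q.1 q10
      have h5 := Vpos q.2 q20
      have h6 : 0 ≤ ((q.1 ^ 3)⁻¹ * (q.2 ^ 3)⁻¹) * fk k ξ q.1 q.2 := by positivity
      have h7 : 0 ≤ V q.1 * V q.2 * (c q.1 - c q.2) :=
        mul_nonneg (mul_pos h4 h5).le (by linarith)
      nlinarith [mul_nonneg h6 h7]
    · rw [key3 q.1 q.2 q1 q20 q2 h]
      simp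
  -- strict inequality on a small box
  set η : ℝ := Y * ε / 2 with hη
  have hη0 : 0 < η := by positivity
  have hηY : η ≤ Y / 8 := by
    rw [hη]
    nlinarith
  have hηm : η < m := by
    have h1 : (2 * η) ^ 2 < m ^ 2 := by
      calc (2 * η) ^ 2 = Y ^ 2 * ε * ε := by rw [hη]; ring
        _ ≤ Y ^ 2 * ε * 4 := by gcongr; linarith
        _ = 4 * Y ^ 2 * ε := by ring
        _ < m ^ 2 := hεm
    have h2 := lt_of_pow_lt_pow_left₀ 2 hm0.le h1
    linarith
  have key6 : ∀ q ∈ Ioo Y (Y + η) ×ˢ Ioo (Y - η) Y, flux k ξ V w q ≠ 0 := by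
    intro q hq
    have q1 : Y < q.1 := hq.1.1
    have q1' : q.1 < Y + η := hq.1.2
    have q10 : 0 < q.1 := hY.trans q1
    have q2' : Y - η < q.2 := hq.2.1
    have q20 : 0 < q.2 := by linarith
    have q2 : q.2 < Y := hq.2.2
    have h1 := hflux q.1 q.2 q10 q20
    rw [Prod.mk.eta] at h1
    rw [h1]
    have h3 : c q.2 < c q.1 := key4 q.1 q.2 q1 q20 q2.le
      (by rw [abs_of_pos (by linarith)]; linarith) (by rw [abs_of_neg (by linarith)]; linarith)
    have h4 := Vpos q.1 q10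
    have h5 := Vpos q.2 q20
    have h6 : 0 < fk k ξ q.1 q.2 := by
      rw [fk]
      have hcont : Continuous fun z : ℂ => k (cdr q.1 q.2 z) * cos (4 * π * (ξ * z).re) := by
        have e1 : Continuous fun z : ℂ => cdr q.1 q.2 z := by unfold cdr; fun_prop
        have e2 : Continuous fun z : ℂ => (ξ * z).re := Complex.continuous_re.comp (by fun_prop)
        fun_prop
      have hcs : HasCompactSupport fun z : ℂ => k (cdr q.1 q.2 z) * cos (4 * π * (ξ * z).re) := by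
        refine HasCompactSupport.intro (isCompact_closedBall (0 : ℂ) m) fun z hz => ?_
        by_cases h : cdr q.1 q.2 z < 1 + ε
        · exfalso
          apply hz
          have e1 := (support_cdr hε hε4 hY q1 q20 q2.le h).2
          rw [Metric.mem_closedBall, dist_zero_right]
          apply le_of_lt
          apply lt_of_pow_lt_pow_left₀ 2 hm0.le
          linarith
        · rw [hk1 _ (not_lt.mp h), zero_mul]
      refine Continuous.integral_pos_of_hasCompactSupport_nonneg_nonzero hcont hcs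
        (key1 q.1 q.2 q1 q20 q2.le) (x := 0) ?_
      have e3 : 0 < k (cdr q.1 q.2 0) := by
        apply hk2
        have e4 : cdr q.1 q.2 0 - 1 = (q.1 - q.2) ^ 2 / (2 * q.1 * q.2) := by
          rw [cdr]
          simp only [norm_zero]
          field_simp
          ring
        rw [e4, abs_of_nonneg (by positivity), div_lt_iff₀ (by positivity)]
        have e5 : (q.1 - q.2) ^ 2 < (2 * η) ^ 2 := by
          have : 0 < q.1 - q.2 := by linarith
          have : q.1 - q.2 < 2 * η := by linarith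
          gcongr
        have e6 : (2 * η) ^ 2 = Y ^ 2 * ε * ε := by rw [hη]; ring
        have e7 : Y ^ 2 * ε * ε ≤ ε * (2 * q.1 * q.2) := by
          have e8 : Y * (Y / 2) ≤ q.1 * q.2 := by
            apply mul_le_mul q1.le (by linarith) (by positivity) q10.le
          have e9 : Y ^ 2 * ε ≤ Y ^ 2 := by nlinarith [sq_pos_of_pos hY]
          nlinarith
        linarith
      simp only [mul_zero, Complex.zero_re, Real.cos_zero, mul_one]
      exact e3.ne'
    have h7 : c q.2 - c q.1 ≠ 0 := by linarith [h3] |> fun h : c q.2 - c q.1 < 0 => h.ne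
    positivity
  -- conclusion
  have hi := (integrable_flux hkc hks ξ hV hw Vb wb hY).mono_set
    (prod_mono le_rfl Ioc_subset_Ioi_self : Ioi Y ×ˢ Ioc (0 : ℝ) Y ⊆ Ioi Y ×ˢ Ioi 0)
  have h0 := integral_flux hkc hks ξ hV hw Vb wb (hVe k hk hks) (hwe k hk hks) hY
  have hS : MeasurableSet (Ioi Y ×ˢ Ioc (0 : ℝ) Y) := measurableSet_Ioi.prod measurableSet_Ioc
  have h1 : ∫ q in Ioi Y ×ˢ Ioc 0 Y, -flux k ξ V w q ∂((volume : Measure ℝ).prod volume) = 0 := by
    rw [integral_neg, h0, neg_zero]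
  have h2 := (setIntegral_eq_zero_iff_of_nonneg_ae
    ((ae_restrict_iff' hS).mpr (Eventually.of_forall key5)) hi.neg).mp h1
  have h3 : (((volume : Measure ℝ).prod volume).restrict (Ioi Y ×ˢ Ioc (0 : ℝ) Y))
      (Ioo Y (Y + η) ×ˢ Ioo (Y - η) Y) = 0 := by
    refine measure_mono_null (fun q hq => ?_) h2
    intro hcon
    have : -flux k ξ V w q = 0 := hcon
    exact key6 q hq (neg_eq_zero.mp this)
  rw [Measure.restrict_apply (measurableSet_Ioo.prod measurableSet_Ioo)] at h3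
  have h4 : (Ioo Y (Y + η) ×ˢ Ioo (Y - η) Y) ∩ (Ioi Y ×ˢ Ioc (0 : ℝ) Y) =
      Ioo Y (Y + η) ×ˢ Ioo (Y - η) Y := by
    refine inter_eq_left.mpr fun q hq => ⟨hq.1.1, ?_, hq.2.2.le⟩
    have := hq.2.1
    linarith
  rw [h4, Measure.prod_prod, Real.volume_Ioo, Real.volume_Ioo, mul_eq_zero,
    ENNReal.ofReal_eq_zero, ENNReal.ofReal_eq_zero] at h3
  rcases h3 with h | h <;> linarith

end H3

end Fermat.Agent.LT
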