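import Fermat.Agent.LT.H3.K0

set_option autoImplicit false

/-!
# Uniqueness of the decaying solution, part 1: the one-dimensional kernel
-/

namespace Fermat.Agent.LT

open MeasureTheory Set Topology Real Filter

namespace H3

/-- `cosh` of the distance between `(0, y)` and `(z, y')` -/
noncomputable def cdr (y y' : ℝ) (z : ℂ) : ℝ := (‖z‖ ^ 2 + (y ^ 2 + y' ^ 2)) / (2 * y * y')

theorem cdr_symm (y y' : ℝ) (z : ℂ) : cdr y y' z = cdr y' y z := by
  rw [cdr, cdr]
  congr 1 <;> ring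

theorem cd_zero_eq (y y' : ℝ) (hy : 0 < y) (hy' : 0 < y') (z : ℂ) :
    cd ⟨0, y, hy⟩ ⟨z, y', hy'⟩ = cdr y y' z := by
  rw [cd, cdr]
  simp only [zero_sub, norm_neg, add_assoc]

/-- the Fourier transform of the point-pair kernel along horospheres -/
noncomputable def fk (k : ℝ → ℝ) (ξ : ℂ) (y y' : ℝ) : ℝ :=
  ∫ z : ℂ, k (cdr y y' z) * cos (4 * π * (ξ * z).re)

theorem fk_symm (k : ℝ → ℝ) (ξ : ℂ) (y y' : ℝ) : fk k ξ y y' = fk k ξ y' y := by
  unfold fk
  simp_rw [cdr_symm y y']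

theorem integrable_k_cdr {k : ℝ → ℝ} (hk : Continuous k) (hks : HasCompactSupport k) {y y' : ℝ}
    (hy : 0 < y) (hy' : 0 < y') : Integrable fun z : ℂ => k (cdr y y' z) := by
  obtain ⟨R, hR1, hR⟩ := exists_R hks
  refine Continuous.integrable_of_hasCompactSupport (by unfold cdr; fun_prop) ?_
  refine HasCompactSupport.intro (isCompact_closedBall (0 : ℂ) (R * (2 * y * y') + 1))
    fun z hz => ?_
  apply hR
  rw [Metric.mem_closedBall, dist_zero_right, not_le] at hz
  rw [cdr, lt_div_iff₀ (by positivity)]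
  have h0 : 0 ≤ R * (2 * y * y') := by positivity
  nlinarith [sq_nonneg y, sq_nonneg y']

/-- the size of the kernel -/
theorem abs_fk_le {k : ℝ → ℝ} (hk : Continuous k) (hks : HasCompactSupport k) (ξ : ℂ) {y y' : ℝ}
    (hy : 0 < y) (hy' : 0 < y') : |fk k ξ y y'| ≤ (2 * π * ∫ t : ℝ, |k t|) * (y * y') := by
  have hka : Continuous fun t => |k t| := hk.abs
  have hkas : HasCompactSupport fun t => |k t| := hks.comp_left (g := fun x : ℝ => |x|) abs_zero
  have h1 : |fk k ξ y y'| ≤ ∫ z : ℂ, (fun t => |k t|) (cdr y y' z) := by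
    rw [fk, ← Real.norm_eq_abs]
    refine norm_integral_le_of_norm_le (integrable_k_cdr hka hkas hy hy') ?_
    refine Eventually.of_forall fun z => ?_
    rw [norm_mul, Real.norm_eq_abs, Real.norm_eq_abs]
    exact mul_le_of_le_one_right (abs_nonneg _) (abs_cos_le_one _)
  refine h1.trans ?_
  have h2 := integral_sq_complex (fun t => |k t|) (A := y ^ 2 + y' ^ 2) (B := 2 * y * y')
    (by positivity)
  unfold cdr
  rw [h2, smul_eq_mul]
  have h3 : ∫ t in Ioi ((y ^ 2 + y' ^ 2) / (2 * y * y')), |k t| ≤ ∫ t : ℝ, |k t| :=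
    setIntegral_le_integral (hka.integrable_of_hasCompactSupport hkas)
      (Eventually.of_forall fun t => abs_nonneg _)
  calc π * (2 * y * y') * ∫ t in Ioi ((y ^ 2 + y' ^ 2) / (2 * y * y')), |k t|
      ≤ π * (2 * y * y') * ∫ t : ℝ, |k t| := by gcongr
    _ = _ := by ring

theorem fk_eq_zero {k : ℝ → ℝ} {R : ℝ} (hR : ∀ t, R < t → k t = 0) (ξ : ℂ) {y y' : ℝ}
    (hy : 0 < y) (hy' : 0 < y') (h : 2 * R * y' < y) : fk k ξ y y' = 0 := by
  rw [fk]
  refine integral_eq_zero_of_ae (Eventually.of_forall fun z => ?_)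
  simp only [Pi.zero_apply]
  rw [hR, zero_mul]
  rw [cdr, lt_div_iff₀ (by positivity)]
  have : y * (2 * R * y') < y * y := mul_lt_mul_of_pos_left h hy
  nlinarith [sq_nonneg ‖z‖, sq_nonneg y']

theorem measurable_fk {k : ℝ → ℝ} (hk : Continuous k) (ξ : ℂ) :
    StronglyMeasurable fun q : ℝ × ℝ => fk k ξ q.1 q.2 := by
  unfold fk
  refine StronglyMeasurable.integral_prod_right
    (f := fun (q : ℝ × ℝ) (z : ℂ) => k (cdr q.1 q.2 z) * cos (4 * π * (ξ * z).re)) ?_
  have h1 : Measurable fun x : (ℝ × ℝ) × ℂ => cdr x.1.1 x.1.2 x.2 := by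
    unfold cdr
    have : Measurable fun x : (ℝ × ℝ) × ℂ => ‖x.2‖ := measurable_snd.norm
    fun_prop
  have h2 : Continuous fun x : (ℝ × ℝ) × ℂ => cos (4 * π * (ξ * x.2).re) := by
    have : Continuous fun x : (ℝ × ℝ) × ℂ => (ξ * x.2).re :=
      Complex.continuous_re.comp (by fun_prop)
    fun_prop
  exact ((hk.measurable.comp h1).mul h2.measurable).stronglyMeasurable

/-- the complex form -/
theorem integral_k_ex {k : ℝ → ℝ} (hk : Continuous k) (hks : HasCompactSupport k) (ξ : ℂ)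
    {y y' : ℝ} (hy : 0 < y) (hy' : 0 < y') :
    ∫ z : ℂ, k (cdr y y' z) • ex ξ z = (fk k ξ y y' : ℂ) := by
  have hi := integrable_k_cdr hk hks hy hy'
  have h1 : ∀ z : ℂ, k (cdr y y' z) • ex ξ z =
      ((k (cdr y y' z) * cos (4 * π * (ξ * z).re) : ℝ) : ℂ) +
      ((k (cdr y y' z) * sin (4 * π * (ξ * z).re) : ℝ) : ℂ) * Complex.I := by
    intro z
    rw [Complex.real_smul, ex, Complex.exp_mul_I, ← Complex.ofReal_cos, ← Complex.ofReal_sin]
    push_cast
    ring
  simp_rw [h1]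
  have hcos : Continuous fun z : ℂ => cos (4 * π * (ξ * z).re) := by
    have : Continuous fun z : ℂ => (ξ * z).re := Complex.continuous_re.comp (by fun_prop)
    fun_prop
  have hsin : Continuous fun z : ℂ => sin (4 * π * (ξ * z).re) := by
    have : Continuous fun z : ℂ => (ξ * z).re := Complex.continuous_re.comp (by fun_prop)
    fun_prop
  have i1 : Integrable fun z : ℂ => k (cdr y y' z) * cos (4 * π * (ξ * z).re) :=
    hi.mul_bdd (c := 1) hcos.aestronglyMeasurable (Eventually.of_forall fun z => by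
      rw [Real.norm_eq_abs]; exact abs_cos_le_one _)
  have i2 : Integrable fun z : ℂ => k (cdr y y' z) * sin (4 * π * (ξ * z).re) :=
    hi.mul_bdd (c := 1) hsin.aestronglyMeasurable (Eventually.of_forall fun z => by
      rw [Real.norm_eq_abs]; exact abs_sin_le_one _)
  rw [integral_add i1.ofReal (i2.ofReal.mul_const _), integral_mul_const,
    integral_complex_ofReal, integral_complex_ofReal]
  have h2 : ∫ z : ℂ, k (cdr y y' z) * sin (4 * π * (ξ * z).re) = 0 := by
    have h3 := integral_neg_eq_self (fun z : ℂ => k (cdr y y' z) * sin (4 * π * (ξ * z).re)) volume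
    have h4 : ∀ z : ℂ, k (cdr y y' (-z)) * sin (4 * π * (ξ * -z).re) =
        -(k (cdr y y' z) * sin (4 * π * (ξ * z).re)) := by
      intro z
      rw [cdr, cdr, norm_neg, mul_neg, Complex.neg_re, mul_neg, Real.sin_neg]
      ring
    simp_rw [h4] at h3
    rw [integral_neg] at h3
    linarith
  rw [h2, fk]
  simp

/-- the one-dimensional form of the operators -/
theorem integral_cd_ex {k : ℝ → ℝ} (hk : Continuous k) (hks : HasCompactSupport k) (ξ : ℂ)
    {W : ℝ → ℂ} (hW : ContinuousOn W (Ioi 0)) {y : ℝ} (hy : 0 < y) :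
    ∫ p', k (cd ⟨0, y, hy⟩ p') • (W p'.y * ex ξ p'.z) =
      ∫ y' in Ioi (0 : ℝ), ((y' ^ 3)⁻¹ * fk k ξ y y') • W y' := by
  have hc : Continuous fun p : H3 => W p.y * ex ξ p.z :=
    (continuous_comp_y hW).mul ((continuous_ex ξ).comp continuous_z)
  rw [integral_horo (integrable_cd hk hks hc _)]
  refine setIntegral_congr_fun measurableSet_Ioi fun y' hy' => ?_
  have hy'' : (0 : ℝ) < y' := hy'
  have h1 : ∀ z : ℂ, k (cd ⟨0, y, hy⟩ (ofCR (z, y'))) •
      (W (ofCR (z, y')).y * ex ξ (ofCR (z, y')).z) = W y' * (k (cdr y y' z) • ex ξ z) := by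
    intro z
    rw [ofCR_mk_pos z hy'', cd_zero_eq, mul_smul_comm]
  simp_rw [h1]
  rw [integral_const_mul, integral_k_ex hk hks ξ hy hy'']
  simp only [Complex.real_smul]
  push_cast
  ring

end H3

end Fermat.Agent.LT
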