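import Fermat.Agent.LT.H3.Uniq1

set_option autoImplicit false

/-!
# Uniqueness of the decaying solution, part 2: differentiability
-/

namespace Fermat.Agent.LT

open MeasureTheory Set Topology Real Filter
open scoped ContDiff

namespace H3

/-- derivative of `cosh d` in the height -/
noncomputable def dcdr (y : ℝ) (p : H3) : ℝ := (y ^ 2 - ‖p.z‖ ^ 2 - p.y ^ 2) / (2 * y ^ 2 * p.y)

theorem hasDerivAt_cdr {y : ℝ} (hy : 0 < y) (p : H3) :
    HasDerivAt (fun y => cdr y p.y p.z) (dcdr y p) y := by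
  have hp := p.pos
  unfold cdr dcdr
  have h1 : HasDerivAt (fun y : ℝ => ‖p.z‖ ^ 2 + (y ^ 2 + p.y ^ 2)) (2 * y) y := by
    have h := (hasDerivAt_pow 2 y)
    simp only [Nat.cast_ofNat, Nat.add_one_sub_one, pow_one] at h
    exact (h.add_const (p.y ^ 2)).const_add (‖p.z‖ ^ 2)
  have h2 : HasDerivAt (fun y : ℝ => 2 * y * p.y) (2 * p.y) y := by
    have h := ((hasDerivAt_id y).const_mul 2).mul_const p.y
    simpa using h
  have h3 := h1.div h2 (by positivity)
  have e : (y ^ 2 - ‖p.z‖ ^ 2 - p.y ^ 2) / (2 * y ^ 2 * p.y) =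
      (2 * y * (2 * y * p.y) - (‖p.z‖ ^ 2 + (y ^ 2 + p.y ^ 2)) * (2 * p.y)) / (2 * y * p.y) ^ 2 := by
    field_simp
    ring
  rw [e]
  exact h3

theorem deriv_eq_zero_of_lt {k : ℝ → ℝ} {R : ℝ} (hR : ∀ t, R < t → k t = 0) {t : ℝ} (ht : R < t) :
    deriv k t = 0 := by
  have h : k =ᶠ[𝓝 t] fun _ => 0 := by
    filter_upwards [Ioi_mem_nhds ht] with s hs
    exact hR s hs
  rw [h.deriv_eq]
  simp

theorem differentiableAt_op {k : ℝ → ℝ} (hk : ContDiff ℝ ∞ k) (hks : HasCompactSupport k)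
    {f : H3 → ℂ} (hf : Continuous f) {y₀ : ℝ} (hy₀ : 0 < y₀) :
    DifferentiableAt ℝ (fun y => ∫ p' : H3, k (cdr y p'.y p'.z) • f p') y₀ := by
  obtain ⟨R, hR1, hR⟩ := exists_R hks
  have hkd : Differentiable ℝ k := hk.differentiable (by simp)
  have hkc : Continuous (deriv k) := (contDiff_infty_iff_deriv.mp hk).2.continuous
  set P₀ : H3 := ⟨0, y₀, hy₀⟩ with hP₀
  set K : Set H3 := {p' | cd P₀ p' ≤ 5 / 2 * R} with hK
  have hKc : IsCompact K := isCompact_ball P₀ _
  have hKm : MeasurableSet K := hKc.isClosed.measurableSet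
  -- support
  have hsupp : ∀ y ∈ Icc (y₀ / 2) (2 * y₀), ∀ p' : H3, p' ∉ K → R < cdr y p'.y p'.z := by
    intro y hy p' hp'
    have hy0 : 0 < y := lt_of_lt_of_le (by positivity) hy.1
    by_contra hle
    push Not at hle
    apply hp'
    have h1 : cd ⟨0, y, hy0⟩ p' ≤ R := by
      have := cd_zero_eq y p'.y hy0 p'.pos p'.z
      rw [← this] at hle
      exact hle
    have h2 : cd P₀ ⟨0, y, hy0⟩ ≤ 5 / 4 := by
      rw [cd_zero_eq, cdr, div_le_iff₀ (by positivity)]
      simp only [norm_zero]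
      nlinarith [mul_nonneg (sub_nonneg.mpr hy.1) (sub_nonneg.mpr hy.2)]
    have h3 := cd_triangle P₀ ⟨0, y, hy0⟩ p'
    have h4 := one_le_cd P₀ ⟨0, y, hy0⟩
    have h5 := one_le_cd ⟨0, y, hy0⟩ p'
    have h6 : 2 * cd P₀ ⟨0, y, hy0⟩ * cd ⟨0, y, hy0⟩ p' ≤ 2 * (5 / 4) * R := by gcongr
    show cd P₀ p' ≤ 5 / 2 * R
    linarith
  -- the derivative
  set F' : ℝ → H3 → ℂ := fun y p' => (deriv k (cdr y p'.y p'.z) * dcdr y p') • f p' with hF'
  have hF'c : ContinuousOn (fun q : ℝ × H3 => F' q.1 q.2) (Icc (y₀ / 2) (2 * y₀) ×ˢ K) := by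
    have hy : Continuous fun q : ℝ × H3 => q.2.y := continuous_y.comp continuous_snd
    have hz : Continuous fun q : ℝ × H3 => q.2.z := continuous_z.comp continuous_snd
    have hne : ∀ q ∈ Icc (y₀ / 2) (2 * y₀) ×ˢ K, q.1 ≠ 0 := by
      intro q hq
      have : 0 < q.1 := lt_of_lt_of_le (by positivity) hq.1.1
      exact this.ne'
    have c1 : ContinuousOn (fun q : ℝ × H3 => cdr q.1 q.2.y q.2.z)
        (Icc (y₀ / 2) (2 * y₀) ×ˢ K) := by
      have n1 : Continuous fun q : ℝ × H3 => ‖q.2.z‖ ^ 2 + (q.1 ^ 2 + q.2.y ^ 2) :=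
        (hz.norm.pow 2).add ((continuous_fst.pow 2).add (hy.pow 2))
      have n2 : Continuous fun q : ℝ × H3 => 2 * q.1 * q.2.y :=
        (continuous_const.mul continuous_fst).mul hy
      refine n1.continuousOn.div n2.continuousOn fun q hq => ?_
      exact mul_ne_zero (mul_ne_zero two_ne_zero (hne q hq)) q.2.pos.ne'
    have c2 : ContinuousOn (fun q : ℝ × H3 => dcdr q.1 q.2) (Icc (y₀ / 2) (2 * y₀) ×ˢ K) := by
      have n1 : Continuous fun q : ℝ × H3 => q.1 ^ 2 - ‖q.2.z‖ ^ 2 - q.2.y ^ 2 :=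
        ((continuous_fst.pow 2).sub (hz.norm.pow 2)).sub (hy.pow 2)
      have n2 : Continuous fun q : ℝ × H3 => 2 * q.1 ^ 2 * q.2.y :=
        (continuous_const.mul (continuous_fst.pow 2)).mul hy
      refine n1.continuousOn.div n2.continuousOn fun q hq => ?_
      exact mul_ne_zero (mul_ne_zero two_ne_zero (pow_ne_zero 2 (hne q hq))) q.2.pos.ne'
    have c3 : ContinuousOn (fun q : ℝ × H3 => deriv k (cdr q.1 q.2.y q.2.z))
        (Icc (y₀ / 2) (2 * y₀) ×ˢ K) := by
      have := hkc.comp_continuousOn c1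
      simpa only [Function.comp_def] using this
    have c4 : Continuous (fun q : ℝ × H3 => f q.2) := hf.comp continuous_snd
    exact (c3.mul c2).smul c4.continuousOn
  obtain ⟨C, hC⟩ := (isCompact_Icc.prod hKc).exists_bound_of_continuousOn hF'c
  have hy₀mem : y₀ ∈ Icc (y₀ / 2) (2 * y₀) := ⟨by linarith, by linarith⟩
  have hC0 : 0 ≤ C := by
    have hPK : P₀ ∈ K := by
      show cd P₀ P₀ ≤ 5 / 2 * R
      rw [cd_self]
      linarith
    exact (norm_nonneg _).trans (hC (y₀, P₀) ⟨hy₀mem, hPK⟩)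
  have hmeasF : ∀ y : ℝ, 0 < y → Continuous fun p' : H3 => k (cdr y p'.y p'.z) • f p' := by
    intro y hy0
    have : ∀ p' : H3, cdr y p'.y p'.z = cd ⟨0, y, hy0⟩ p' := fun p' =>
      (cd_zero_eq y p'.y hy0 p'.pos p'.z).symm
    simp_rw [this]
    exact (hk.continuous.comp (continuous_cd_right _)).smul hf
  refine (hasDerivAt_integral_of_dominated_loc_of_deriv_le (μ := (volume : Measure H3))
    (F := fun y p' => k (cdr y p'.y p'.z) • f p') (F' := F') (s := Icc (y₀ / 2) (2 * y₀))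
    (bound := K.indicator fun _ => C) (Icc_mem_nhds (by linarith) (by linarith))
    ?_ ?_ ?_ ?_ ?_ ?_).2.differentiableAt
  · filter_upwards [Ioi_mem_nhds hy₀] with y hy0
    exact (hmeasF y hy0).aestronglyMeasurable
  · have : ∀ p' : H3, cdr y₀ p'.y p'.z = cd P₀ p' := fun p' =>
      (cd_zero_eq y₀ p'.y hy₀ p'.pos p'.z).symm
    simp_rw [this]
    exact integrable_cd hk.continuous hks hf P₀
  · have h1 : Continuous (F' y₀) := by
      have c1 : Continuous fun p' : H3 => cdr y₀ p'.y p'.z := by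
        have : ∀ p' : H3, cdr y₀ p'.y p'.z = cd P₀ p' := fun p' =>
          (cd_zero_eq y₀ p'.y hy₀ p'.pos p'.z).symm
        simp_rw [this]
        exact continuous_cd_right _
      have c2 : Continuous fun p' : H3 => dcdr y₀ p' := by
        unfold dcdr
        have := continuous_y
        have := continuous_z
        refine Continuous.div (by fun_prop) (by fun_prop) fun p => ?_
        have := p.pos
        positivity
      exact ((hkc.comp c1).mul c2).smul hf
    exact h1.aestronglyMeasurable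
  · refine Eventually.of_forall fun p' y hy => ?_
    by_cases hp' : p' ∈ K
    · rw [indicator_of_mem hp']
      exact hC (y, p') ⟨hy, hp'⟩
    · rw [indicator_of_notMem hp']
      simp only [hF']
      rw [deriv_eq_zero_of_lt hR (hsupp y hy p' hp'), zero_mul, zero_smul, norm_zero]
  · exact (integrable_indicator_iff hKm).mpr (integrableOn_const hKc.measure_lt_top.ne)
  · refine Eventually.of_forall fun p' y hy => ?_
    have hy0 : 0 < y := lt_of_lt_of_le (by positivity) hy.1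
    have h1 := (hkd (cdr y p'.y p'.z)).hasDerivAt.comp y (hasDerivAt_cdr hy0 p')
    exact h1.smul_const (f p')

/-- a kernel with positive eigenvalue -/
theorem exists_smooth_bump {ε : ℝ} (hε : 0 < ε) : ∃ k : ℝ → ℝ, ContDiff ℝ ∞ k ∧
    HasCompactSupport k ∧ (∀ t, 0 ≤ k t) ∧ (∀ t, 1 + ε ≤ t → k t = 0) ∧
    (∀ t, |t - 1| < ε → 0 < k t) := by
  set φ : ContDiffBump (1 : ℝ) := ⟨ε / 2, ε, by positivity, by linarith⟩ with hφ
  refine ⟨φ, φ.contDiff, φ.hasCompactSupport, fun t => φ.nonneg, fun t ht => ?_, fun t ht => ?_⟩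
  · apply φ.zero_of_le_dist
    show ε ≤ dist t 1
    rw [Real.dist_eq]
    exact le_abs.mpr (Or.inl (by linarith))
  · apply φ.pos_of_mem_ball
    rw [Metric.mem_ball, Real.dist_eq]
    exact ht

theorem khat_pos {k : ℝ → ℝ} (hk : Continuous k) (hks : HasCompactSupport k) (h0 : ∀ t, 0 ≤ k t)
    {ε : ℝ} (hε : 0 < ε) (h1 : ∀ t, |t - 1| < ε → 0 < k t) : 0 < khat k := by
  have hki : Integrable k := hk.integrable_of_hasCompactSupport hks
  have hpos : ∀ u, 0 ≤ abelT k u := fun u => by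
    rw [abelT]
    have : 0 ≤ ∫ t in Ioi (cosh u), k t := integral_nonneg fun t => h0 t
    positivity
  have hA0 : 0 < abelT k 0 := by
    rw [abelT, Real.cosh_zero]
    have : 0 < ∫ t in Ioi (1 : ℝ), k t := by
      rw [setIntegral_pos_iff_support_of_nonneg_ae (Eventually.of_forall h0) hki.integrableOn]
      refine lt_of_lt_of_le ?_ (measure_mono (s := Ioo (1 : ℝ) (1 + ε)) fun t ht => ?_)
      · simp [hε]
      · refine ⟨?_, ht.1⟩
        have := h1 t (by rw [abs_of_pos (by linarith [ht.1])]; linarith [ht.2])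
        exact this.ne'
    positivity
  rw [khat]
  exact Continuous.integral_pos_of_hasCompactSupport_nonneg_nonzero (continuous_abelT hki)
    (hasCompactSupport_abelT hks) hpos hA0.ne'

end H3

end Fermat.Agent.LT
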