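import Fermat.Agent.LT.H3.Uniq2

set_option autoImplicit false

/-!
# Uniqueness of the decaying solution, part 3: the flux argument
-/

namespace Fermat.Agent.LT

open MeasureTheory Set Topology Real Filter
open scoped ContDiff

namespace H3

theorem integrable_inv_sq {a : ℝ} (ha : 0 < a) :
    Integrable ((Ici a).indicator fun y : ℝ => (y ^ 2)⁻¹) := by
  rw [integrable_indicator_iff measurableSet_Ici, integrableOn_Ici_iff_integrableOn_Ioi]
  refine (integrableOn_Ioi_rpow_of_lt (a := -2) (by norm_num) ha).congr_fun (fun y hy => ?_)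
    measurableSet_Ioi
  have hy' : 0 < y := lt_trans ha hy
  simp only []
  rw [Real.rpow_neg hy'.le]
  norm_cast

theorem integrableOn_fk_mul {k : ℝ → ℝ} (hk : Continuous k) (hks : HasCompactSupport k) (ξ : ℂ)
    {w : ℝ → ℝ} (hw : ContinuousOn w (Ioi 0)) (wb : ∀ Y : ℝ, 0 < Y → ∃ C : ℝ, ∀ y, Y ≤ y → |w y| ≤ C)
    {y : ℝ} (hy : 0 < y) :
    IntegrableOn (fun y' : ℝ => ((y' ^ 3)⁻¹ * fk k ξ y y') * w y') (Ioi 0) := by
  obtain ⟨R, hR1, hR⟩ := exists_R hks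
  have hR0 : 0 < R := by linarith
  have ha : 0 < y / (2 * R) := by positivity
  obtain ⟨M, hM⟩ := wb _ ha
  have hM0 : 0 ≤ M := (abs_nonneg _).trans (hM _ le_rfl)
  set C0 : ℝ := 2 * π * ∫ t : ℝ, |k t| with hC0
  have hC0' : 0 ≤ C0 := by
    have : 0 ≤ ∫ t : ℝ, |k t| := integral_nonneg fun t => abs_nonneg _
    positivity
  have hmeas : AEStronglyMeasurable (fun y' : ℝ => ((y' ^ 3)⁻¹ * fk k ξ y y') * w y')
      (volume.restrict (Ioi 0)) := by
    have h1 : StronglyMeasurable fun y' : ℝ => fk k ξ y y' :=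
      (measurable_fk hk ξ).comp_measurable measurable_prodMk_left
    have h2 : Measurable fun y' : ℝ => (y' ^ 3)⁻¹ := by fun_prop
    exact ((h2.stronglyMeasurable.mul h1).aestronglyMeasurable).mul
      (hw.aestronglyMeasurable measurableSet_Ioi)
  refine (((integrable_inv_sq ha).const_mul (C0 * y * M)).integrableOn).mono' hmeas ?_
  refine (ae_restrict_iff' measurableSet_Ioi).mpr (Eventually.of_forall fun y' hy' => ?_)
  have hy'0 : (0 : ℝ) < y' := hy'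
  by_cases h : y / (2 * R) ≤ y'
  · rw [indicator_of_mem (show y' ∈ Ici (y / (2 * R)) from h), norm_mul, norm_mul,
      Real.norm_eq_abs, Real.norm_eq_abs, Real.norm_eq_abs, abs_of_pos (by positivity)]
    have h1 := abs_fk_le hk hks ξ hy hy'0
    have h2 := hM y' h
    calc (y' ^ 3)⁻¹ * |fk k ξ y y'| * |w y'| ≤ (y' ^ 3)⁻¹ * (C0 * (y * y')) * M := by gcongr
      _ = _ := by field_simp
  · push Not at h
    rw [lt_div_iff₀ (by positivity)] at h
    rw [fk_eq_zero hR ξ hy hy'0 (by linarith), mul_zero, zero_mul, norm_zero]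
    refine mul_nonneg (by positivity) (indicator_nonneg (fun t _ => by positivity) _)

/-- The flux integrand. -/
noncomputable def flux (k : ℝ → ℝ) (ξ : ℂ) (V w : ℝ → ℝ) (q : ℝ × ℝ) : ℝ :=
  ((q.1 ^ 3)⁻¹ * (q.2 ^ 3)⁻¹) * fk k ξ q.1 q.2 * (V q.1 * w q.2 - w q.1 * V q.2)

theorem flux_swap (k : ℝ → ℝ) (ξ : ℂ) (V w : ℝ → ℝ) (q : ℝ × ℝ) :
    flux k ξ V w q.swap = - flux k ξ V w q := by
  simp only [flux, Prod.fst_swap, Prod.snd_swap]
  rw [fk_symm k ξ q.2 q.1]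
  ring

theorem integrable_flux {k : ℝ → ℝ} (hk : Continuous k) (hks : HasCompactSupport k) (ξ : ℂ)
    {V w : ℝ → ℝ} (hV : ContinuousOn V (Ioi 0)) (hw : ContinuousOn w (Ioi 0))
    (Vb : ∀ Y : ℝ, 0 < Y → ∃ C : ℝ, ∀ y, Y ≤ y → |V y| ≤ C)
    (wb : ∀ Y : ℝ, 0 < Y → ∃ C : ℝ, ∀ y, Y ≤ y → |w y| ≤ C) {Y : ℝ} (hY : 0 < Y) :
    IntegrableOn (flux k ξ V w) (Ioi Y ×ˢ Ioi 0) ((volume : Measure ℝ).prod volume) := by
  obtain ⟨R, hR1, hR⟩ := exists_R hks
  have hR0 : 0 < R := by linarith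
  set a : ℝ := Y / (2 * R) with ha'
  have ha : 0 < a := by positivity
  have haY : a ≤ Y := by
    rw [ha', div_le_iff₀ (by positivity)]
    nlinarith
  obtain ⟨M1, hM1⟩ := Vb _ ha
  obtain ⟨M2, hM2⟩ := wb _ ha
  have hM10 : 0 ≤ M1 := (abs_nonneg _).trans (hM1 _ le_rfl)
  have hM20 : 0 ≤ M2 := (abs_nonneg _).trans (hM2 _ le_rfl)
  set C0 : ℝ := 2 * π * ∫ t : ℝ, |k t| with hC0
  have hC0' : 0 ≤ C0 := by
    have : 0 ≤ ∫ t : ℝ, |k t| := integral_nonneg fun t => abs_nonneg _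
    positivity
  have hi := ((integrable_inv_sq ha).mul_prod (integrable_inv_sq ha)).const_mul (C0 * (2 * M1 * M2))
  have hmeas : AEStronglyMeasurable (flux k ξ V w)
      (((volume : Measure ℝ).prod volume).restrict (Ioi Y ×ˢ Ioi 0)) := by
    have hsub : Ioi Y ×ˢ Ioi (0 : ℝ) ⊆ Ioi (0 : ℝ) ×ˢ Ioi (0 : ℝ) :=
      prod_mono (Ioi_subset_Ioi hY.le) le_rfl
    have h1 : StronglyMeasurable fun q : ℝ × ℝ => fk k ξ q.1 q.2 := measurable_fk hk ξ
    have h2 : Measurable fun q : ℝ × ℝ => (q.1 ^ 3)⁻¹ * (q.2 ^ 3)⁻¹ := by fun_prop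
    have hV1 : ContinuousOn (fun q : ℝ × ℝ => V q.1) (Ioi 0 ×ˢ Ioi 0) :=
      hV.comp continuousOn_fst fun q hq => hq.1
    have hV2 : ContinuousOn (fun q : ℝ × ℝ => V q.2) (Ioi 0 ×ˢ Ioi 0) :=
      hV.comp continuousOn_snd fun q hq => hq.2
    have hw1 : ContinuousOn (fun q : ℝ × ℝ => w q.1) (Ioi 0 ×ˢ Ioi 0) :=
      hw.comp continuousOn_fst fun q hq => hq.1
    have hw2 : ContinuousOn (fun q : ℝ × ℝ => w q.2) (Ioi 0 ×ˢ Ioi 0) :=
      hw.comp continuousOn_snd fun q hq => hq.2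
    have h3 := (((hV1.mul hw2).sub (hw1.mul hV2)).mono hsub).aestronglyMeasurable
      (μ := (volume : Measure ℝ).prod volume) (measurableSet_Ioi.prod measurableSet_Ioi)
    exact ((h2.stronglyMeasurable.mul h1).aestronglyMeasurable).mul h3
  refine (hi.integrableOn).mono' hmeas ?_
  refine (ae_restrict_iff' (measurableSet_Ioi.prod measurableSet_Ioi)).mpr
    (Eventually.of_forall fun q hq => ?_)
  have hq1 : Y < q.1 := hq.1
  have hq10 : 0 < q.1 := hY.trans hq1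
  have hq2 : 0 < q.2 := hq.2
  have hmem1 : q.1 ∈ Ici a := haY.trans hq1.le
  by_cases h : a ≤ q.2
  · rw [indicator_of_mem hmem1, indicator_of_mem (show q.2 ∈ Ici a from h), flux, norm_mul,
      norm_mul, Real.norm_eq_abs, Real.norm_eq_abs, Real.norm_eq_abs,
      abs_of_pos (show 0 < (q.1 ^ 3)⁻¹ * (q.2 ^ 3)⁻¹ by positivity)]
    have h1 := abs_fk_le hk hks ξ hq10 hq2
    have h2 : |V q.1 * w q.2 - w q.1 * V q.2| ≤ 2 * M1 * M2 := by
      refine (abs_sub _ _).trans ?_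
      rw [abs_mul, abs_mul]
      have e1 := mul_le_mul (hM1 q.1 hmem1) (hM2 q.2 h) (abs_nonneg _) hM10
      have e2 := mul_le_mul (hM2 q.1 hmem1) (hM1 q.2 h) (abs_nonneg _) hM20
      linarith
    calc (q.1 ^ 3)⁻¹ * (q.2 ^ 3)⁻¹ * |fk k ξ q.1 q.2| * |V q.1 * w q.2 - w q.1 * V q.2|
        ≤ (q.1 ^ 3)⁻¹ * (q.2 ^ 3)⁻¹ * (C0 * (q.1 * q.2)) * (2 * M1 * M2) := by gcongr
      _ = _ := by field_simp
  · push Not at h
    have h1 : 2 * R * q.2 < q.1 := by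
      rw [ha', lt_div_iff₀ (by positivity)] at h
      linarith
    rw [flux, fk_eq_zero hR ξ hq10 hq2 h1, mul_zero, zero_mul, norm_zero]
    refine mul_nonneg (by positivity) (mul_nonneg (indicator_nonneg (fun t _ => by positivity) _)
      (indicator_nonneg (fun t _ => by positivity) _))

/-- Vanishing of the flux. -/
theorem integral_flux {k : ℝ → ℝ} (hk : Continuous k) (hks : HasCompactSupport k) (ξ : ℂ)
    {V w : ℝ → ℝ} (hV : ContinuousOn V (Ioi 0)) (hw : ContinuousOn w (Ioi 0))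
    (Vb : ∀ Y : ℝ, 0 < Y → ∃ C : ℝ, ∀ y, Y ≤ y → |V y| ≤ C)
    (wb : ∀ Y : ℝ, 0 < Y → ∃ C : ℝ, ∀ y, Y ≤ y → |w y| ≤ C) {κ : ℝ}
    (hVe : ∀ y : ℝ, 0 < y → ∫ y' in Ioi (0 : ℝ), ((y' ^ 3)⁻¹ * fk k ξ y y') * V y' = κ * V y)
    (hwe : ∀ y : ℝ, 0 < y → ∫ y' in Ioi (0 : ℝ), ((y' ^ 3)⁻¹ * fk k ξ y y') * w y' = κ * w y)
    {Y : ℝ} (hY : 0 < Y) :
    ∫ q in Ioi Y ×ˢ Ioc 0 Y, flux k ξ V w q ∂((volume : Measure ℝ).prod volume) = 0 := by
  have hi := integrable_flux hk hks ξ hV hw Vb wb hY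
  have h1 : ∫ q in Ioi Y ×ˢ Ioi 0, flux k ξ V w q ∂((volume : Measure ℝ).prod volume) = 0 := by
    rw [setIntegral_prod _ hi]
    refine setIntegral_eq_zero_of_forall_eq_zero fun y hy => ?_
    have hy0 : 0 < y := hY.trans hy
    have e1 : ∀ y', flux k ξ V w (y, y') = (y ^ 3)⁻¹ * V y * (((y' ^ 3)⁻¹ * fk k ξ y y') * w y') -
        (y ^ 3)⁻¹ * w y * (((y' ^ 3)⁻¹ * fk k ξ y y') * V y') := by
      intro y'
      simp only [flux]
      ring
    simp_rw [e1]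
    rw [integral_sub ((integrableOn_fk_mul hk hks ξ hw wb hy0).const_mul _)
      ((integrableOn_fk_mul hk hks ξ hV Vb hy0).const_mul _), integral_const_mul,
      integral_const_mul, hVe y hy0, hwe y hy0]
    ring
  have hsplit : Ioi Y ×ˢ Ioi (0 : ℝ) = (Ioi Y ×ˢ Ioc 0 Y) ∪ (Ioi Y ×ˢ Ioi Y) := by
    rw [← prod_union, Ioc_union_Ioi_eq_Ioi hY.le]
  have hdisj : Disjoint (Ioi Y ×ˢ Ioc 0 Y) (Ioi Y ×ˢ Ioi Y) := by
    rw [Set.disjoint_prod]
    right
    rw [Set.disjoint_left]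
    intro t ht ht'
    exact absurd ht.2 (not_le.mpr ht')
  rw [hsplit] at h1 hi
  rw [setIntegral_union hdisj (measurableSet_Ioi.prod measurableSet_Ioi)
    (hi.mono_set subset_union_left) (hi.mono_set subset_union_right)] at h1
  have h2 : ∫ q in Ioi Y ×ˢ Ioi Y, flux k ξ V w q ∂((volume : Measure ℝ).prod volume) = 0 := by
    have h3 := setIntegral_prod_swap (μ := (volume : Measure ℝ)) (ν := (volume : Measure ℝ))
      (Ioi Y) (Ioi Y) (flux k ξ V w)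
    simp_rw [flux_swap] at h3
    rw [integral_neg] at h3
    linarith
  linarith

end H3

end Fermat.Agent.LT
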